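/-
S56 marathon, helper7.  **Tame structure of `Γ = Gal(ℚ̄_p/ℚ_p)` relative to a finite normal `K/ℚ_p`**
(for helper3's Flat/ chain; on top of his `Kum/Tame`, `Kum/TameP`).

* `resAut_mul/one/pow`, `resG` (residue action), `thetaG` (`θ`), `resG_mul`, `thetaG_mul`;
* `inertiaK K`, `wildK K` : normal subgroups of `Γ`; `thetaK K : inertiaK K →* 𝓀[K]ˣ`;
* `exists_resG_eq_pow` (d) : every `g` acts on the residue field by a power of Frobenius;
* `exists_mul_pow_inv_mem_inertiaK` (b) : `Γ = ⟨φ⟩ · I`;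
* `wildK_eq_fixingSubgroup` : for tame `K`, wild inertia is `Γ_K`;
* `exists_mul_pow_inv_mem_fixingSubgroup` (a) : for tame `K`, `I = ⟨τ⟩ · Γ_K`;
* `conj_mul_pow_inv_mem_fixingSubgroup` (c) : `φ τ φ⁻¹ ≡ τ ^ p` modulo `Γ_K`;
* `exists_tame_structure` (TS);
* `exists_fixedField_of_ker` (FF).
-/
import Mathlib
import Fermat.Agent.S56lib.Kum.TameP

set_option autoImplicit false
set_option linter.unusedSectionVars false
set_option linter.style.haveILetI false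

open scoped NormedField Valued NNReal

noncomputable section

namespace Fermat.Agent.S56lib.PT9a

open Fermat.Agent.S55lib Fermat.Agent.S55lib.LocalUnr Fermat.Agent.S56lib.Kum IsUltrametricDist

section Abstract

variable {K : Type*} [NontriviallyNormedField K] [IsUltrametricDist K] [ProperSpace K]

theorem resMap_mul' (σ σ' : K ≃+* K) (hσ : ∀ x, ‖σ x‖ = ‖x‖) (hσ' : ∀ x, ‖σ' x‖ = ‖x‖)
    (hσσ' : ∀ x, ‖(σ * σ') x‖ = ‖x‖) (x : 𝓀[K]) :
    resMap (σ * σ') hσσ' x = resMap σ hσ (resMap σ' hσ' x) := by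
  obtain ⟨y, rfl⟩ := IsLocalRing.residue_surjective x
  rw [resMap_residue, resMap_residue, resMap_residue]
  rfl

theorem resMap_one' (h : ∀ x, ‖(1 : K ≃+* K) x‖ = ‖x‖) (x : 𝓀[K]) : resMap 1 h x = x := by
  obtain ⟨y, rfl⟩ := IsLocalRing.residue_surjective x
  rw [resMap_residue]
  rfl

theorem theta_one' (h : ∀ x, ‖(1 : K ≃+* K) x‖ = ‖x‖) : theta (1 : K ≃+* K) h = 1 := by
  rw [theta_eq_red]
  show red (unif K / unif K) = 1
  rw [div_self (unif_isUniformizer K).ne_zero, red_one]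

/-- `red` of an inverse of a unit -/
theorem red_mul_inv_of_norm_eq_one {u : K} (hu : ‖u‖ = 1) : red u * red u⁻¹ = 1 := by
  have hu0 : u ≠ 0 := by
    rintro rfl
    rw [norm_zero] at hu
    exact zero_ne_one hu
  rw [← red_mul hu.le (by rw [norm_inv, hu, inv_one]), mul_inv_cancel₀ hu0, red_one]

end Abstract

section Gal

variable {p : ℕ} [hp : Fact p.Prime]
  (K : IntermediateField ℚ_[p] (PadicAlgCl p)) [FiniteDimensional ℚ_[p] K] [Normal ℚ_[p] K]

theorem resAut_mul (g h : PadicAlgCl p ≃ₐ[ℚ_[p]] PadicAlgCl p) :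
    resAut K (g * h) = resAut K g * resAut K h := by
  apply RingEquiv.ext
  intro x
  apply Subtype.ext
  rw [coe_resAut, RingAut.mul_apply, coe_resAut, coe_resAut, AlgEquiv.mul_apply]

theorem resAut_one : resAut K (1 : PadicAlgCl p ≃ₐ[ℚ_[p]] PadicAlgCl p) = 1 := by
  apply RingEquiv.ext
  intro x
  apply Subtype.ext
  rw [coe_resAut]
  rfl

theorem resAut_pow (g : PadicAlgCl p ≃ₐ[ℚ_[p]] PadicAlgCl p) (n : ℕ) :
    resAut K (g ^ n) = resAut K g ^ n := by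
  induction n with
  | zero => rw [pow_zero, pow_zero, resAut_one]
  | succ n ih => rw [pow_succ, pow_succ, resAut_mul, ih]

theorem mem_fixingSubgroup_iff_resAut (g : PadicAlgCl p ≃ₐ[ℚ_[p]] PadicAlgCl p) :
    g ∈ K.fixingSubgroup ↔ ∀ x : K, resAut K g x = x := by
  rw [IntermediateField.mem_fixingSubgroup_iff]
  constructor
  · intro h x
    apply Subtype.ext
    rw [coe_resAut]
    exact h x x.2
  · intro h x hx
    have := congrArg (fun y : K => (y : PadicAlgCl p)) (h ⟨x, hx⟩)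
    simp only [coe_resAut] at this
    exact this

/-- the residue action of `g ∈ Γ` on `𝓀[K]` -/
def resG (g : PadicAlgCl p ≃ₐ[ℚ_[p]] PadicAlgCl p) : 𝓀[K] →+* 𝓀[K] :=
  resMap (resAut K g) (norm_resAut K g)

/-- `θ_K(g)` -/
def thetaG (g : PadicAlgCl p ≃ₐ[ℚ_[p]] PadicAlgCl p) : 𝓀[K] :=
  theta (resAut K g) (norm_resAut K g)

theorem resG_mul (g h : PadicAlgCl p ≃ₐ[ℚ_[p]] PadicAlgCl p) (x : 𝓀[K]) :
    resG K (g * h) x = resG K g (resG K h x) := by
  unfold resG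
  rw [resMap_congr (resAut_mul K g h) (norm_resAut K (g * h))
    (fun x => by rw [← resAut_mul]; exact norm_resAut K (g * h) x)]
  exact resMap_mul' _ _ _ _ _ x

theorem resG_one (x : 𝓀[K]) : resG K (1 : PadicAlgCl p ≃ₐ[ℚ_[p]] PadicAlgCl p) x = x := by
  unfold resG
  rw [resMap_congr (resAut_one K) (norm_resAut K 1) (fun x => rfl)]
  exact resMap_one' _ x

theorem thetaG_mul (g h : PadicAlgCl p ≃ₐ[ℚ_[p]] PadicAlgCl p) :
    thetaG K (g * h) = thetaG K g * resG K g (thetaG K h) := by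
  unfold thetaG resG
  rw [theta_congr (resAut_mul K g h) (norm_resAut K (g * h))
    (fun x => by rw [← resAut_mul]; exact norm_resAut K (g * h) x)]
  exact theta_mul _ _ _ _ _

theorem thetaG_one : thetaG K (1 : PadicAlgCl p ≃ₐ[ℚ_[p]] PadicAlgCl p) = 1 := by
  unfold thetaG
  rw [theta_congr (resAut_one K) (norm_resAut K 1) (fun x => rfl)]
  exact theta_one' _

theorem thetaG_ne_zero (g : PadicAlgCl p ≃ₐ[ℚ_[p]] PadicAlgCl p) : thetaG K g ≠ 0 :=
  theta_ne_zero _ _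

/-- the inertia subgroup of `Γ` relative to `K` -/
def inertiaK : Subgroup (PadicAlgCl p ≃ₐ[ℚ_[p]] PadicAlgCl p) where
  carrier := {g | ∀ x, resG K g x = x}
  one_mem' := resG_one K
  mul_mem' := fun {a b} ha hb x => by rw [resG_mul, hb, ha]
  inv_mem' := fun {g} hg x => by
    have h1 : resG K g⁻¹ (resG K g x) = x := by
      rw [← resG_mul, inv_mul_cancel, resG_one]
    rw [hg x] at h1
    exact h1

theorem mem_inertiaK {g : PadicAlgCl p ≃ₐ[ℚ_[p]] PadicAlgCl p} :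
    g ∈ inertiaK K ↔ ∀ x, resMap (resAut K g) (norm_resAut K g) x = x := Iff.rfl

instance inertiaK_normal : (inertiaK K).Normal :=
  ⟨fun g hg δ x => by
    have hg' : ∀ y, resG K g y = y := hg
    rw [resG_mul, resG_mul, hg', ← resG_mul, mul_inv_cancel, resG_one]⟩

/-- `θ` on the inertia subgroup -/
def thetaK : inertiaK K →* (𝓀[K])ˣ where
  toFun g := Units.mk0 (thetaG K g) (thetaG_ne_zero K g)
  map_one' := Units.ext (thetaG_one K)
  map_mul' g h := Units.ext (by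
    show thetaG K ((g : PadicAlgCl p ≃ₐ[ℚ_[p]] PadicAlgCl p) * h) = thetaG K g * thetaG K h
    have hg : ∀ y, resG K (g : PadicAlgCl p ≃ₐ[ℚ_[p]] PadicAlgCl p) y = y := g.2
    rw [thetaG_mul, hg])

theorem thetaK_apply (g : inertiaK K) : ((thetaK K g : (𝓀[K])ˣ) : 𝓀[K]) = thetaG K g := rfl

/-- `θ` of a conjugate -/
theorem thetaG_conj (δ : PadicAlgCl p ≃ₐ[ℚ_[p]] PadicAlgCl p)
    {g : PadicAlgCl p ≃ₐ[ℚ_[p]] PadicAlgCl p} (hg : g ∈ inertiaK K) :
    thetaG K (δ * g * δ⁻¹) = resG K δ (thetaG K g) := by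
  have hg' : ∀ y, resG K g y = y := hg
  have h1 : thetaG K δ * resG K δ (thetaG K δ⁻¹) = 1 := by
    rw [← thetaG_mul, mul_inv_cancel, thetaG_one]
  rw [mul_assoc, thetaG_mul, thetaG_mul, hg', map_mul, ← mul_assoc, mul_right_comm, h1, one_mul]

/-- the wild inertia subgroup of `Γ` relative to `K` -/
def wildK : Subgroup (PadicAlgCl p ≃ₐ[ℚ_[p]] PadicAlgCl p) :=
  (thetaK K).ker.map (inertiaK K).subtype

theorem mem_wildK {g : PadicAlgCl p ≃ₐ[ℚ_[p]] PadicAlgCl p} :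
    g ∈ wildK K ↔ g ∈ inertiaK K ∧ thetaG K g = 1 := by
  rw [wildK, Subgroup.mem_map]
  constructor
  · rintro ⟨x, hx, rfl⟩
    refine ⟨x.2, ?_⟩
    have := congrArg Units.val (MonoidHom.mem_ker.1 hx)
    exact this
  · rintro ⟨h1, h2⟩
    refine ⟨⟨g, h1⟩, ?_, rfl⟩
    rw [MonoidHom.mem_ker]
    exact Units.ext h2

theorem wildK_le_inertiaK : wildK K ≤ inertiaK K := fun _ hg => ((mem_wildK K).1 hg).1

instance wildK_normal : (wildK K).Normal :=
  ⟨fun g hg δ => by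
    rw [mem_wildK] at hg ⊢
    refine ⟨(inertiaK_normal K).conj_mem g hg.1 δ, ?_⟩
    rw [thetaG_conj K δ hg.1, hg.2, map_one]⟩

theorem fixingSubgroup_le_wildK : K.fixingSubgroup ≤ wildK K := by
  intro g hg
  have h1 : resAut K g = 1 := by
    apply RingEquiv.ext
    intro x
    exact (mem_fixingSubgroup_iff_resAut K g).1 hg x
  rw [mem_wildK]
  constructor
  · intro x
    show resMap (resAut K g) (norm_resAut K g) x = x
    rw [resMap_congr h1 (norm_resAut K g) (fun x => rfl)]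
    exact resMap_one' _ x
  · show theta (resAut K g) (norm_resAut K g) = 1
    rw [theta_congr h1 (norm_resAut K g) (fun x => rfl)]
    exact theta_one' _

/-- elements of the wild inertia are wild on `K` -/
theorem wild_of_mem_wildK {g : PadicAlgCl p ≃ₐ[ℚ_[p]] PadicAlgCl p} (hg : g ∈ wildK K)
    (x : K) (hx : x ≠ 0) : ‖resAut K g x - x‖ < ‖x‖ :=
  wild_of_theta (resAut K g) (norm_resAut K g) ((mem_wildK K).1 hg).1 ((mem_wildK K).1 hg).2 x hx

/-- **(d)** every `g ∈ Γ` acts on the residue field of `K` by a power of the Frobenius -/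
theorem exists_resG_eq_pow (g : PadicAlgCl p ≃ₐ[ℚ_[p]] PadicAlgCl p) :
    ∃ a : ℕ, ∀ x, resMap (resAut K g) (norm_resAut K g) x = x ^ (p ^ a) := by
  haveI : IsGalois ℚ_[p] K := ⟨⟩
  set σ : K ≃ₐ[ℚ_[p]] K := AlgEquiv.restrictNormal g K with hσ
  obtain ⟨a, ha⟩ := exists_pow_resFrob (K := ℚ_[p]) (L := K) (resGal ℚ_[p] K σ)
  refine ⟨a, fun x => ?_⟩
  have h1 : resMap (resAut K g) (norm_resAut K g) x = resGal ℚ_[p] K σ x :=
    resMap_toRingEquiv ℚ_[p] K σ x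
  rw [h1, ← ha, resFrob_pow_apply, LocalH.card_residue_padic]

theorem resG_pow_of_frob {φ : PadicAlgCl p ≃ₐ[ℚ_[p]] PadicAlgCl p}
    (hφ : ∀ x, resG K φ x = x ^ p) (j : ℕ) (x : 𝓀[K]) : resG K (φ ^ j) x = x ^ (p ^ j) := by
  induction j generalizing x with
  | zero => rw [pow_zero, resG_one, pow_zero, pow_one]
  | succ j ih => rw [pow_succ, resG_mul, hφ, ih, ← pow_mul, pow_succ, mul_comm]

/-- **(b)** `Γ = ⟨φ⟩ · I` for a Frobenius lift `φ` -/
theorem exists_mul_pow_inv_mem_inertiaK {φ : PadicAlgCl p ≃ₐ[ℚ_[p]] PadicAlgCl p}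
    (hφ : ∀ x, resMap (resAut K φ) (norm_resAut K φ) x = x ^ p)
    (g : PadicAlgCl p ≃ₐ[ℚ_[p]] PadicAlgCl p) : ∃ j : ℕ, g * (φ ^ j)⁻¹ ∈ inertiaK K := by
  obtain ⟨a, ha⟩ := exists_resG_eq_pow K g
  refine ⟨a, fun y => ?_⟩
  haveI := finite_residue K
  have hsurj : Function.Surjective (resG K (φ ^ a)) :=
    Finite.surjective_of_injective (RingHom.injective _)
  obtain ⟨x, rfl⟩ := hsurj y
  rw [← resG_mul, inv_mul_cancel_right, resG_pow_of_frob K hφ]
  exact ha x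

/-- **(b)**, unfolded -/
theorem exists_resMap_mul_pow_inv {φ : PadicAlgCl p ≃ₐ[ℚ_[p]] PadicAlgCl p}
    (hφ : ∀ x, resMap (resAut K φ) (norm_resAut K φ) x = x ^ p)
    (g : PadicAlgCl p ≃ₐ[ℚ_[p]] PadicAlgCl p) :
    ∃ j : ℕ, ∀ x, resMap (resAut K (g * (φ ^ j)⁻¹)) (norm_resAut K (g * (φ ^ j)⁻¹)) x = x :=
  exists_mul_pow_inv_mem_inertiaK K hφ g

theorem pow_finrank_mem_fixingSubgroup (g : PadicAlgCl p ≃ₐ[ℚ_[p]] PadicAlgCl p) :
    g ^ Module.finrank ℚ_[p] K ∈ K.fixingSubgroup := by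
  haveI : IsGalois ℚ_[p] K := ⟨⟩
  have h1 : (AlgEquiv.restrictNormalHom K g) ^ Module.finrank ℚ_[p] K = 1 := by
    rw [← IsGalois.card_aut_eq_finrank]
    exact pow_card_eq_one'
  rw [← map_pow] at h1
  rw [mem_fixingSubgroup_iff_resAut]
  intro x
  have := congrArg (fun σ : K ≃ₐ[ℚ_[p]] K => σ x) h1
  exact this

/-- elements of the wild inertia have `p`-power order modulo `Γ_K` -/
theorem exists_pow_mem_fixingSubgroup_of_mem_wildK
    {w : PadicAlgCl p ≃ₐ[ℚ_[p]] PadicAlgCl p} (hw : w ∈ wildK K) :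
    ∃ n : ℕ, w ^ (p ^ n) ∈ K.fixingSubgroup := by
  have hm : Module.finrank ℚ_[p] K ≠ 0 := Module.finrank_pos.ne'
  obtain ⟨a, m', hm', hmeq⟩ := Nat.exists_eq_pow_mul_and_not_dvd hm p hp.out.ne_one
  refine ⟨a, ?_⟩
  have hw' : w ^ (p ^ a) ∈ wildK K := pow_mem hw _
  rw [mem_fixingSubgroup_iff_resAut]
  apply eq_id_of_wild hp.out (norm_natCast_lt_one_padic K) (resAut K (w ^ p ^ a))
    (wild_of_mem_wildK K hw') hm'
  intro x
  rw [← resAut_pow, ← pow_mul, ← hmeq]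
  exact (mem_fixingSubgroup_iff_resAut K _).1 (pow_finrank_mem_fixingSubgroup K w) x

/-- for tame `K` the wild inertia is `Γ_K` -/
theorem wildK_eq_fixingSubgroup (hdeg : ¬ p ∣ Module.finrank ℚ_[p] K) :
    wildK K = K.fixingSubgroup := by
  apply le_antisymm _ (fixingSubgroup_le_wildK K)
  intro w hw
  rw [mem_fixingSubgroup_iff_resAut]
  apply eq_id_of_wild hp.out (norm_natCast_lt_one_padic K) (resAut K w)
    (wild_of_mem_wildK K hw) hdeg
  intro x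
  rw [← resAut_pow]
  exact (mem_fixingSubgroup_iff_resAut K _).1 (pow_finrank_mem_fixingSubgroup K w) x

/-- `θ(g) ^ e = 1` on the inertia subgroup, `e = ord_K p` -/
theorem thetaG_pow_ord {g : PadicAlgCl p ≃ₐ[ℚ_[p]] PadicAlgCl p} (hg : g ∈ inertiaK K) {e : ℕ}
    (he : (e : ℤ) = ord K ((p : ℕ) : K)) : thetaG K g ^ e = 1 := by
  set σ := resAut K g with hσdef
  have hσ : ∀ x, ‖σ x‖ = ‖x‖ := norm_resAut K g
  have hres : ∀ y, resMap σ hσ y = y := hg
  have hπ0 : unif K ≠ 0 := (unif_isUniformizer K).ne_zero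
  have hP0 : ((p : ℕ) : K) ≠ 0 := Nat.cast_ne_zero.2 hp.out.ne_zero
  set u : K := ((p : ℕ) : K) / unif K ^ e with hu
  have hnu : ‖u‖ = 1 := by
    rw [hu, norm_div, norm_pow, norm_eq_zpow_ord hP0, ← he, zpow_natCast]
    exact div_self (pow_ne_zero _ (unifNorm_pos K).ne')
  have hu0 : u ≠ 0 := by
    rintro h0
    rw [h0, norm_zero] at hnu
    exact zero_ne_one hnu
  have hπe : unif K ^ e = ((p : ℕ) : K) / u := by
    rw [hu]
    field_simp
  have hσu : ‖σ u‖ = 1 := by rw [hσ, hnu]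
  have hσu0 : σ u ≠ 0 := by
    rintro h0
    rw [h0, norm_zero] at hσu
    exact zero_ne_one hσu
  have h1 : (σ (unif K) / unif K) ^ e = u * (σ u)⁻¹ := by
    rw [div_pow, ← map_pow, hπe, map_div₀, map_natCast]
    field_simp
  have hn1 : ‖σ (unif K) / unif K‖ ≤ 1 := by
    rw [norm_div, hσ, div_self (norm_ne_zero_iff.2 hπ0)]
  unfold thetaG
  rw [theta_eq_red, ← red_pow hn1, h1, red_mul hnu.le (by rw [norm_inv, hσu, inv_one])]
  have h2 : red (σ u) = red u := by rw [red_map σ hσ hnu.le, hres]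
  rw [← h2]
  exact red_mul_inv_of_norm_eq_one hσu

/-- **(a)** for tame `K`, `I = ⟨τ⟩ · Γ_K` for a tame generator `τ` -/
theorem exists_mul_pow_inv_mem_fixingSubgroup (hdeg : ¬ p ∣ Module.finrank ℚ_[p] K)
    {τ : PadicAlgCl p ≃ₐ[ℚ_[p]] PadicAlgCl p}
    (hτres : ∀ x, resMap (resAut K τ) (norm_resAut K τ) x = x)
    (hτord : ((orderOf (Units.mk0 (theta (resAut K τ) (norm_resAut K τ)) (theta_ne_zero _ _)) : ℕ) : ℤ)
      = ord K ((p : ℕ) : K))
    (g : PadicAlgCl p ≃ₐ[ℚ_[p]] PadicAlgCl p)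
    (hg : ∀ x, resMap (resAut K g) (norm_resAut K g) x = x) :
    ∃ j : ℕ, g * (τ ^ j)⁻¹ ∈ K.fixingSubgroup := by
  haveI := finite_residue K
  have hτI : τ ∈ inertiaK K := hτres
  have hgI : g ∈ inertiaK K := hg
  set e := orderOf (thetaK K ⟨τ, hτI⟩) with he
  have hprim : IsPrimitiveRoot (thetaK K ⟨τ, hτI⟩) e := IsPrimitiveRoot.orderOf _
  have hprim' : IsPrimitiveRoot (thetaG K τ) e := IsPrimitiveRoot.coe_units_iff.2 hprim
  have hge : thetaG K g ^ e = 1 := thetaG_pow_ord K hgI hτord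
  have he0 : e ≠ 0 := (orderOf_pos _).ne'
  haveI : NeZero e := ⟨he0⟩
  obtain ⟨j, -, hj⟩ := hprim'.eq_pow_of_pow_eq_one hge
  refine ⟨j, ?_⟩
  rw [← wildK_eq_fixingSubgroup K hdeg, mem_wildK]
  have hmem : g * (τ ^ j)⁻¹ ∈ inertiaK K := mul_mem hgI (inv_mem (pow_mem hτI j))
  refine ⟨hmem, ?_⟩
  have h1 : thetaK K (⟨g, hgI⟩ * (⟨τ, hτI⟩ ^ j)⁻¹) = 1 := by
    rw [map_mul, map_inv, map_pow]
    have : thetaK K ⟨g, hgI⟩ = thetaK K ⟨τ, hτI⟩ ^ j := by
      apply Units.ext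
      rw [Units.val_pow_eq_pow_val]
      exact hj.symm
    rw [this, mul_inv_cancel]
  exact congrArg Units.val h1

/-- **(c)** `φ τ φ⁻¹ ≡ τ ^ p` modulo `Γ_K`, for tame `K` -/
theorem conj_mul_pow_inv_mem_fixingSubgroup (hdeg : ¬ p ∣ Module.finrank ℚ_[p] K)
    {τ φ : PadicAlgCl p ≃ₐ[ℚ_[p]] PadicAlgCl p}
    (hτres : ∀ x, resMap (resAut K τ) (norm_resAut K τ) x = x)
    (hφ : ∀ x, resMap (resAut K φ) (norm_resAut K φ) x = x ^ p) :
    φ * τ * φ⁻¹ * (τ ^ p)⁻¹ ∈ K.fixingSubgroup := by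
  have hτI : τ ∈ inertiaK K := hτres
  have hcI : φ * τ * φ⁻¹ ∈ inertiaK K := (inertiaK_normal K).conj_mem τ hτI φ
  rw [← wildK_eq_fixingSubgroup K hdeg, mem_wildK]
  refine ⟨mul_mem hcI (inv_mem (pow_mem hτI p)), ?_⟩
  have h1 : thetaK K (⟨φ * τ * φ⁻¹, hcI⟩ * (⟨τ, hτI⟩ ^ p)⁻¹) = 1 := by
    rw [map_mul, map_inv, map_pow]
    have : thetaK K ⟨φ * τ * φ⁻¹, hcI⟩ = (thetaK K ⟨τ, hτI⟩) ^ p := by
      apply Units.ext
      rw [Units.val_pow_eq_pow_val]
      show thetaG K (φ * τ * φ⁻¹) = (thetaG K τ) ^ p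
      rw [thetaG_conj K φ hτI]
      exact hφ _
    rw [this, mul_inv_cancel]
  exact congrArg Units.val h1

/-- **(TS)** the tame structure of `Γ` relative to a finite normal `L` -/
theorem exists_tame_structure (L : IntermediateField ℚ_[p] (PadicAlgCl p))
    [FiniteDimensional ℚ_[p] L] [Normal ℚ_[p] L] :
    ∃ (W I : Subgroup (PadicAlgCl p ≃ₐ[ℚ_[p]] PadicAlgCl p))
      (τ φ : PadicAlgCl p ≃ₐ[ℚ_[p]] PadicAlgCl p),
      W.Normal ∧ I.Normal ∧ W ≤ I ∧ L.fixingSubgroup ≤ W ∧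
      (∀ w ∈ W, ∃ n : ℕ, w ^ (p ^ n) ∈ L.fixingSubgroup) ∧ τ ∈ I ∧
      (∃ e : ℕ, ¬ p ∣ e ∧ τ ^ e ∈ W) ∧ (∀ g ∈ I, ∃ j : ℕ, g * (τ ^ j)⁻¹ ∈ W) ∧
      ∀ g, ∃ j : ℕ, g * (φ ^ j)⁻¹ ∈ I := by
  classical
  haveI := finite_residue L
  haveI : Fintype 𝓀[L] := Fintype.ofFinite _
  obtain ⟨φ, hφ⟩ := exists_frobenius_lift L
  obtain ⟨⟨t, ht⟩, hgen⟩ := IsCyclic.exists_generator (α := (thetaK L).range)
  obtain ⟨τ, rfl⟩ := ht
  refine ⟨wildK L, inertiaK L, τ, φ, inferInstance, inferInstance, wildK_le_inertiaK L,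
    fixingSubgroup_le_wildK L, fun w hw => exists_pow_mem_fixingSubgroup_of_mem_wildK L hw, τ.2,
    ?_, ?_, fun g => exists_mul_pow_inv_mem_inertiaK L hφ g⟩
  · refine ⟨orderOf (thetaK L τ), ?_, ?_⟩
    · intro hdvd
      haveI : CharP 𝓀[L] p := charP_residue L hp.out (norm_natCast_lt_one_padic L)
      obtain ⟨n, -, hn⟩ := FiniteField.card 𝓀[L] p
      have h1 : orderOf (thetaK L τ) ∣ Fintype.card (𝓀[L])ˣ := orderOf_dvd_card
      rw [Fintype.card_units, hn] at h1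
      have h2 : p ∣ p ^ (n : ℕ) - 1 := hdvd.trans h1
      have h3 : p ∣ p ^ (n : ℕ) := dvd_pow_self p n.ne_zero
      have h4 : 1 ≤ p ^ (n : ℕ) := Nat.one_le_pow _ _ hp.out.pos
      have h5 : p ∣ 1 := by
        have := (Nat.dvd_sub h3 h2)
        rwa [Nat.sub_sub_self h4] at this
      exact hp.out.one_lt.ne' (Nat.dvd_one.1 h5)
    · rw [mem_wildK]
      refine ⟨pow_mem τ.2 _, ?_⟩
      have h1 : thetaK L (τ ^ orderOf (thetaK L τ)) = 1 := by rw [map_pow, pow_orderOf_eq_one]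
      exact congrArg Units.val h1
  · intro g hg
    have hmem : thetaK L ⟨g, hg⟩ ∈ (thetaK L).range := ⟨_, rfl⟩
    have h1 := hgen ⟨_, hmem⟩
    rw [← mem_powers_iff_mem_zpowers] at h1
    obtain ⟨j, hj⟩ := h1
    refine ⟨j, ?_⟩
    rw [mem_wildK]
    have hmem' : g * ((τ : PadicAlgCl p ≃ₐ[ℚ_[p]] PadicAlgCl p) ^ j)⁻¹ ∈ inertiaK L :=
      mul_mem hg (inv_mem (pow_mem τ.2 j))
    refine ⟨hmem', ?_⟩
    have hj' : thetaK L τ ^ j = thetaK L ⟨g, hg⟩ := by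
      have := congrArg (fun z : (thetaK L).range => (z : (𝓀[L])ˣ)) hj
      simpa using this
    have h2 : thetaK L (⟨g, hg⟩ * (τ ^ j)⁻¹) = 1 := by
      rw [map_mul, map_inv, map_pow, hj', mul_inv_cancel]
    exact congrArg Units.val h2

end Gal

section FF

variable {p : ℕ} [hp : Fact p.Prime]

/-- **(FF)** the fixed field of the kernel of a homomorphism from `Γ` to a finite group which is
trivial on `Γ_L` -/
theorem exists_fixedField_of_ker {G' : Type*} [Group G'] [Finite G']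
    (ψ : (PadicAlgCl p ≃ₐ[ℚ_[p]] PadicAlgCl p) →* G')
    (L : IntermediateField ℚ_[p] (PadicAlgCl p)) [FiniteDimensional ℚ_[p] L]
    (hL : L.fixingSubgroup ≤ ψ.ker) :
    ∃ K : IntermediateField ℚ_[p] (PadicAlgCl p), K ≤ L ∧ Normal ℚ_[p] K ∧
      K.fixingSubgroup = ψ.ker ∧ Module.finrank ℚ_[p] K = Nat.card ψ.range := by
  haveI : IsGalois ℚ_[p] (PadicAlgCl p) := IsAlgClosure.isGalois _ _
  have hopen : IsOpen (ψ.ker : Set (PadicAlgCl p ≃ₐ[ℚ_[p]] PadicAlgCl p)) :=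
    Subgroup.isOpen_mono hL L.fixingSubgroup_isOpen
  have hclosed := Subgroup.isClosed_of_isOpen _ hopen
  let H : ClosedSubgroup (PadicAlgCl p ≃ₐ[ℚ_[p]] PadicAlgCl p) := ⟨ψ.ker, hclosed⟩
  set K := IntermediateField.fixedField ψ.ker with hK
  have hfix : K.fixingSubgroup = ψ.ker := InfiniteGalois.fixingSubgroup_fixedField H
  refine ⟨K, ?_, ?_, hfix, ?_⟩
  · have := IntermediateField.fixedField_antitone hL
    rwa [InfiniteGalois.fixedField_fixingSubgroup] at this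
  · have hn : K.fixingSubgroup.Normal := by
      rw [hfix]
      infer_instance
    exact ((InfiniteGalois.normal_iff_isGalois K).1 hn).to_normal
  · rw [IntermediateField.finrank_eq_fixingSubgroup_index, hfix, Subgroup.index_ker]

end FF

end Fermat.Agent.S56lib.PT9a
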