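/-
S56lib / PT9a / FourTermL  (helper7).

The abstract Poitou–Tate sequence of `Cpx/FourTerm`, one step to the LEFT:
  `H¹(G, Hom(N, E)) --loc--> ∏ H¹(D i, Hom(N, Y i)) --a--> Ext¹(N, C)`
is exact at the middle term (`FourTerm.exact_P1`).
-/
import Fermat.Agent.S55lib.Cpx.FourTerm

set_option autoImplicit false
set_option linter.unusedSectionVars false

noncomputable section

namespace Fermat.Agent.S55lib

universe u

namespace FourTerm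

variable {k G : Type u} [CommRing k] [Group G] {𝒰 : OpenBasis G} {I : Type u}
  {D : I → Type u} [∀ i, Group (D i)] {r : ∀ i, D i →* G} {Y : ∀ i, Rep.{u} k (D i)}
  {J : Rep.{u} k G} (S : SmCoind 𝒰 D r Y J)
  {𝒱 : ∀ i, OpenBasis (D i)} (hco : ∀ i, Csm.Coarser (𝒰.comap (r i)) (𝒱 i))
  {E C : Rep.{u} k G} (ι : E ⟶ J) (π : J ⟶ C)
  {N P0 P1 : Rep.{u} k G} [Module.Finite k P0] [Module.Finite k P1]
  (hP0 : IsSm 𝒰 P0) (hP1 : IsSm 𝒰 P1) (d : P1 ⟶ P0) (q : P0 ⟶ N)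
  [Finite I]
  (h90 : ∀ i, ∀ U ∈ (𝒰.comap (r i)).sets, ∃ U' ∈ (𝒰.comap (r i)).sets, U' ≤ U ∧
    Csm.H1Vanishes (𝒱 i) (homRep (Rep.res (r i) P0) (Y i)) U')
  [Module.Projective k P0] [Module.Projective k P1]
  (hι : Function.Injective ι.hom) (hπ : Function.Surjective π.hom)
  (hex : ∀ b : J, π.hom b = 0 ↔ ∃ a, ι.hom a = b)
  (hqs : Function.Surjective q.hom) (hqex : ∀ x : P0, q.hom x = 0 ↔ ∃ y, d.hom y = x)
  (hE : IsSm 𝒰 E) (hextE : Function.Surjective (homRep.mapL d E).hom)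
  (hY : ∀ i, IsSm (𝒱 i) (Y i))
  (hextY : ∀ i, Function.Surjective (homRep.mapL (resHom (r i) d) (Y i)).hom)

include hι hπ hex hqs hqex hE hextE hY hextY in
/-- exactness at `∏ H¹(D i, Hom(N, Y i))` -/
theorem exact_P1 (y : ∀ i, (Csm (𝒱 i) (homRep (Rep.res (r i) N) (Y i))).H 1) :
    a S hco π hP0 hP1 d q (fun x => (hqex _).2 ⟨x, rfl⟩) h90 y = 0 ↔
      ∃ x : (Csm 𝒰 (homRep N E)).H 1, ∀ i, (locE S hco ι N i).mapH 1 x = y i := by
  have hq0 : ∀ x, q.hom (d.hom x) = 0 := fun x => (hqex _).2 ⟨x, rfl⟩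
  obtain ⟨η, hη, ha⟩ := exists_of_a S hco π hP0 hP1 d q hq0 h90 y
  rw [ha, (ses S ι π hP0 hP1 d hι hπ hex).exact_mid 1 η]
  constructor
  · rintro ⟨ζ, hζ⟩
    obtain ⟨x, rfl⟩ := (ocE_bijective hP0 d q hqs hqex hE hextE 1).2 ζ
    refine ⟨x, fun i => ?_⟩
    apply (ocY_bijective hco hP0 d q hqs hqex hY hextY i 1).1
    rw [← square S hco ι hP0 hP1 d q hq0 i 1 x, hζ, hη i]
  · rintro ⟨x, hx⟩
    refine ⟨(ocE d q hq0 𝒰 E).mapH 1 x, ?_⟩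
    rw [← sub_eq_zero]
    refine PhiJ_H1_injective S hco hP0 hP1 d h90 _ fun i => ?_
    rw [map_sub, square S hco ι hP0 hP1 d q hq0 i 1 x, hx i, hη i, sub_self]

include hι hπ hex hqs hqex hE hextE hY hextY in
/-- exactness at `∏ H¹(D i, Hom(N, Y i))`, in terms of `aFun` -/
theorem exact_P1' (y : ∀ i, (Csm (𝒱 i) (homRep (Rep.res (r i) N) (Y i))).H 1) :
    aFun S hco π hP0 hP1 d q (fun x => (hqex _).2 ⟨x, rfl⟩) h90 y = 0 ↔
      ∃ x : (Csm 𝒰 (homRep N E)).H 1, ∀ i, (locE S hco ι N i).mapH 1 x = y i :=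
  exact_P1 S hco ι π hP0 hP1 d q h90 hι hπ hex hqs hqex hE hextE hY hextY y

end FourTerm

end Fermat.Agent.S55lib
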