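/-
S56lib / PT9a / PTLeft  (helper7).

The Poitou–Tate sequence of `PTHalf`, one step to the LEFT: with `X = Ext¹(M′, C_S)`,
  `H¹(G_S, M) --loc--> ∏_{q ∈ S} H¹(G_q, M) --a--> X`
is exact at the middle term (`PT.exact_P1`).  Instantiation of `Cpx/FourTermL`.
-/
import Fermat.Agent.S55lib.GlobDual.PTHalf
import Fermat.Agent.S56lib.PT9a.FourTermL

set_option autoImplicit false

noncomputable section

namespace Fermat.Agent.S55lib

open groupCohomology ExtCitation

namespace PT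

variable (S : Finset Nat.Primes) {p : ℕ} [hp : Fact p.Prime]
  (hpS : (⟨p, hp.out⟩ : Nat.Primes) ∈ S)
  (M : Rep.{0} (ZMod p) GQ) [FiniteDimensional (ZMod p) M]
  (hM : Sm.IsSmooth (MonoidHom.id GQ) (LevelClass.unr S) M)

/-- `H¹(G_S, M)` in the hub's model -/
def φ1G : (Csm (basisS S) (toIntRep M)).H 1 →+ H1S S M :=
  (Sm.intH1 (MonoidHom.id GQ) (LevelClass.unr S) M).comp
    (Csm.toSmH1 (MonoidHom.id GQ) (LevelClass.unr S) (toIntRep M)).toAddMonoidHom

lemma φ1G_bijective : Function.Bijective (φ1G S M) :=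
  Sm.intH1_bijective.comp Csm.toSmH1_bijective

lemma φ1_resq (q : S) (x : (Csm (basisS S) (toIntRep M)).H 1) :
    φ1 S M q ((resq S M q).mapH 1 x) = loc1 S M q.1 (φ1G S M x) := by
  show Sm.intH1 (rloc q.1) LevelClass.all (Rep.res (rloc q.1) M)
    (Csm.toSmH1 (rloc q.1) LevelClass.all (Rep.res (rloc q.1) (toIntRep M))
      ((resq S M q).mapH 1 x)) = _
  rw [resq, Csm.toSmH1_resLevel]
  exact Sm.intH1_resH1 (rloc q.1) (r := MonoidHom.id GQ) (r' := rloc q.1) (fun _ => rfl)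
    (𝓛 := LevelClass.unr S) (𝓛' := LevelClass.all) (fun _ h => h.1) _

/-- `H¹(G_S, M) → H¹(G_S, Hom(M′, E_S))` on the hub's cohomology -/
def ψ1G : (Csm (basisS S) (toIntRep M)).H 1 →ₗ[ℤ] (Csm (basisS S) (homRep (N M) (ESrep S))).H 1 :=
  (Csm.map (basisS S) (globTwist S hpS M)).mapH 1

lemma ψ1G_bijective : Function.Bijective (ψ1G S hpS M) :=
  Cpx.Hom.mapH_bijective_of_bijective _
    (Csm.map_bijective (basisS S) _ (globTwist_bijective S hpS M)) 1

/-- the localisation of a global class, through the identifications -/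
lemma e1_loc1 (q : S) (x : (Csm (basisS S) (toIntRep M)).H 1) :
    e1 S hpS M q (loc1 S M q.1 (φ1G S M x)) =
      (FourTerm.locE (jsCoind S) (fun q : S => coarser_basisLoc S q.1) (iES S) (N M) q).mapH 1
        (ψ1G S hpS M x) := by
  rw [← φ1_resq, e1_φ1]
  exact (locE_globTwist S hpS M q 1 x).symm

lemma e1_injective (q : S) : Function.Injective (e1 S hpS M q) := by
  intro y y' h
  obtain ⟨z, rfl⟩ := (φ1_bijective S M q).2 y
  obtain ⟨z', rfl⟩ := (φ1_bijective S M q).2 y'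
  rw [e1_φ1, e1_φ1] at h
  rw [(ψ1_bijective S hpS M q).1 h]

/-- **exactness at `∏_{q ∈ S} H¹(G_q, M)`** -/
theorem exact_P1 (y : H1locAll S M) :
    a S hpS M hM y = 0 ↔ ∃ x : H1S S M, locAll1 S M x = y := by
  have h1 := FourTerm.exact_P1' (jsCoind S) (fun q : S => coarser_basisLoc S q.1) (iES S) (pCS S)
    (R S hpS M hM).sm0 (R S hpS M hM).sm1 (R S hpS M hM).d (R S hpS M hM).q
    (fun q => h90_hom S q.1 (R S hpS M hM))
    (iES_injective S ⟨_, hpS⟩) (pCS_surjective S) (pCS_eq_zero_iff S)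
    (R S hpS M hM).q_surj (R S hpS M hM).exact (isSm_ESrep S) (hextE S hpS M hM)
    (fun q => isSm_Yloc q.1) (hextY S hpS M hM) (fun q => e1 S hpS M q (y q))
  rw [a_apply]
  show FourTerm.aFun _ _ _ _ _ _ _ _ _ _ = 0 ↔ _
  rw [h1]
  constructor
  · rintro ⟨x0, hx0⟩
    obtain ⟨x', rfl⟩ := (ψ1G_bijective S hpS M).2 x0
    refine ⟨φ1G S M x', ?_⟩
    funext q
    apply e1_injective S hpS M q
    rw [locAll1_apply, e1_loc1]
    exact hx0 q
  · rintro ⟨x, rfl⟩
    obtain ⟨x', rfl⟩ := (φ1G_bijective S M).2 x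
    exact ⟨ψ1G S hpS M x', fun q => (e1_loc1 S hpS M q x').symm⟩

end PT

end Fermat.Agent.S55lib
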