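/-
S56lib / PT9a / InfRes2S  (helper7).

Inflation–restriction in degree 2 for smooth cochains, exactness in the middle: `𝒰` coarser than `𝒱`,
`V ∈ 𝒰` with `H¹(V, Y) = 0` (cocycle form `H1Vanishes 𝒱 Y V`).  A `𝒱`-smooth 2-cocycle whose restriction to
`V` is a (`𝒱`-smooth) coboundary is cohomologous to a `𝒰`-smooth 2-cocycle
(`Csm.coarsen_H2_exists_of_restrict`).  Proof: descent to the finite quotient `G ⧸ W` (`W ∈ 𝒱` a common level)
and helper5's raw cocycle computation `Dev.infRes_raw_exact`.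
-/
import Fermat.Agent.S55lib.Cpx.InfRes
import Fermat.Agent.S55lib.Dev.InfResRaw

set_option autoImplicit false

noncomputable section

namespace Fermat.Agent.S55lib

universe u

variable {k G : Type u} [CommRing k] [Group G]

namespace Csm

open Dev

/-! ### Descent of cochains to a quotient -/

section descent

variable (Y : Rep.{u} k G) (W : Subgroup G) [hWn : W.Normal]

/-- the action on the invariants, through the quotient -/
lemma quot_ρ_val' (g : G) (x : Y.quotientToInvariants W) :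
    ((Y.ρ.quotientToInvariants W) (g : G ⧸ W) x).1 = Y.ρ g x.1 := by
  rw [Representation.quotientToInvariants, Representation.ofQuotient_coe_apply]
  rfl

lemma quot_ρ_val (g : G) (x : Y.quotientToInvariants W) :
    (((Y.quotientToInvariants W).ρ (g : G ⧸ W)) x).1 = Y.ρ g x.1 :=
  quot_ρ_val' Y W g x

/-- the descended 1-cochain -/
def descend₁ (φ : G → Y) (hφ2 : ∀ g, ∀ s ∈ W, Y.ρ s (φ g) = φ g) :
    (G ⧸ W) → Y.quotientToInvariants W :=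
  fun x => ⟨φ x.out, fun s => hφ2 _ s.1 s.2⟩

lemma descend₁_mk {φ : G → Y} (hφ1 : ∀ g, ∀ s ∈ W, φ (g * s) = φ g)
    (hφ2 : ∀ g, ∀ s ∈ W, Y.ρ s (φ g) = φ g) (g : G) :
    (descend₁ Y W φ hφ2 (g : G ⧸ W)).1 = φ g := by
  obtain ⟨s, hs⟩ := QuotientGroup.mk_out_eq_mul W g
  show φ ((g : G ⧸ W).out) = φ g
  rw [hs, hφ1 g s.1 s.2]

/-- the descended 2-cochain -/
def descend₂ (c : G × G → Y) (hc2 : ∀ g h, ∀ s ∈ W, Y.ρ s (c (g, h)) = c (g, h)) :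
    (G ⧸ W) × (G ⧸ W) → Y.quotientToInvariants W :=
  fun p => ⟨c (p.1.out, p.2.out), fun s => hc2 _ _ s.1 s.2⟩

lemma descend₂_mk {c : G × G → Y}
    (hc1 : ∀ g h, ∀ s ∈ W, ∀ t ∈ W, c (g * s, h * t) = c (g, h))
    (hc2 : ∀ g h, ∀ s ∈ W, Y.ρ s (c (g, h)) = c (g, h)) (g h : G) :
    (descend₂ Y W c hc2 ((g : G ⧸ W), (h : G ⧸ W))).1 = c (g, h) := by
  obtain ⟨s, hs⟩ := QuotientGroup.mk_out_eq_mul W g
  obtain ⟨t, ht⟩ := QuotientGroup.mk_out_eq_mul W h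
  show c ((g : G ⧸ W).out, (h : G ⧸ W).out) = c (g, h)
  rw [hs, ht, hc1 g h s.1 s.2 t.1 t.2]

lemma isZ2_descend₂ {c : G × G → Y} (hc : IsZ2 c)
    (hc1 : ∀ g h, ∀ s ∈ W, ∀ t ∈ W, c (g * s, h * t) = c (g, h))
    (hc2 : ∀ g h, ∀ s ∈ W, Y.ρ s (c (g, h)) = c (g, h)) :
    IsZ2 (descend₂ Y W c hc2) := by
  intro x y z
  induction x using QuotientGroup.induction_on with | @H g =>
  induction y using QuotientGroup.induction_on with | @H h =>
  induction z using QuotientGroup.induction_on with | @H j =>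
  apply Subtype.ext
  have e := hc g h j
  rw [← QuotientGroup.mk_mul, ← QuotientGroup.mk_mul]
  simp only [Submodule.coe_add, descend₂_mk Y W hc1 hc2, quot_ρ_val']
  exact e

end descent

/-! ### The raw vanishing of `H¹` of the quotient -/

section raw

variable {𝒱 : OpenBasis G} (Y : Rep.{u} k G) {V W : Subgroup G} [hVn : V.Normal] [hWn : W.Normal]

/-- the image of `V` in `G ⧸ W` -/
abbrev imgQ (V W : Subgroup G) [W.Normal] : Subgroup (G ⧸ W) := V.map (QuotientGroup.mk' W)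

instance imgQ_normal : (imgQ V W).Normal :=
  Subgroup.Normal.map hVn _ (QuotientGroup.mk'_surjective W)

omit hVn in
lemma mem_imgQ_iff (hWV : W ≤ V) (g : G) : ((g : G ⧸ W) ∈ imgQ V W) ↔ g ∈ V := by
  constructor
  · rintro ⟨g', hg', he⟩
    have h1 : g'⁻¹ * g ∈ W := QuotientGroup.eq.1 he
    have : g = g' * (g'⁻¹ * g) := by group
    rw [this]
    exact V.mul_mem hg' (hWV h1)
  · intro hg
    exact ⟨g, hg, rfl⟩

omit hVn in
/-- `H¹(V, Y) = 0` for smooth cochains gives the raw vanishing of `H¹(V/W, Y^W)` -/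
theorem rawH1Vanish_imgQ (hW : W ∈ 𝒱.sets) (hWV : W ≤ V) (hvan : H1Vanishes 𝒱 Y V) :
    RawH1Vanish (A := Y.quotientToInvariants W) (imgQ V W) := by
  classical
  intro f hf
  -- `f 1 = 0`
  have hf1 : f 1 = 0 := by
    have := hf 1 1
    rw [mul_one] at this
    have h2 : (Y.quotientToInvariants W).ρ ((1 : imgQ V W) : G ⧸ W) (f 1) = f 1 := by
      rw [Subgroup.coe_one, map_one]; rfl
    rw [h2] at this
    exact left_eq_add.mp this
  -- the lift to `G`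
  let ft : G → Y := fun g => if hg : g ∈ V then
    (f ⟨(g : G ⧸ W), (mem_imgQ_iff hWV g).2 hg⟩).1 else 0
  have hft : ∀ g (hg : g ∈ V), ft g = (f ⟨(g : G ⧸ W), (mem_imgQ_iff hWV g).2 hg⟩).1 :=
    fun g hg => dif_pos hg
  have hmk : ∀ g, ∀ s ∈ W, ((g * s : G) : G ⧸ W) = (g : G ⧸ W) := fun g s hs => by
    rw [QuotientGroup.mk_mul, (QuotientGroup.eq_one_iff s).2 hs, mul_one]
  have hsm : IsSm₁ 𝒱 Y ft := by
    refine ⟨W, hW, fun g s hs => ?_, fun g s hs => ?_⟩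
    · by_cases hg : g ∈ V
      · have hgs : g * s ∈ V := V.mul_mem hg (hWV hs)
        rw [hft g hg, hft (g * s) hgs]
        congr 2
        exact Subtype.ext (hmk g s hs)
      · have hgs : g * s ∉ V := fun h => hg (by
          have := V.mul_mem h (V.inv_mem (hWV hs))
          rwa [mul_inv_cancel_right] at this)
        show (if hg : g * s ∈ V then _ else 0) = (if hg : g ∈ V then _ else 0)
        rw [dif_neg hg, dif_neg hgs]
    · by_cases hg : g ∈ V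
      · rw [hft g hg]
        exact (f ⟨(g : G ⧸ W), (mem_imgQ_iff hWV g).2 hg⟩).2 ⟨s, hs⟩
      · show Y.ρ s (if hg : g ∈ V then _ else 0) = (if hg : g ∈ V then _ else 0)
        rw [dif_neg hg, map_zero]
  have hcoc : ∀ s ∈ V, ∀ t ∈ V, ft (s * t) = Y.ρ s (ft t) + ft s := fun s hs t ht => by
    rw [hft s hs, hft t ht, hft (s * t) (V.mul_mem hs ht)]
    have := hf ⟨(s : G ⧸ W), (mem_imgQ_iff hWV s).2 hs⟩ ⟨(t : G ⧸ W), (mem_imgQ_iff hWV t).2 ht⟩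
    have h2 := congrArg Subtype.val this
    rw [Submodule.coe_add, quot_ρ_val] at h2
    exact h2
  obtain ⟨y, -, hy⟩ := hvan ft hsm hcoc
  have hyW : ∀ s : W, Y.ρ (s : G) y = y := fun s => by
    have h1 := hy s.1 (hWV s.2)
    rw [hft s.1 (hWV s.2)] at h1
    have h2 : (⟨((s : G) : G ⧸ W), (mem_imgQ_iff hWV s.1).2 (hWV s.2)⟩ : imgQ V W) = 1 :=
      Subtype.ext ((QuotientGroup.eq_one_iff s.1).2 s.2)
    rw [h2, hf1] at h1
    exact (sub_eq_zero.1 h1.symm)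
  refine ⟨⟨y, hyW⟩, ?_⟩
  rintro ⟨sq, hsq⟩
  revert hsq
  induction sq using QuotientGroup.induction_on with | @H g =>
  intro hsq
  have hg : g ∈ V := (mem_imgQ_iff hWV g).1 hsq
  apply Subtype.ext
  have h1 := hy g hg
  rw [hft g hg] at h1
  rw [h1, Submodule.coe_sub, quot_ρ_val]

end raw

/-! ### The main statement -/

variable {𝒰 𝒱 : OpenBasis G} (h : Coarser 𝒰 𝒱) (Y : Rep.{u} k G)

/-- a raw 2-cocycle vanishing on `V × G` and `G × V` is `𝒰`-smooth of level `V` -/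
lemma isSm₂_of_vanish {V : Subgroup G} (hV : V ∈ 𝒰.sets) {c : G × G → Y} (hc : IsZ2 c)
    (h1 : ∀ s ∈ V, ∀ g, c (s, g) = 0) (h2 : ∀ s ∈ V, ∀ g, c (g, s) = 0) : IsSm₂ 𝒰 Y c := by
  have : V.Normal := 𝒰.normal V hV
  refine ⟨V, hV, fun g h s hs t ht => ?_, fun g h s hs => ?_⟩
  · rw [hc.fst_mul_right_of_vanish V h1 h2 hs, hc.snd_mul_right_of_vanish V h2 ht]
  · exact hc.invariant_of_vanish V h1 h2 hs g h

/-- **Inflation–restriction in degree 2, exactness in the middle, for smooth cochains.** -/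
theorem coarsen_H2_exists_of_restrict {V : Subgroup G} (hV : V ∈ 𝒰.sets)
    (hvan : H1Vanishes 𝒱 Y V) (c : (Csm 𝒱 Y).X 2) (hc : (Csm 𝒱 Y).d 2 c = 0)
    (φ₀ : G → Y) (hφ₀ : IsSm₁ 𝒱 Y φ₀)
    (h0 : ∀ s ∈ V, ∀ t ∈ V, fn₂ c (s, t) = Y.ρ s (φ₀ t) - φ₀ (s * t) + φ₀ s) :
    ∃ w' : (Csm 𝒰 Y).H 2, (coarsen h Y).mapH 2 w' = (Csm 𝒱 Y).cl c hc := by
  have hVn : V.Normal := 𝒰.normal V hV
  -- a common level `W ∈ 𝒱`, `W ≤ V`
  obtain ⟨V', hV', hV'V⟩ := h V hV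
  obtain ⟨W₁, hW₁, hc1, hc2⟩ := isSm₂_fn₂ c
  obtain ⟨W₂, hW₂, hφ1, hφ2⟩ := hφ₀
  obtain ⟨W₃, hW₃, hle₃⟩ := 𝒱.directed W₁ hW₁ W₂ hW₂
  obtain ⟨W, hW, hle⟩ := 𝒱.directed W₃ hW₃ V' hV'
  have hWn : W.Normal := 𝒱.normal W hW
  have hWV : W ≤ V := (hle.trans inf_le_right).trans hV'V
  have hW1 : W ≤ W₁ := (hle.trans inf_le_left).trans (hle₃.trans inf_le_left)
  have hW2 : W ≤ W₂ := (hle.trans inf_le_left).trans (hle₃.trans inf_le_right)
  have hc1' : ∀ g h, ∀ s ∈ W, ∀ t ∈ W, fn₂ c (g * s, h * t) = fn₂ c (g, h) :=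
    fun g h s hs t ht => hc1 g h s (hW1 hs) t (hW1 ht)
  have hc2' : ∀ g h, ∀ s ∈ W, Y.ρ s (fn₂ c (g, h)) = fn₂ c (g, h) :=
    fun g h s hs => hc2 g h s (hW1 hs)
  have hφ1' : ∀ g, ∀ s ∈ W, φ₀ (g * s) = φ₀ g := fun g s hs => hφ1 g s (hW2 hs)
  have hφ2' : ∀ g, ∀ s ∈ W, Y.ρ s (φ₀ g) = φ₀ g := fun g s hs => hφ2 g s (hW2 hs)
  have hcoc := (d_two_eq_zero_iff c).1 hc
  have hZ : IsZ2 (fn₂ c) := fun g h j => (hcoc g h j).symm
  -- descent
  have hZq := isZ2_descend₂ Y W hZ hc1' hc2'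
  have hraw := rawH1Vanish_imgQ (𝒱 := 𝒱) Y (V := V) (W := W) hW hWV hvan
  obtain ⟨Φq, hΦ1, hΦ2⟩ := infRes_raw_exact (imgQ V W) hraw hZq
    (fun s => descend₁ Y W φ₀ hφ2' s.1)
    (by
      rintro ⟨sq, hsq⟩ ⟨tq, htq⟩
      induction sq using QuotientGroup.induction_on with | @H s =>
      induction tq using QuotientGroup.induction_on with | @H t =>
      have hs : s ∈ V := (mem_imgQ_iff hWV s).1 hsq
      have ht : t ∈ V := (mem_imgQ_iff hWV t).1 htq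
      apply Subtype.ext
      show (descend₂ Y W (fn₂ c) hc2' ((s : G ⧸ W), (t : G ⧸ W))).1 = _
      rw [descend₂_mk Y W hc1' hc2']
      simp only [Submodule.coe_add, Submodule.coe_sub, quot_ρ_val', Subgroup.coe_mul,
        ← QuotientGroup.mk_mul, descend₁_mk Y W hφ1' hφ2']
      exact h0 s hs t ht)
  -- back to `G`
  let Φ : G → Y := fun g => (Φq (g : G ⧸ W)).1
  have hmk : ∀ g, ∀ s ∈ W, ((g * s : G) : G ⧸ W) = (g : G ⧸ W) := fun g s hs => by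
    rw [QuotientGroup.mk_mul, (QuotientGroup.eq_one_iff s).2 hs, mul_one]
  have hΦsm : IsSm₁ 𝒱 Y Φ := ⟨W, hW, fun g s hs => by
    show (Φq ((g * s : G) : G ⧸ W)).1 = (Φq (g : G ⧸ W)).1
    rw [hmk g s hs], fun g s hs => (Φq (g : G ⧸ W)).2 ⟨s, hs⟩⟩
  have hval : ∀ g j : G, ((descend₂ Y W (fn₂ c) hc2' - dOne Φq) ((g : G ⧸ W), (j : G ⧸ W))).1 =
      (fn₂ c - dOne Φ) (g, j) := fun g j => by
    simp only [Pi.sub_apply, dOne_apply, Submodule.coe_add, Submodule.coe_sub, quot_ρ_val',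
      ← QuotientGroup.mk_mul, descend₂_mk Y W hc1' hc2']
    rfl
  have hv1 : ∀ s ∈ V, ∀ g, (fn₂ c - dOne Φ) (s, g) = 0 := fun s hs g => by
    rw [← hval, hΦ1 (s : G ⧸ W) ((mem_imgQ_iff hWV s).2 hs) (g : G ⧸ W)]
    rfl
  have hv2 : ∀ s ∈ V, ∀ g, (fn₂ c - dOne Φ) (g, s) = 0 := fun s hs g => by
    rw [← hval, hΦ2 (s : G ⧸ W) ((mem_imgQ_iff hWV s).2 hs) (g : G ⧸ W)]
    rfl
  have hZ' : IsZ2 (fn₂ c - dOne Φ) := hZ.sub (isZ2_dOne Φ)
  have hsm' : IsSm₂ 𝒰 Y (fn₂ c - dOne Φ) := isSm₂_of_vanish Y hV hZ' hv1 hv2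
  have hcc : (Csm 𝒰 Y).d 2 (mk₂ _ hsm') = 0 := by
    rw [d_two_eq_zero_iff]
    intro g h j
    rw [fn₂_mk₂]
    exact (hZ' g h j).symm
  refine ⟨(Csm 𝒰 Y).cl (mk₂ _ hsm') hcc, ?_⟩
  rw [Cpx.Hom.mapH_cl]
  symm
  rw [Cpx.cl_eq_cl_iff, Cpx.mem_B_succ]
  refine ⟨mk₁ Φ hΦsm, ?_⟩
  apply ext₂
  funext ⟨g, j⟩
  rw [fn₂_d, fn₁_mk₁]
  show _ = fn₂ c (g, j) - fn₂ ((coarsen h Y).f 2 (mk₂ _ hsm')) (g, j)
  rw [fn₂_coarsen, fn₂_mk₂]
  simp only [Pi.sub_apply, dOne_apply]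
  abel

end Csm

end Fermat.Agent.S55lib
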