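/-
S56lib / PT9a / Coarse  (helper7).

Change of topology on `H²` with coefficients `Hom(P, Y)`, on `p`-torsion: `𝒰` coarser than `𝒱` on the group `D`,
`(D, 𝒱, Y)` with the two class-formation properties `cf2_surj`, `cf2_res` (as in helper8's `CFData`), `P` a finitely
generated free module fixed pointwise by some `V₁ ∈ 𝒰`, Hilbert 90 for `Hom(P, Y)` cofinally in `𝒰`, and the
indices of the `V ∈ 𝒰` divisible by arbitrary powers of `p`.  Then every `p`-torsion class of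
`H²_𝒱(D, Hom(P, Y))` comes from `H²_𝒰(D, Hom(P, Y))` (`coarsen_H2_exists_of_pTorsion`).
Everything is stated over a general coefficient ring `k` (no hand-written `ℤ`-module instances).
-/
import Fermat.Agent.S56lib.PT9a.InfRes2S
import Fermat.Agent.S55lib.Cpx.Shapiro
import Fermat.Agent.S55lib.Cpx.HomRep

set_option autoImplicit false

noncomputable section

namespace Fermat.Agent.S56lib.PT9a

open Fermat.Agent.S55lib CategoryTheory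

variable {k D : Type} [CommRing k] [Group D]

/-- restriction of smooth cochains to a subgroup -/
def resV (𝒱 : OpenBasis D) (V : Subgroup D) (A : Rep.{0} k D) :
    Cpx.Hom (Csm 𝒱 A) (Csm (𝒱.comap V.subtype) (Rep.res V.subtype A)) :=
  Csm.mapG (𝒱.isCont_comap V.subtype) (𝟙 _)

lemma fn₂_resV (𝒱 : OpenBasis D) (V : Subgroup D) (A : Rep.{0} k D) (x : (Csm 𝒱 A).X 2)
    (s t : V) : Csm.fn₂ ((resV 𝒱 V A).f 2 x) (s, t) = Csm.fn₂ x ((s : D), (t : D)) :=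
  Csm.fn₂_mapG _ _ x s t

lemma fn₂_map {G : Type} [Group G] (𝒲 : OpenBasis G) {A B : Rep.{0} k G} (φ : A ⟶ B)
    (x : (Csm 𝒲 A).X 2) (g h : G) :
    Csm.fn₂ ((Csm.map 𝒲 φ).f 2 x) (g, h) = φ.hom (Csm.fn₂ x (g, h)) := by
  rw [Csm.fn₂_apply, Csm.map_val, ← Csm.fn₂_apply]

/-! ### Restriction to a subgroup, on cochains -/

/-- the restriction of the 2-cochain `z` to `V` is the coboundary of a smooth 1-cochain -/
def IsBdOn (𝒱 : OpenBasis D) (Y : Rep.{0} k D) (V : Subgroup D) (z : D × D → Y) : Prop :=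
  ∃ φ : D → Y, Csm.IsSm₁ 𝒱 Y φ ∧ ∀ s ∈ V, ∀ t ∈ V, z (s, t) = Y.ρ s (φ t) - φ (s * t) + φ s

variable {𝒱 : OpenBasis D} {Y : Rep.{0} k D}

lemma IsBdOn.mono {V V' : Subgroup D} (hle : V' ≤ V) {z : D × D → Y} (hz : IsBdOn 𝒱 Y V z) :
    IsBdOn 𝒱 Y V' z := by
  obtain ⟨φ, hφ, h⟩ := hz
  exact ⟨φ, hφ, fun s hs t ht => h s (hle hs) t (hle ht)⟩

lemma sub_aux {A : Type*} [AddCommGroup A] (a b c a' b' c' : A) :
    (a - b + c) - (a' - b' + c') = (a - a') - (b - b') + (c - c') := by abel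

lemma IsBdOn.sub {V : Subgroup D} {z z' : D × D → Y} (hz : IsBdOn 𝒱 Y V z)
    (hz' : IsBdOn 𝒱 Y V z') : IsBdOn 𝒱 Y V (fun x => z x - z' x) := by
  obtain ⟨φ, ⟨U, hU, h1, h2⟩, h⟩ := hz
  obtain ⟨φ', ⟨U', hU', h1', h2'⟩, h'⟩ := hz'
  obtain ⟨W, hW, hle⟩ := 𝒱.directed U hU U' hU'
  refine ⟨fun g => φ g - φ' g, ⟨W, hW, fun g s hs => ?_, fun g s hs => ?_⟩, fun s hs t ht => ?_⟩
  · show φ (g * s) - φ' (g * s) = φ g - φ' g
    rw [h1 g s ((hle.trans inf_le_left) hs), h1' g s ((hle.trans inf_le_right) hs)]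
  · show Y.ρ s (φ g - φ' g) = φ g - φ' g
    rw [map_sub, h2 g s ((hle.trans inf_le_left) hs), h2' g s ((hle.trans inf_le_right) hs)]
  · show z (s, t) - z' (s, t) = _
    rw [h s hs t ht, h' s hs t ht, map_sub]
    exact sub_aux _ _ _ _ _ _

/-- a 2-cocycle on `V` whose class vanishes is the coboundary of a smooth 1-cochain defined on all of `D` -/
lemma exists_ext_of_cl_eq_zero {V : Subgroup D} (hV : 𝒱.IsOpen V)
    (T : (Csm (𝒱.comap V.subtype) (Rep.res V.subtype Y)).X 2)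
    (hT : (Csm (𝒱.comap V.subtype) (Rep.res V.subtype Y)).d 2 T = 0)
    (h0 : (Csm (𝒱.comap V.subtype) (Rep.res V.subtype Y)).cl T hT = 0) :
    ∃ φ : D → Y, Csm.IsSm₁ 𝒱 Y φ ∧ ∀ (s t : D) (hs : s ∈ V) (ht : t ∈ V),
      Csm.fn₂ T (⟨s, hs⟩, ⟨t, ht⟩) = Y.ρ s (φ t) - φ (s * t) + φ s := by
  classical
  rw [Cpx.cl_succ_eq_zero_iff] at h0
  obtain ⟨β, hβ⟩ := h0
  obtain ⟨_, ⟨U'', hU'', rfl⟩, hβ1, hβ2⟩ := Csm.isSm₁_fn₁ β
  obtain ⟨V₀, hV₀, hV₀V⟩ := hV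
  obtain ⟨W, hW, hle⟩ := 𝒱.directed U'' hU'' V₀ hV₀
  have hWV : W ≤ V := (hle.trans inf_le_right).trans hV₀V
  have hWU : W ≤ U'' := hle.trans inf_le_left
  let f : V → Y := fun v => Csm.fn₁ (𝒰 := 𝒱.comap V.subtype) (A := Rep.res V.subtype Y) β v
  let φ : D → Y := fun g => if hg : g ∈ V then f ⟨g, hg⟩ else 0
  have hφ : ∀ g (hg : g ∈ V), φ g = f ⟨g, hg⟩ := fun g hg => dif_pos hg
  refine ⟨φ, ⟨W, hW, fun g s hs => ?_, fun g s hs => ?_⟩, fun s t hs ht => ?_⟩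
  · by_cases hg : g ∈ V
    · have hgs : g * s ∈ V := V.mul_mem hg (hWV hs)
      rw [hφ g hg, hφ (g * s) hgs]
      exact hβ1 ⟨g, hg⟩ ⟨s, hWV hs⟩ (hWU hs)
    · have hgs : g * s ∉ V := fun h => hg (by
        have := V.mul_mem h (V.inv_mem (hWV hs))
        rwa [mul_inv_cancel_right] at this)
      show (if hg : g * s ∈ V then _ else 0) = (if hg : g ∈ V then _ else 0)
      rw [dif_neg hg, dif_neg hgs]
  · by_cases hg : g ∈ V
    · rw [hφ g hg]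
      exact hβ2 ⟨g, hg⟩ ⟨s, hWV hs⟩ (hWU hs)
    · show Y.ρ s (if hg : g ∈ V then _ else 0) = (if hg : g ∈ V then _ else 0)
      rw [dif_neg hg, map_zero]
  · rw [← hβ, Csm.fn₂_d, hφ s hs, hφ t ht, hφ (s * t) (V.mul_mem hs ht)]
    rfl

/-! ### Evaluation at a fixed vector -/

section eval

variable (P Y : Rep.{0} k D) (V : Subgroup D)

/-- evaluation `Hom(P, Y) → Y` at a `V`-fixed vector, as a morphism of `V`-modules -/
def evP (e : P) (he : ∀ s ∈ V, P.ρ s e = e) :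
    Rep.res V.subtype (homRep P Y) ⟶ Rep.res V.subtype Y :=
  Rep.ofHom
    { toLinearMap := LinearMap.applyₗ (R := k) (M := P) (M₂ := Y) e
      isIntertwining' := by
        intro v
        apply LinearMap.ext
        intro (φ : P →ₗ[k] Y)
        show Y.ρ v.1 (φ (P.ρ v.1⁻¹ e)) = Y.ρ v.1 (φ e)
        rw [he v.1⁻¹ (V.inv_mem v.2)] }

lemma evP_apply (e : P) (he : ∀ s ∈ V, P.ρ s e = e) (φ : P →ₗ[k] Y) :
    (evP P Y V e he).hom (show Rep.res V.subtype (homRep P Y) from φ) = φ e := rfl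

end eval

/-! ### The main statement -/

variable {𝒰 : OpenBasis D} (h : Csm.Coarser 𝒰 𝒱) (P : Rep.{0} k D)
  [Module.Finite k P] [Module.Free k P]

/-- a cocycle with values in `Hom(P, Y)` whose components restrict to coboundaries on `V` comes from the
coarse topology -/
theorem coarsen_H2_exists_of_components {V V₁ : Subgroup D} (hV : V ∈ 𝒰.sets)
    (hvan : Csm.H1Vanishes 𝒱 (homRep P Y) V) (hVV₁ : V ≤ V₁) (hV₁open : 𝒱.IsOpen V₁)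
    (hfixP : ∀ s ∈ V₁, ∀ x : P, P.ρ s x = x)
    (c : (Csm 𝒱 (homRep P Y)).X 2) (hc : (Csm 𝒱 (homRep P Y)).d 2 c = 0)
    (hcomp : ∀ j, IsBdOn 𝒱 Y V
      (fun x => (Csm.fn₂ c x : P →ₗ[k] Y) (Module.Free.chooseBasis k P j))) :
    ∃ w', (Csm.coarsen h (homRep P Y)).mapH 2 w' = (Csm 𝒱 (homRep P Y)).cl c hc := by
  let b := Module.Free.chooseBasis k P
  choose φ hφsm hφ using hcomp
  -- a common level for the `φ j`
  obtain ⟨W, hW, hWle⟩ := 𝒱.exists_le_of_finite (T := (Set.univ : Set _)) Set.finite_univ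
    (fun j => (hφsm j).choose) (fun j _ => ⟨_, (hφsm j).choose_spec.1, le_rfl⟩)
  obtain ⟨V₁', hV₁', hV₁'le⟩ := hV₁open
  obtain ⟨W', hW', hW'le⟩ := 𝒱.directed W hW V₁' hV₁'
  have hφ1 : ∀ j g, ∀ s ∈ W', φ j (g * s) = φ j g := fun j g s hs =>
    (hφsm j).choose_spec.2.1 g s (hWle j (Set.mem_univ j) ((hW'le.trans inf_le_left) hs))
  have hφ2 : ∀ j g, ∀ s ∈ W', Y.ρ s (φ j g) = φ j g := fun j g s hs =>
    (hφsm j).choose_spec.2.2 g s (hWle j (Set.mem_univ j) ((hW'le.trans inf_le_left) hs))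
  have hW'V₁ : W' ≤ V₁ := (hW'le.trans inf_le_right).trans hV₁'le
  -- the assembled primitive
  let φ₀ : D → homRep P Y := fun g => b.constr k (fun j => φ j g)
  have hφ₀ : ∀ g j, (φ₀ g : P →ₗ[k] Y) (b j) = φ j g := fun g j => b.constr_basis k _ j
  have hφ₀sm : Csm.IsSm₁ 𝒱 (homRep P Y) φ₀ := by
    refine ⟨W', hW', fun g s hs => ?_, fun g s hs => ?_⟩
    · apply b.ext
      intro j
      rw [hφ₀, hφ₀, hφ1 j g s hs]
    · apply b.ext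
      intro j
      rw [homRep.ρ_apply, hfixP s⁻¹ (V₁.inv_mem (hW'V₁ hs)), hφ₀, hφ2 j g s hs]
  refine Csm.coarsen_H2_exists_of_restrict h (homRep P Y) hV hvan c hc φ₀ hφ₀sm ?_
  intro s hs t ht
  apply b.ext
  intro j
  have e1 : ((homRep P Y).ρ s (φ₀ t) - φ₀ (s * t) + φ₀ s : P →ₗ[k] Y) (b j) =
      ((homRep P Y).ρ s (φ₀ t) : P →ₗ[k] Y) (b j) - (φ₀ (s * t) : P →ₗ[k] Y) (b j) +
        (φ₀ s : P →ₗ[k] Y) (b j) := rfl
  rw [e1, homRep.ρ_apply, hfixP s⁻¹ (V₁.inv_mem (hVV₁ hs)), hφ₀, hφ₀, hφ₀]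
  exact hφ j s hs t ht

/-- **`p`-torsion classes of `H²(D, Hom(P, Y))` for the fine topology come from the coarse topology.** -/
theorem coarsen_H2_exists_of_pTorsion (p : ℕ) (U₀ : Subgroup D)
    (hsurj : ∀ V : Subgroup D, 𝒱.IsOpen V → V ≤ U₀ →
      ∀ y : (Csm (𝒱.comap V.subtype) (Rep.res V.subtype Y)).H 2, p • y = 0 →
        ∃ x : (Csm 𝒱 Y).H 2, (∃ m : ℕ, p ^ m • x = 0) ∧ (resV 𝒱 V Y).mapH 2 x = y)
    (hres : ∀ V : Subgroup D, 𝒱.IsOpen V → V ≤ U₀ → ∀ x : (Csm 𝒱 Y).H 2,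
      (∃ m : ℕ, p ^ m • x = 0) → V.index • x = 0 → (resV 𝒱 V Y).mapH 2 x = 0)
    (hfix : ∃ V₁ ∈ 𝒰.sets, V₁ ≤ U₀ ∧ ∀ s ∈ V₁, ∀ x : P, P.ρ s x = x)
    (hidx : ∀ m : ℕ, ∃ V ∈ 𝒰.sets, p ^ m ∣ V.index)
    (h90 : ∀ U ∈ 𝒰.sets, ∃ U' ∈ 𝒰.sets, U' ≤ U ∧ Csm.H1Vanishes 𝒱 (homRep P Y) U')
    (w : (Csm 𝒱 (homRep P Y)).H 2) (hw : p • w = 0) :
    ∃ w', (Csm.coarsen h (homRep P Y)).mapH 2 w' = w := by
  obtain ⟨c, hc, rfl⟩ := (Csm 𝒱 (homRep P Y)).exists_rep w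
  obtain ⟨V₁, hV₁, hV₁U₀, hfixP⟩ := hfix
  have hV₁open : 𝒱.IsOpen V₁ := h V₁ hV₁
  let b := Module.Free.chooseBasis k P
  -- the components over `V₁`
  let ev := fun j => evP P Y V₁ (b j) (fun s hs => hfixP s hs (b j))
  let wj := fun j => (Csm.map (𝒱.comap V₁.subtype) (ev j)).mapH 2
    ((resV 𝒱 V₁ (homRep P Y)).mapH 2 ((Csm 𝒱 (homRep P Y)).cl c hc))
  have hwj : ∀ j, p • wj j = 0 := fun j => by
    show p • (Csm.map (𝒱.comap V₁.subtype) (ev j)).mapH 2 _ = 0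
    rw [← map_nsmul, ← map_nsmul, hw, map_zero, map_zero]
  have hsurj' := fun j => hsurj V₁ hV₁open hV₁U₀ (wj j) (hwj j)
  choose x hxp hxres using hsurj'
  choose m hm using hxp
  -- a common exponent
  have hM : ∀ j, p ^ (∑ j, m j) • x j = 0 := fun j => by
    have hdvd : p ^ m j ∣ p ^ (∑ j, m j) :=
      pow_dvd_pow p (Finset.single_le_sum (fun _ _ => Nat.zero_le _) (Finset.mem_univ j))
    obtain ⟨e, he⟩ := hdvd
    rw [he, mul_comm, mul_smul, hm j, smul_zero]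
  -- the small subgroup
  obtain ⟨V₂, hV₂, hidx₂⟩ := hidx (∑ j, m j)
  obtain ⟨V₃, hV₃, hle₃⟩ := 𝒰.directed V₁ hV₁ V₂ hV₂
  obtain ⟨V, hV, hVV₃, hvan⟩ := h90 V₃ hV₃
  have hVV₁ : V ≤ V₁ := hVV₃.trans (hle₃.trans inf_le_left)
  have hVV₂ : V ≤ V₂ := hVV₃.trans (hle₃.trans inf_le_right)
  have hVopen : 𝒱.IsOpen V := h V hV
  have hresx : ∀ j, (resV 𝒱 V Y).mapH 2 (x j) = 0 := fun j => by
    refine hres V hVopen (hVV₁.trans hV₁U₀) (x j) ⟨_, hM j⟩ ?_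
    obtain ⟨e, he⟩ := hidx₂.trans (Subgroup.index_dvd_of_le hVV₂)
    rw [he, mul_comm, mul_smul, hM j, smul_zero]
  -- to cochains
  choose ξ hξ hxξ using fun j => (Csm 𝒱 Y).exists_rep (x j)
  have hbd1 : ∀ j, IsBdOn 𝒱 Y V (Csm.fn₂ (ξ j)) := fun j => by
    have h1 := hresx j
    rw [← hxξ j, Cpx.Hom.mapH_cl] at h1
    obtain ⟨φ, hφ, hφ'⟩ := exists_ext_of_cl_eq_zero hVopen _ _ h1
    refine ⟨φ, hφ, fun s hs t ht => ?_⟩
    rw [← hφ' s t hs ht]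
    exact (fn₂_resV 𝒱 V Y (ξ j) ⟨s, hs⟩ ⟨t, ht⟩).symm
  have hbd2 : ∀ j, IsBdOn 𝒱 Y V₁ (fun x => Csm.fn₂ (ξ j) x - (Csm.fn₂ c x : P →ₗ[k] Y) (b j)) :=
    fun j => by
    have h1 : (resV 𝒱 V₁ Y).mapH 2 (x j) - wj j = 0 := by rw [hxres j, sub_self]
    rw [← hxξ j] at h1
    simp only [wj, Cpx.Hom.mapH_cl] at h1
    rw [← Cpx.cl_sub] at h1
    obtain ⟨φ, hφ, hφ'⟩ := exists_ext_of_cl_eq_zero hV₁open _ _ h1
    refine ⟨φ, hφ, fun s hs t ht => ?_⟩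
    have e : Csm.fn₂ ((Csm.map (𝒱.comap V₁.subtype) (ev j)).f 2
        ((resV 𝒱 V₁ (homRep P Y)).f 2 c)) (⟨s, hs⟩, ⟨t, ht⟩) =
        (Csm.fn₂ c (s, t) : P →ₗ[k] Y) (b j) := by
      rw [fn₂_map, fn₂_resV]
      rfl
    rw [← hφ' s t hs ht, Csm.fn₂_sub]
    show _ = Csm.fn₂ ((resV 𝒱 V₁ Y).f 2 (ξ j)) (⟨s, hs⟩, ⟨t, ht⟩) -
      Csm.fn₂ ((Csm.map (𝒱.comap V₁.subtype) (ev j)).f 2
        ((resV 𝒱 V₁ (homRep P Y)).f 2 c)) (⟨s, hs⟩, ⟨t, ht⟩)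
    rw [fn₂_resV, e]
  have hbd3 : ∀ j, IsBdOn 𝒱 Y V (fun x => (Csm.fn₂ c x : P →ₗ[k] Y) (b j)) := fun j => by
    obtain ⟨φ, hφ, hφ'⟩ := (hbd1 j).sub ((hbd2 j).mono hVV₁)
    refine ⟨φ, hφ, fun s hs t ht => ?_⟩
    rw [← hφ' s hs t ht]
    exact (sub_sub_cancel _ _).symm
  exact coarsen_H2_exists_of_components h P hV hvan hVV₁ hV₁open hfixP c hc hbd3

end Fermat.Agent.S56lib.PT9a
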