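/-
S56lib / PT9a / Shapiro2S  (helper7).

Shapiro's lemma in degree 2, surjectivity: for a smooth coinduction `S : SmCoind 𝒰 D r Y J` over a finite
family, `H²(G, J) → ∏ H²(D i, Y i)` is surjective (`SmCoind.sh_H2_surjective`).  The preimage is the pull-back of
the homogeneous form of the local cocycles along retractions `θ i : G → D i` (no coboundary is needed).
Consequence for the `Ext` complexes: `extSh_H2_surjective`.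
-/
import Fermat.Agent.S55lib.Cpx.Shapiro3
import Fermat.Agent.S55lib.Cpx.ShapiroExt

set_option autoImplicit false

noncomputable section

namespace Fermat.Agent.S55lib

universe u

open groupCohomology

namespace SmCoind

variable {k G : Type u} [CommRing k] [Group G] {𝒰 : OpenBasis G} {I : Type u}
  {D : I → Type u} [∀ i, Group (D i)] {r : ∀ i, D i →* G} {Y : ∀ i, Rep.{u} k (D i)}
  {J : Rep.{u} k G} (S : SmCoind 𝒰 D r Y J)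

section hom2

variable (i : I) {b : D i × D i → Y i}

/-- the homogeneous form of a 2-cocycle is a homogeneous cocycle -/
lemma bh2_cocycle
    (hcoc : ∀ g h j, (Y i).ρ g (b (h, j)) + b (g, h * j) = b (g * h, j) + b (g, h))
    (y₀ y₁ y₂ y₃ : D i) :
    bh2 i b y₁ y₂ y₃ + bh2 i b y₀ y₁ y₃ = bh2 i b y₀ y₂ y₃ + bh2 i b y₀ y₁ y₂ := by
  unfold bh2
  have h := congrArg ((Y i).ρ y₀) (hcoc (y₀⁻¹ * y₁) (y₁⁻¹ * y₂) (y₂⁻¹ * y₃))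
  simp only [map_add] at h
  rw [← Module.End.mul_apply, ← map_mul] at h
  have e1 : y₀ * (y₀⁻¹ * y₁) = y₁ := by group
  have e2 : y₁⁻¹ * y₂ * (y₂⁻¹ * y₃) = y₁⁻¹ * y₃ := by group
  have e3 : y₀⁻¹ * y₁ * (y₁⁻¹ * y₂) = y₀⁻¹ * y₂ := by group
  rw [e1, e2, e3] at h
  exact h

/-- the homogeneous form at `(1, d, d d')` -/
lemma bh2_one (d d' : D i) : bh2 i b 1 d (d * d') = b (d, d') := by
  unfold bh2
  have e1 : (1 : D i)⁻¹ * d = d := by group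
  have e2 : d⁻¹ * (d * d') = d' := by group
  rw [e1, e2, map_one]
  rfl

end hom2

theorem sh_H2_surjective [Finite I] (y : ∀ i, (Csm (𝒰.comap (r i)) (Y i)).H 2) :
    ∃ x : (Csm 𝒰 J).H 2, ∀ i, (S.sh i).mapH 2 x = y i := by
  choose cb hcb hy using fun i => (Csm (𝒰.comap (r i)) (Y i)).exists_rep (y i)
  have hcoc := fun i => (Csm.d_two_eq_zero_iff (cb i)).1 (hcb i)
  -- a common level
  obtain ⟨U, hU, hlev⟩ := exists_common_level 𝒰 r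
    (fun i V => (∀ x y, ∀ v ∈ V, ∀ w ∈ V, Csm.fn₂ (cb i) (x * v, y * w) = Csm.fn₂ (cb i) (x, y)) ∧
      ∀ x y, ∀ v ∈ V, (Y i).ρ v (Csm.fn₂ (cb i) (x, y)) = Csm.fn₂ (cb i) (x, y))
    (fun i V V' hle h => ⟨fun x y v hv w hw => h.1 x y v (hle hv) w (hle hw),
      fun x y v hv => h.2 x y v (hle hv)⟩)
    (fun i => Csm.isSm₂_fn₂ (cb i))
  have hN : U.Normal := 𝒰.normal U hU
  have hV : ∀ i, (U.comap (r i)).Normal := fun i => hN.comap (r i)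
  have R : ∀ i, Retr (r i) U := fun i => Classical.choice (Retr.exists_retr (r i) U)
  -- the homogeneous cocycle on `G`
  let Ψ : ∀ i, G → G → G → Y i := fun i x₀ x₁ x₂ =>
    bh2 i (Csm.fn₂ (cb i)) ((R i).θ x₀) ((R i).θ x₁) ((R i).θ x₂)
  have hΨinv : ∀ i x₀ x₁ x₂, ∀ u₀ ∈ U, ∀ u₁ ∈ U, ∀ u₂ ∈ U,
      Ψ i (x₀ * u₀) (x₁ * u₁) (x₂ * u₂) = Ψ i x₀ x₁ x₂ := fun i x₀ x₁ x₂ u₀ hu₀ u₁ hu₁ u₂ hu₂ => by
    show bh2 i _ ((R i).θ (x₀ * u₀)) ((R i).θ (x₁ * u₁)) ((R i).θ (x₂ * u₂)) = _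
    rw [(R i).θ_mul_right x₀ u₀ hu₀, (R i).θ_mul_right x₁ u₁ hu₁, (R i).θ_mul_right x₂ u₂ hu₂]
  have hΨeq : ∀ i d x₀ x₁ x₂, Ψ i (r i d * x₀) (r i d * x₁) (r i d * x₂) =
      (Y i).ρ d (Ψ i x₀ x₁ x₂) := fun i d x₀ x₁ x₂ => by
    obtain ⟨v₀, hv₀, e₀⟩ := (R i).θ_equiv' d x₀
    obtain ⟨v₁, hv₁, e₁⟩ := (R i).θ_equiv' d x₁
    obtain ⟨v₂, hv₂, e₂⟩ := (R i).θ_equiv' d x₂
    show bh2 i _ ((R i).θ (r i d * x₀)) ((R i).θ (r i d * x₁)) ((R i).θ (r i d * x₂)) = _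
    rw [e₀, e₁, e₂, bh2_inv i (hV i) (hlev i).1 (hlev i).2 _ _ _ hv₀ hv₁ hv₂, bh2_equivariant]
  have hΨcoc : ∀ i x₀ x₁ x₂ x₃, Ψ i x₁ x₂ x₃ + Ψ i x₀ x₁ x₃ = Ψ i x₀ x₂ x₃ + Ψ i x₀ x₁ x₂ :=
    fun i x₀ x₁ x₂ x₃ => bh2_cocycle i (hcoc i) _ _ _ _
  have hΨr : ∀ i d d', Ψ i 1 (r i d) (r i (d * d')) = Csm.fn₂ (cb i) (d, d') := fun i d d' => by
    obtain ⟨v₁, hv₁, e₁⟩ := (R i).θ_equiv' d 1
    obtain ⟨v₂, hv₂, e₂⟩ := (R i).θ_equiv' (d * d') 1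
    rw [mul_one, (R i).θ_one, mul_one] at e₁ e₂
    show bh2 i _ ((R i).θ 1) ((R i).θ (r i d)) ((R i).θ (r i (d * d'))) = _
    rw [e₁, e₂, (R i).θ_one]
    have := bh2_inv i (hV i) (hlev i).1 (hlev i).2 1 d (d * d') (U.comap (r i)).one_mem hv₁ hv₂
    rw [mul_one] at this
    rw [this, bh2_one]
  have hconj : ∀ g γ : G, ∀ u ∈ U, g * u * γ = g * γ * (γ⁻¹ * u * γ⁻¹⁻¹) := fun g γ u _ => by group
  -- the cocycle
  let c : G × G → J := fun γ => S.ofFn (fun i g => Ψ i g (g * γ.1) (g * γ.1 * γ.2))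
    (fun i d g => by
      show Ψ i (r i d * g) (r i d * g * γ.1) (r i d * g * γ.1 * γ.2) = _
      rw [mul_assoc (r i d) g γ.1, mul_assoc (r i d) (g * γ.1) γ.2]
      exact hΨeq i d g (g * γ.1) (g * γ.1 * γ.2))
    ⟨U, hU, fun i g u hu => by
      show Ψ i (g * u) (g * u * γ.1) (g * u * γ.1 * γ.2) = Ψ i g (g * γ.1) (g * γ.1 * γ.2)
      rw [hconj g γ.1 u hu, hconj (g * γ.1) γ.2 _ (hN.conj_mem u hu γ.1⁻¹)]
      exact hΨinv i _ _ _ u hu _ (hN.conj_mem u hu γ.1⁻¹) _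
        (hN.conj_mem _ (hN.conj_mem u hu γ.1⁻¹) γ.2⁻¹)⟩
  have hc : ∀ γ₁ γ₂ i g, S.fn i (c (γ₁, γ₂)) g = Ψ i g (g * γ₁) (g * γ₁ * γ₂) :=
    fun γ₁ γ₂ i g => S.fn_ofFn _ _ _ i g
  have hcsm : Csm.IsSm₂ 𝒰 J c := by
    refine ⟨U, hU, fun γ₁ γ₂ s hs t ht => S.ext fun i g => ?_,
      fun γ₁ γ₂ u hu => S.ρ_eq_self_of_fn fun i g => ?_⟩
    · rw [hc, hc]
      have e1 : g * (γ₁ * s) = g * γ₁ * s := by group
      have e2 : g * γ₁ * s * (γ₂ * t) = g * γ₁ * γ₂ * (γ₂⁻¹ * s * γ₂⁻¹⁻¹ * t) := by group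
      rw [e1, e2]
      have := hΨinv i g (g * γ₁) (g * γ₁ * γ₂) 1 U.one_mem s hs _
        (U.mul_mem (hN.conj_mem s hs γ₂⁻¹) ht)
      rwa [mul_one] at this
    · rw [hc, hc, hconj g γ₁ u hu, hconj (g * γ₁) γ₂ _ (hN.conj_mem u hu γ₁⁻¹)]
      exact hΨinv i _ _ _ u hu _ (hN.conj_mem u hu γ₁⁻¹) _
        (hN.conj_mem _ (hN.conj_mem u hu γ₁⁻¹) γ₂⁻¹)
  have hcc : (Csm 𝒰 J).d 2 (Csm.mk₂ c hcsm) = 0 := by
    rw [Csm.d_two_eq_zero_iff]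
    intro γ₀ γ₁ γ₂
    rw [Csm.fn₂_mk₂]
    refine S.ext fun i g => ?_
    rw [fn_add, fn_add, fn_ρ, hc, hc, hc, hc]
    have := hΨcoc i g (g * γ₀) (g * γ₀ * γ₁) (g * γ₀ * γ₁ * γ₂)
    rw [← mul_assoc g γ₀ γ₁, ← mul_assoc (g * γ₀) γ₁ γ₂]
    exact this
  refine ⟨(Csm 𝒰 J).cl (Csm.mk₂ c hcsm) hcc, fun i => ?_⟩
  rw [Cpx.Hom.mapH_cl, ← hy i]
  refine Cpx.cl_congr _ ?_ _
  apply Csm.ext₂
  funext ⟨d, d'⟩
  rw [fn₂_sh, Csm.fn₂_mk₂, hc, one_mul, ← map_mul]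
  exact hΨr i d d'

/-! ### Consequence for the `Ext` complexes -/

section ext

variable {P0 P1 : Rep.{u} k G} [Module.Finite k P0] [Module.Finite k P1] (hP0 : IsSm 𝒰 P0)
  (hP1 : IsSm 𝒰 P1) (d : P1 ⟶ P0) [Finite I]

theorem extShPi_H2_surjective : Function.Surjective ((S.extShPi hP0 hP1 d).mapH 2) := by
  refine Cpx.Fib.map_mapH_surjective_succ _ _ _ 1 ?_ ?_ ?_
  · exact Cpx.Hom.pi_mapH_surjective _ 1 (S.hom P1 hP1).sh_H1_surjective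
  · exact Cpx.Hom.pi_mapH_surjective _ 2 (S.hom P0 hP0).sh_H2_surjective
  · exact Cpx.Hom.pi_mapH_injective _ 2 (S.hom P1 hP1).sh_H2_injective

/-- `Ext²(d, J) → ∏ Ext²(res d, Y i)` is surjective -/
theorem extSh_H2_surjective
    (y : ∀ i, (ExtC (𝒰.comap (r i)) (resHom (r i) d) (Y i)).H 2) :
    ∃ x : (ExtC 𝒰 d J).H 2, ∀ i, (S.extSh hP0 hP1 d i).mapH 2 x = y i := by
  obtain ⟨z, hz⟩ := Cpx.Fib.exists_piProj_eq
    (fun i => Csm.map (𝒰.comap (r i)) (homRep.mapL (resHom (r i) d) (Y i))) 2 y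
  obtain ⟨x, rfl⟩ := S.extShPi_H2_surjective hP0 hP1 d z
  refine ⟨x, fun i => ?_⟩
  rw [← piProj_extShPi]
  exact hz i

end ext

end SmCoind

end Fermat.Agent.S55lib
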