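/-
S56lib / PT9a / FourTermR  (helper7).

Towards the Poitou–Tate sequence of `Cpx/FourTerm` one step to the RIGHT: surjectivity of
  `Ext²(d, J) → ∏ Ext²(res d, Y i)`   (`FourTerm.PhiJ_H2_surjective`)
on `p`-torsion families, given that the `p`-torsion of `H²(D i, Hom(P₀, Y i))` for the fine topology `𝒱 i`
comes from the coarse topology (`hcoarse`; for `J_S` this is "`Br(K_{S,𝔮})` has no `p`-torsion").
Ingredients: `SmCoind.extSh_H2_surjective` (`Cpx/Shapiro2S`), an elementwise four lemma for maps of fibres.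
-/
import Fermat.Agent.S56lib.PT9a.Shapiro2S
import Fermat.Agent.S55lib.Cpx.FourTerm

set_option autoImplicit false
set_option linter.unusedSectionVars false

noncomputable section

namespace Fermat.Agent.S55lib

universe u

namespace Cpx

namespace Fib

variable {k : Type u} [CommRing k] {K L K' L' : Cpx k} {φ : Hom K L} {φ' : Hom K' L'}
  (α : Hom K K') (β : Hom L L') (h : ∀ n x, φ'.f n (α.f n x) = β.f n (φ.f n x))

/-- elementwise four lemma: `x' ∈ Hⁿ⁺¹(Fib φ')` is in the image of `Hⁿ⁺¹(Fib φ)` as soon as its image in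
`Hⁿ⁺¹(K')` comes from `Hⁿ⁺¹(K)`, if `Hⁿ(L) → Hⁿ(L')` is surjective and `Hⁿ⁺¹(L) → Hⁿ⁺¹(L')` injective. -/
theorem exists_map_mapH_eq (n : ℕ) (hβ₁ : Function.Surjective (β.mapH n))
    (hβ₂ : Function.Injective (β.mapH (n + 1))) (x' : (Fib φ').H (n + 1))
    (hα : ∃ w, α.mapH (n + 1) w = π φ' (n + 1) x') :
    ∃ x, (map α β h).mapH (n + 1) x = x' := by
  obtain ⟨w, hw⟩ := hα
  have h1 : φ.mapH (n + 1) w = 0 := by
    apply hβ₂
    rw [← mapH_square α β h, hw, map_zero]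
    exact (exact_φ φ' (n + 1) _).2 ⟨x', rfl⟩
  obtain ⟨x₀, hx₀⟩ := (exact_φ φ (n + 1) w).1 h1
  have h2 : π φ' (n + 1) (x' - (map α β h).mapH (n + 1) x₀) = 0 := by
    rw [map_sub, π_map α β h, hx₀, hw, sub_self]
  obtain ⟨y', hy'⟩ := (exact_π φ' n _).1 h2
  obtain ⟨y, rfl⟩ := hβ₁ y'
  refine ⟨x₀ + ι φ n y, ?_⟩
  rw [map_add, ι_map α β h, hy']
  abel

end Fib

end Cpx

namespace ExtC

variable {k G : Type u} [CommRing k] [Group G] {𝒰 𝒱 : OpenBasis G} (h : Csm.Coarser 𝒰 𝒱)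
  {P0 P1 : Rep.{u} k G} (d : P1 ⟶ P0) (X : Rep.{u} k G)

/-- a class of `Ext²` for the fine topology comes from the coarse topology as soon as its image in
`H²(G, Hom(P₀, X))` does -/
theorem coarsen_H2_exists
    (hv : ∀ U ∈ 𝒰.sets, ∃ U' ∈ 𝒰.sets, U' ≤ U ∧ Csm.H1Vanishes 𝒱 (homRep P1 X) U')
    (x' : (ExtC 𝒱 d X).H 2)
    (hα : ∃ w, (Csm.coarsen h (homRep P0 X)).mapH 2 w =
      Cpx.Fib.π (Csm.map 𝒱 (homRep.mapL d X)) 2 x') :
    ∃ x, (coarsen h d X).mapH 2 x = x' := by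
  refine Cpx.Fib.exists_map_mapH_eq _ _ _ 1 ?_ ?_ x' hα
  · obtain ⟨U, hU⟩ := 𝒰.nonempty
    obtain ⟨U', hU', -, hvan⟩ := hv U hU
    exact Csm.coarsen_H1_surjective h _ ⟨U', hU', hvan⟩
  · exact Csm.coarsen_H2_injective h _ hv

end ExtC

namespace FourTerm

variable {k G : Type u} [CommRing k] [Group G] {𝒰 : OpenBasis G} {I : Type u}
  {D : I → Type u} [∀ i, Group (D i)] {r : ∀ i, D i →* G} {Y : ∀ i, Rep.{u} k (D i)}
  {J : Rep.{u} k G} (S : SmCoind 𝒰 D r Y J)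
  {𝒱 : ∀ i, OpenBasis (D i)} (hco : ∀ i, Csm.Coarser (𝒰.comap (r i)) (𝒱 i))
  {P0 P1 : Rep.{u} k G} [Module.Finite k P0] [Module.Finite k P1]
  (hP0 : IsSm 𝒰 P0) (hP1 : IsSm 𝒰 P1) (d : P1 ⟶ P0)
  [Finite I]
  (h90' : ∀ i, ∀ U ∈ (𝒰.comap (r i)).sets, ∃ U' ∈ (𝒰.comap (r i)).sets, U' ≤ U ∧
    Csm.H1Vanishes (𝒱 i) (homRep (Rep.res (r i) P1) (Y i)) U')
  (p : ℕ)
  (hcoarse : ∀ i, ∀ w : (Csm (𝒱 i) (homRep (Rep.res (r i) P0) (Y i))).H 2, p • w = 0 →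
    ∃ w', (Csm.coarsen (hco i) (homRep (Rep.res (r i) P0) (Y i))).mapH 2 w' = w)

include h90' hcoarse in
/-- `Ext²(d, J) → ∏ Ext²(res d, Y i)` is surjective on `p`-torsion families -/
theorem PhiJ_H2_surjective (y : ∀ i, (ExtC (𝒱 i) (resHom (r i) d) (Y i)).H 2)
    (hy : ∀ i, p • y i = 0) :
    ∃ x : (ExtC 𝒰 d J).H 2, ∀ i, (PhiJ S hco hP0 hP1 d i).mapH 2 x = y i := by
  have h1 : ∀ i, ∃ y' : (ExtC (𝒰.comap (r i)) (resHom (r i) d) (Y i)).H 2,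
      (ExtC.coarsen (hco i) (resHom (r i) d) (Y i)).mapH 2 y' = y i := fun i => by
    refine ExtC.coarsen_H2_exists (hco i) (resHom (r i) d) (Y i) (h90' i) (y i) ?_
    apply hcoarse i
    rw [← map_nsmul]
    exact (congrArg _ (hy i)).trans (map_zero _)
  choose y' hy' using h1
  obtain ⟨x, hx⟩ := S.extSh_H2_surjective hP0 hP1 d y'
  refine ⟨x, fun i => ?_⟩
  rw [← hy' i, ← hx i]
  exact Cpx.Hom.mapH_comp _ _ 2 x

end FourTerm

end Fermat.Agent.S55lib
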