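/-
S56lib / PT9a / LocIndex  (helper7).

The indices of the `G_S`-open subgroups of the local Galois group `G_q` are divisible by arbitrarily high powers of
`p` (`p` odd, `p ∈ S`): the level `ℚ(ζ_{p^n}) ⊂ ℚ_S` has local degree `[ℚ_q(ζ_{p^n}) : ℚ_q]` at `q`, which is
`φ(p^n)` for `q = p` (helper6, `LocalH.finrank_adjoin_primitiveRoot_prime_pow`) and a multiple of the order of `q`
in `(ℤ/p^n)ˣ` for `q ≠ p` (lead, `Places.natCast_pow_finrank_cycloField`, + lifting the exponent).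
-/
import Fermat.Agent.S55lib.GlobDual.LocalFacts
import Fermat.Agent.S55lib.Iface.CycloLevels
import Fermat.Agent.S55lib.Places.CycloFrob
import Fermat.Agent.S55lib.LocalH.CycloNorm

set_option autoImplicit false

noncomputable section

namespace Fermat.Agent.S56lib.PT9a

open Fermat.Agent.S55lib

/-! ### Lifting the exponent -/

/-- if `q ^ d ≡ 1 mod p^(m + c)`, `c = v_p(q^(p-1) - 1)`, then `p^m ∣ d` (`p` odd, `p ∤ q`) -/
theorem pow_dvd_of_pow_eq_one {p : ℕ} [hp : Fact p.Prime] (hp2 : p ≠ 2) {q : ℕ} (hq1 : 1 < q)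
    (hpq : ¬ p ∣ q) (m d : ℕ) (hd : d ≠ 0)
    (h : ((q : ℕ) : ZMod (p ^ (m + padicValNat p (q ^ (p - 1) - 1)))) ^ d = 1) : p ^ m ∣ d := by
  set c := padicValNat p (q ^ (p - 1) - 1) with hc
  have hodd : Odd p := hp.out.odd_of_ne_two hp2
  -- `p^(m+c) ∣ q^d - 1`
  have h1 : p ^ (m + c) ∣ q ^ d - 1 := by
    have hq1' : 1 ≤ q ^ d := Nat.one_le_pow _ _ (by omega)
    have h2 : ((q ^ d - 1 : ℕ) : ZMod (p ^ (m + c))) = 0 := by
      rw [Nat.cast_sub hq1', Nat.cast_pow, Nat.cast_one, h, sub_self]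
    exact (ZMod.natCast_eq_zero_iff _ _).1 h2
  -- `x = q^(p-1)`
  set x := q ^ (p - 1) with hx
  have hp1 : 1 ≤ p - 1 := by have := hp.out.two_le; omega
  have hx1 : 1 < x := Nat.one_lt_pow (by omega) hq1
  have hpx : ¬ p ∣ x := fun hdvd => hpq (hp.out.dvd_of_dvd_pow hdvd)
  have hpx1 : p ∣ x - 1 := by
    have hq0 : ((q : ℕ) : ZMod p) ≠ 0 := fun h0 => hpq ((ZMod.natCast_eq_zero_iff _ _).1 h0)
    have h3 : ((q : ℕ) : ZMod p) ^ (p - 1) = 1 := ZMod.pow_card_sub_one_eq_one hq0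
    have h4 : ((x - 1 : ℕ) : ZMod p) = 0 := by
      rw [Nat.cast_sub hx1.le, hx, Nat.cast_pow, Nat.cast_one, h3, sub_self]
    exact (ZMod.natCast_eq_zero_iff _ _).1 h4
  have hlte := padicValNat.pow_sub_pow hodd hx1 (by simpa using hpx1) hpx hd
  rw [one_pow] at hlte
  -- `q^d - 1 ∣ x^d - 1`
  have h5 : q ^ d - 1 ∣ x ^ d - 1 := by
    have := Nat.sub_dvd_pow_sub_pow (q ^ d) 1 (p - 1)
    rwa [one_pow, ← pow_mul, mul_comm, pow_mul] at this
  have hne : x ^ d - 1 ≠ 0 := Nat.sub_ne_zero_of_lt (Nat.one_lt_pow hd hx1)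
  have h6 : m + c ≤ padicValNat p (x ^ d - 1) := (padicValNat_dvd_iff_le hne).1 (h1.trans h5)
  rw [hlte] at h6
  exact (padicValNat_dvd_iff_le hd).2 (by omega)

/-! ### Indices and local degrees -/

variable (q : Nat.Primes)

/-- the index of `r_q⁻¹ Gal(ℚ̄/F)` in `G_q` is the local degree -/
theorem index_comap_rloc (F : FieldQ) :
    (F.fixingSubgroup.comap (rloc q)).index = Module.finrank ℚ_[(q : ℕ)] (locField q F) := by
  rw [IntermediateField.finrank_eq_fixingSubgroup_index]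
  have : F.fixingSubgroup.comap (rloc q) =
      (locField q F).fixingSubgroup.comap (glocEquiv q).toMonoidHom := by
    ext s
    exact rloc_mem_fixingSubgroup_iff q F s
  rw [this, Subgroup.index_comap_of_surjective _ (glocEquiv q).surjective]

/-- the local degree of an intermediate field divides the index of a deeper level -/
theorem finrank_dvd_index_comap_rloc (F : FieldQ)
    (E : IntermediateField ℚ_[(q : ℕ)] (PadicAlgCl (q : ℕ))) (hE : E ≤ locField q F) :
    Module.finrank ℚ_[(q : ℕ)] E ∣ (F.fixingSubgroup.comap (rloc q)).index := by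
  rw [index_comap_rloc, IntermediateField.finrank_eq_fixingSubgroup_index,
    IntermediateField.finrank_eq_fixingSubgroup_index]
  exact Subgroup.index_dvd_of_le (IntermediateField.fixingSubgroup_antitone hE)

/-- the local image of a global element of a level lies in the local field of the level -/
theorem padicEmbedding_mem_locField {F : FieldQ} {x : Qbar} (hx : x ∈ F) :
    padicEmbedding (q : ℕ) x ∈ locField q F :=
  IntermediateField.subset_adjoin _ _ ⟨x, hx, rfl⟩

variable {p : ℕ} [hp : Fact p.Prime] (S : Finset Nat.Primes)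

/-- **the `G_S`-open subgroups of `G_q` have indices divisible by arbitrary powers of `p`** -/
theorem exists_index_dvd (hp2 : p ≠ 2) (hpS : (⟨p, hp.out⟩ : Nat.Primes) ∈ S) (m : ℕ) :
    ∃ V ∈ ((basisS S).comap (rloc q)).sets, p ^ m ∣ V.index := by
  -- the exponent
  obtain ⟨n, hn⟩ : ∃ n : ℕ, ((q : ℕ) = p → n = m + 1) ∧
      ((q : ℕ) ≠ p → n = m + padicValNat p ((q : ℕ) ^ (p - 1) - 1)) := by
    by_cases hqp : (q : ℕ) = p
    · exact ⟨m + 1, fun _ => rfl, fun h => absurd hqp h⟩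
    · exact ⟨m + padicValNat p ((q : ℕ) ^ (p - 1) - 1), fun h => absurd h hqp, fun _ => rfl⟩
  have hN0 : p ^ n ≠ 0 := pow_ne_zero _ hp.out.ne_zero
  have : NeZero (p ^ n) := ⟨hN0⟩
  obtain ⟨ζ, hζ⟩ := HasEnoughRootsOfUnity.exists_primitiveRoot Qbar (p ^ n)
  obtain ⟨F, hF, hN, hmem⟩ := exists_level_mem_of_pow_eq_one S hpS n hζ.pow_eq_one
  refine ⟨_, ⟨_, ⟨F, hF, hN, rfl⟩, rfl⟩, ?_⟩
  show p ^ m ∣ (F.fixingSubgroup.comap (rloc q)).index
  -- the local root of unity
  have hζl : IsPrimitiveRoot (padicEmbedding (q : ℕ) ζ) (p ^ n) :=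
    hζ.map_of_injective (padicEmbedding (q : ℕ)).toRingHom.injective
  have hζmem := padicEmbedding_mem_locField q hmem
  by_cases hqp : (q : ℕ) = p
  · -- `q = p`
    have hn1 := hn.1 hqp
    subst hn1
    have hle : IntermediateField.adjoin ℚ_[(q : ℕ)] {padicEmbedding (q : ℕ) ζ} ≤ locField q F :=
      IntermediateField.adjoin_le_iff.2 (Set.singleton_subset_iff.2 hζmem)
    refine Dvd.dvd.trans ?_ (finrank_dvd_index_comap_rloc q F _ hle)
    have hpow : (q : ℕ) ^ (m + 1) = p ^ (m + 1) := congrArg (· ^ (m + 1)) hqp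
    have hζl' : IsPrimitiveRoot (padicEmbedding (q : ℕ) ζ) ((q : ℕ) ^ (m + 1)) := by
      rw [hpow]; exact hζl
    rw [LocalH.finrank_adjoin_primitiveRoot_prime_pow hζl', Nat.totient_prime_pow_succ q.2]
    have hpow' : (q : ℕ) ^ m = p ^ m := congrArg (· ^ m) hqp
    rw [hpow']
    exact dvd_mul_right _ _
  · -- `q ≠ p`
    have hn2 := hn.2 hqp
    subst hn2
    have hqN : ¬ (q : ℕ) ∣ p ^ (m + padicValNat p ((q : ℕ) ^ (p - 1) - 1)) := fun hdvd => by
      have := (Nat.prime_dvd_prime_iff_eq q.2 hp.out).1 (q.2.dvd_of_dvd_pow hdvd)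
      exact hqp this
    have hle : Places.cycloField (q : ℕ) (p ^ (m + padicValNat p ((q : ℕ) ^ (p - 1) - 1))) ≤
        locField q F := by
      refine IntermediateField.adjoin_le_iff.2 fun γ hγ => ?_
      rw [Places.mem_rootSet_X_pow_sub_one hN0] at hγ
      obtain ⟨i, -, rfl⟩ := hζl.eq_pow_of_pow_eq_one hγ
      exact pow_mem hζmem i
    refine Dvd.dvd.trans ?_ (finrank_dvd_index_comap_rloc q F _ hle)
    have h1 := Places.natCast_pow_finrank_cycloField hqN hζl
    refine pow_dvd_of_pow_eq_one hp2 q.2.one_lt ?_ m _ Module.finrank_pos.ne' h1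
    intro hdvd
    exact hqp ((Nat.prime_dvd_prime_iff_eq hp.out q.2).1 hdvd).symm

end Fermat.Agent.S56lib.PT9a
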