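/-
S56lib / PT9a / PhiJ2  (helper7).

**Shapiro + change of topology for `Ext²(M′, J_S)`**: for the resolution `R` of `M′ = M^∨(1)` of `PTHalf`,
  `Ext²(R, J_S) → ∏_{q ∈ S} Ext²(res_q R, ℚ̄_qˣ)`   (`= ∏ H²(G_q, M)`)
is surjective (`PT.PhiJ_H2_surjective`; injectivity is `FourTerm.PhiJ_H2_injective`).  Inputs: `Cpx/FourTermR`
(Shapiro in degree 2 + elementwise four lemma), `PT9a/Coarse` (`p`-torsion of `H²(G_q, Hom(P, ℚ̄_qˣ))` comes from the
`G_S`-topology: helper6's local class formation `LocalH.cfData_loc` + inflation–restriction), `PT9a/LocIndex`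
(`p^∞` divides the local degrees of `ℚ_S`).
-/
import Fermat.Agent.S55lib.GlobDual.H1Ident
import Fermat.Agent.S56lib.PT9a.FourTermR
import Fermat.Agent.S55lib.LocalH.LocalK5Primes
import Fermat.Agent.S56lib.PT9a.Coarse
import Fermat.Agent.S56lib.PT9a.LocIndex

set_option autoImplicit false

noncomputable section

namespace Fermat.Agent.S56lib.PT9a

open Fermat.Agent.S55lib Fermat.Agent.S55lib.CFDual CategoryTheory

variable (S : Finset Nat.Primes) (q : Nat.Primes)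

/-- the cofinal vanishing of `H¹(U', Hom(P, (ℚ̄_q)ˣ))` (Hilbert 90) for any smooth finitely generated free `P` -/
theorem h90_homP {P : Rep.{0} ℤ GQ} (hsm : IsSm (basisS S) P)
    (hfin : @Module.Finite ℤ P _ _ P.hV2) (hfree : @Module.Free ℤ P _ _ P.hV2) :
    ∀ U ∈ ((basisS S).comap (rloc q)).sets, ∃ U' ∈ ((basisS S).comap (rloc q)).sets, U' ≤ U ∧
      Csm.H1Vanishes (basisLoc q) (homRep (Rep.res (rloc q) P) (Yloc q)) U' := by
  rintro _ ⟨U, hU, rfl⟩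
  have := hfin
  obtain ⟨W, hW, hWfix⟩ := IsSm.exists_fixing hsm
  obtain ⟨W', hW', hle⟩ := (basisS S).directed U hU W hW
  refine ⟨W'.comap (rloc q), (basisS S).comap_mem_comap (rloc q) hW',
    Subgroup.comap_mono (hle.trans inf_le_left), ?_⟩
  have hW'loc : W'.comap (rloc q) ∈ (basisLoc q).sets := by
    obtain ⟨F, hF, hN, rfl⟩ := hW'
    exact ⟨F, hF.1, hN, rfl⟩
  have h1 : @Module.Finite ℤ (Rep.res (rloc q) P) _ _ (Rep.res (rloc q) P).hV2 := hfin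
  have h2 : @Module.Free ℤ (Rep.res (rloc q) P) _ _ (Rep.res (rloc q) P).hV2 := hfree
  exact @Csm.H1Vanishes.linHom ℤ (Gloc q) _ _ (basisLoc q) (Rep.res (rloc q) P) (Yloc q) h1 h2
    (isSm_res_basisLoc S q hsm) (isSm_Yloc q) _
    (fun s hs x => hWfix (rloc q s) ((hle.trans inf_le_right) hs) x) (h1Vanishes_Yloc q hW'loc)

variable {p : ℕ} [hp : Fact p.Prime]

/-- a `G_S`-open subgroup of `G_q` fixing a local primitive `p`-th root of unity -/
theorem exists_open_fixing_zeta (hpS : (⟨p, hp.out⟩ : Nat.Primes) ∈ S) :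
    ∃ (ζ : PadicAlgCl (q : ℕ)) (W₁ : Subgroup GQ), IsPrimitiveRoot ζ p ∧ W₁ ∈ (basisS S).sets ∧
      ∀ v ∈ W₁.comap (rloc q), (glocEquiv q v) ζ = ζ := by
  have : NeZero p := ⟨hp.out.ne_zero⟩
  obtain ⟨ζ, hζ⟩ := HasEnoughRootsOfUnity.exists_primitiveRoot Qbar p
  obtain ⟨F, hF, hN, hmem⟩ := exists_level_mem_of_pow_eq_one S hpS 1
    (by rw [pow_one]; exact hζ.pow_eq_one)
  refine ⟨padicEmbedding (q : ℕ) ζ, _, hζ.map_of_injective (padicEmbedding (q : ℕ)).toRingHom.injective,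
    ⟨F, hF, hN, rfl⟩, fun v hv => ?_⟩
  have h1 : rloc q v ζ = ζ := hv ⟨ζ, hmem⟩
  have h2 := padicEmbedding_localGaloisToGlobal (q : ℕ) (glocEquiv q v) ζ
  rw [← rloc_eq, h1] at h2
  exact h2.symm

/-- **the `p`-torsion of `H²(G_q, Hom(P, ℚ̄_qˣ))` comes from the `G_S`-topology** (`p` odd, `p ∈ S`) -/
theorem hcoarse (hp2 : p ≠ 2) (hpS : (⟨p, hp.out⟩ : Nat.Primes) ∈ S) {P : Rep.{0} ℤ GQ}
    (hsm : IsSm (basisS S) P) (hfin : @Module.Finite ℤ P _ _ P.hV2)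
    (hfree : @Module.Free ℤ P _ _ P.hV2)
    (w : (Csm (basisLoc q) (homRep (Rep.res (rloc q) P) (Yloc q))).H 2) (hw : p • w = 0) :
    ∃ w', (Csm.coarsen (coarser_basisLoc S q) (homRep (Rep.res (rloc q) P) (Yloc q))).mapH 2 w' = w := by
  obtain ⟨ζ, W₁, hζ, hW₁, hfixζ⟩ := exists_open_fixing_zeta S q hpS
  have cf := LocalH.cfData_loc q p hζ (W₁.comap (rloc q)) hfixζ
  have h1 : @Module.Finite ℤ (Rep.res (rloc q) P) _ _ (Rep.res (rloc q) P).hV2 := hfin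
  have h2 : @Module.Free ℤ (Rep.res (rloc q) P) _ _ (Rep.res (rloc q) P).hV2 := hfree
  refine @coarsen_H2_exists_of_pTorsion ℤ (Gloc q) _ _ (basisLoc q) (Yloc q) ((basisS S).comap (rloc q))
    (coarser_basisLoc S q) (Rep.res (rloc q) P) h1 h2 p (W₁.comap (rloc q)) ?_ ?_ ?_ ?_ ?_ w hw
  · intro V hV hVU y hy
    exact cf.cf2_surj V hV hVU y ⟨1, by rw [pow_one]; exact hy⟩
  · intro V hV hVU x hx hidx
    exact cf.cf2_res V hV hVU x hx hidx
  · have := hfin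
    obtain ⟨W, hW, hWfix⟩ := IsSm.exists_fixing hsm
    obtain ⟨W', hW', hle⟩ := (basisS S).directed W hW W₁ hW₁
    exact ⟨W'.comap (rloc q), (basisS S).comap_mem_comap (rloc q) hW',
      Subgroup.comap_mono (hle.trans inf_le_right),
      fun s hs x => hWfix (rloc q s) ((hle.trans inf_le_left) hs) x⟩
  · exact exists_index_dvd q S hp2 hpS
  · exact h90_homP S q hsm hfin hfree

end Fermat.Agent.S56lib.PT9a

namespace Fermat.Agent.S55lib

open groupCohomology ExtCitation Cpx CFDual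

namespace PT

variable (S : Finset Nat.Primes) {p : ℕ} [hp : Fact p.Prime]
  (hpS : (⟨p, hp.out⟩ : Nat.Primes) ∈ S)
  (M : Rep.{0} (ZMod p) GQ) [FiniteDimensional (ZMod p) M]
  (hM : Sm.IsSmooth (MonoidHom.id GQ) (LevelClass.unr S) M)

/-- cohomology with coefficients killed by `c` is killed by `c` -/
lemma smul_H_eq_zero {k G : Type} [CommRing k] [Group G] (𝒰 : OpenBasis G) (A : Rep.{0} k G)
    (c : k) (hA : ∀ a : A, c • a = 0) (n : ℕ) (x : (Csm 𝒰 A).H n) : c • x = 0 := by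
  obtain ⟨z, hz, rfl⟩ := (Csm 𝒰 A).exists_rep x
  have h0 : c • z = 0 := by
    apply Subtype.ext
    funext g
    exact hA _
  rw [← Cpx.cl_smul c hz]
  exact (Cpx.cl_congr _ h0 _).trans (Csm 𝒰 A).cl_zero

omit hp in
/-- cohomology with coefficients killed by `p` is killed by `p` -/
lemma nsmul_H_eq_zero {k G : Type} [CommRing k] [Group G] (𝒰 : OpenBasis G) (A : Rep.{0} k G)
    (hA : ∀ a : A, p • a = 0) (n : ℕ) (x : (Csm 𝒰 A).H n) : p • x = 0 := by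
  rw [← Nat.cast_smul_eq_nsmul k]
  refine smul_H_eq_zero 𝒰 A (p : k) (fun a => ?_) n x
  rw [Nat.cast_smul_eq_nsmul]
  exact hA a

/-- `Ext²(res_q R, ℚ̄_qˣ) = H²(G_q, Hom(M′, ℚ̄_qˣ))` is killed by `p` -/
lemma nsmul_ExtY_eq_zero (q : S)
    (y : (ExtC (basisLoc q.1) (resHom (rloc q.1) (R S hpS M hM).d) (Yloc q.1)).H 2) : p • y = 0 := by
  obtain ⟨y₀, rfl⟩ := (FourTerm.ocY_bijective (hco S) (R S hpS M hM).sm0 (R S hpS M hM).d
    (R S hpS M hM).q (R S hpS M hM).q_surj (R S hpS M hM).exact (fun q : S => isSm_Yloc q.1)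
    (hextY S hpS M hM) q 2).2 y
  rw [← map_nsmul, nsmul_H_eq_zero (p := p) _ _ _ 2 y₀, map_zero]
  intro (φ : (N M) →ₗ[ℤ] Yloc q.1)
  apply LinearMap.ext
  intro x
  show p • φ x = 0
  rw [← map_nsmul]
  have : p • x = 0 := ZModModule.char_nsmul_eq_zero p (x : Module.Dual (ZMod p) M)
  rw [this, map_zero]

/-- **`Ext²(M′, J_S) → ∏_{q ∈ S} Ext²(res_q M′, ℚ̄_qˣ)` is surjective** (`p` odd, `p ∈ S`) -/
theorem PhiJ_H2_surjective (hp2 : p ≠ 2)
    (y : ∀ q : S, (ExtC (basisLoc q.1) (resHom (rloc q.1) (R S hpS M hM).d) (Yloc q.1)).H 2) :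
    ∃ x : (ExtC (basisS S) (R S hpS M hM).d (JSrep S)).H 2,
      ∀ q : S, (FourTerm.PhiJ (jsCoind S) (hco S) (R S hpS M hM).sm0 (R S hpS M hM).sm1
        (R S hpS M hM).d q).mapH 2 x = y q :=
  FourTerm.PhiJ_H2_surjective (jsCoind S) (hco S) (R S hpS M hM).sm0 (R S hpS M hM).sm1
    (R S hpS M hM).d (fun q => S56lib.PT9a.h90_homP S q.1 (R S hpS M hM).sm1 (R S hpS M hM).fin1
      (R S hpS M hM).free1) p
    (fun q => S56lib.PT9a.hcoarse S q.1 hp2 hpS (R S hpS M hM).sm0 (R S hpS M hM).fin0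
      (R S hpS M hM).free0) y
    (fun q => nsmul_ExtY_eq_zero S hpS M hM q (y q))

end PT

end Fermat.Agent.S55lib
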