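/-
S56lib / PT9a / TailInst  (helper7).

**The tail of the Poitou–Tate sequence as a `GW.Tail`** (`ZMod p`-linear packaging):
for `p` odd, `S ∋ p`, `M` a finite `𝔽_p[G_ℚ]`-module unramified outside `S`, `M′ = M^∨(1)`, there are
an `𝔽_p`-vector space `X`, linear maps `a, α, δ, b` and local pairings
`π_q : H¹(G_q, M) × H¹(G_q, M′) → 𝔽_p` (each inducing a SURJECTION `H¹(G_q, M) → H¹(G_q, M′)^∨`) with
  `H¹(G_S,M) → ∏ H¹(G_q,M) -a→ X ≃ H¹(G_S,M′)^∨ -δ→ H²(G_S,M) → ∏ H²(G_q,M) -b→ H⁰(G_ℚ,M′)^∨ → 0`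
exact, and `α (a y) x = ∑_q π_q (y_q) (loc_q x)`.
-/
import Fermat.Agent.S56lib.PT9.H2EndFinal
import Fermat.Agent.S56lib.GW.Card
import Fermat.Agent.S56lib.PT9a.PhiJ2
import Fermat.Agent.S56lib.PT9a.PTLeft
import Fermat.Agent.S55lib.GlobDual.PTPair

set_option autoImplicit false

noncomputable section

namespace Fermat.Agent.S56lib.PT9a

open Fermat.Agent.S55lib Fermat.Agent.S55lib.Cpx Fermat.Agent.S55lib.CFDual
  groupCohomology ExtCitation CategoryTheory Fermat.Agent.S56lib

/-! ### additive maps between `𝔽_p`-vector spaces, bilinear version -/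

section Lin

variable (p : ℕ) [Fact p.Prime] {A B : Type*} [AddCommGroup A] [Module (ZMod p) A]
  [AddCommGroup B] [Module (ZMod p) B]

/-- `Hom_ℤ(B, 𝔽_p) → Hom_{𝔽_p}(B, 𝔽_p)` as an additive map -/
def toDualHom : (B →+ ZMod p) →+ Module.Dual (ZMod p) B where
  toFun f := f.toZModLinearMap p
  map_zero' := by ext; rfl
  map_add' f g := by ext; rfl

lemma toDualHom_apply (f : B →+ ZMod p) (x : B) : toDualHom p f x = f x := rfl

lemma toDualHom_bijective : Function.Bijective (toDualHom p (B := B)) := by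
  constructor
  · intro f g h
    ext x
    have := congrArg (fun φ : Module.Dual (ZMod p) B => φ x) h
    exact this
  · intro φ
    exact ⟨φ.toAddMonoidHom, by ext x; rfl⟩

/-- an additive pairing between `𝔽_p`-vector spaces is bilinear -/
def toBilin (f : A →+ (B →+ ZMod p)) : A →ₗ[ZMod p] B →ₗ[ZMod p] ZMod p :=
  ((toDualHom p (B := B)).comp f).toZModLinearMap p

lemma toBilin_apply (f : A →+ (B →+ ZMod p)) (y : A) (x : B) : toBilin p f y x = f y x := rfl

lemma toBilin_surjective (f : A →+ (B →+ ZMod p)) (hf : Function.Surjective f) :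
    Function.Surjective (toBilin p f) := by
  intro φ
  obtain ⟨g, rfl⟩ := (toDualHom_bijective p (B := B)).2 φ
  obtain ⟨y, rfl⟩ := hf g
  exact ⟨y, rfl⟩

end Lin

section TailSec

variable {p : ℕ} [hp : Fact p.Prime] (hp2 : p ≠ 2) (S : Finset Nat.Primes)
  (hpS : (⟨p, hp.out⟩ : Nat.Primes) ∈ S)
  (M : Rep.{0} (ZMod p) GQ) [FiniteDimensional (ZMod p) M]
  (hM : Sm.IsSmooth (MonoidHom.id GQ) (LevelClass.unr S) M)

include hp2 hpS hM in
/-- **The Poitou–Tate tail** in helper8's abstract form `GW.Tail`, with the pairing a sum of local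
pairings, each of which is right-nondegenerate (`π_q : H¹(G_q,M) → H¹(G_q,M′)^∨` is onto). -/
theorem exists_tail :
    ∃ (X : Type) (_ : AddCommGroup X) (_ : Module (ZMod p) X)
      (a : H1locAll S M →ₗ[ZMod p] X)
      (α : X →ₗ[ZMod p] Module.Dual (ZMod p) (H1S S (M.dualTwist (cycloChar p))))
      (δ : X →ₗ[ZMod p] H2S S M)
      (b : H2locAll S M →ₗ[ZMod p] Module.Dual (ZMod p) (PT9.D0 M))
      (π : H1locAll S M →ₗ[ZMod p] H1locAll S (M.dualTwist (cycloChar p)) →ₗ[ZMod p] ZMod p)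
      (πc : ∀ q : S, H1loc M q.1 →ₗ[ZMod p]
        H1loc (M.dualTwist (cycloChar p)) q.1 →ₗ[ZMod p] ZMod p),
      (∀ q, Function.Surjective (πc q)) ∧ (∀ y x, π y x = ∑ q : S, πc q (y q) (x q)) ∧
      GW.Tail (locAll1 S M) (locAll1 S (M.dualTwist (cycloChar p))) a α δ (locAll2 S M) b π := by
  classical
  have hT := Dev.card_torsion_le_top hp2 hpS
    (Dev.topClassStatement_of_fundClass (Recip.fundClassStatement hp2) ⟨_, hpS⟩)
  have hIII := PT.hIII hp2 S hpS
  have hK4 := Dev.k4_global_of_fundClass hp2 hpS (Recip.fundClassStatement hp2)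
  obtain ⟨I⟩ := PT.nonempty_invData S hT (fun q => PT.exists_ne_zero_loc q.1 p) hIII ⟨_, hpS⟩
  have hK4q : ∀ q : S, K4Statement (basisLoc q.1) p (Yloc q.1) :=
    fun q => LocalH.k4Statement_loc q.1 p
  obtain ⟨b, hb1, hb2⟩ := PT9.h2End hp2 S hpS M hM
    (fun y => PT.PhiJ_H2_surjective S hpS M hM hp2 y)
  obtain ⟨α, hαb, hα⟩ := PT.exists_α S hpS M hM I hK4
  choose β hβs hβ using fun q : S => PT.exists_β S hpS M hM I q (hK4q q)
  -- `X` is killed by `p`
  have hX : ∀ ξ : PT.X S hpS M hM, p • ξ = 0 := by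
    intro ξ
    apply hαb.1
    rw [map_nsmul, map_zero]
    ext x
    rw [AddMonoidHom.nsmul_apply, AddMonoidHom.zero_apply]
    exact ZModModule.char_nsmul_eq_zero p _
  let modX : Module (ZMod p) (PT.X S hpS M hM) := AddCommGroup.zmodModule hX
  -- the local pairings
  let πc : ∀ q : S, H1loc M q.1 →ₗ[ZMod p]
      H1loc (M.dualTwist (cycloChar p)) q.1 →ₗ[ZMod p] ZMod p :=
    fun q => toBilin p ((β q).comp (PT.e1 S hpS M q))
  have hπc : ∀ q y x, πc q y x = β q (PT.e1 S hpS M q y) x := fun q y x => rfl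
  let π : H1locAll S M →ₗ[ZMod p] H1locAll S (M.dualTwist (cycloChar p)) →ₗ[ZMod p] ZMod p :=
    toBilin p
      { toFun := fun y => ∑ q : S, (β q (PT.e1 S hpS M q (y q))).comp (PT.evq S M q)
        map_zero' := by
          apply Finset.sum_eq_zero
          intro q _
          have h0 : (0 : H1locAll S M) q = 0 := rfl
          rw [h0, map_zero, map_zero, AddMonoidHom.zero_comp]
        map_add' := fun y y' => by
          rw [← Finset.sum_add_distrib]
          apply Finset.sum_congr rfl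
          intro q _
          have h0 : (y + y') q = y q + y' q := rfl
          rw [h0, map_add, map_add, AddMonoidHom.add_comp] }
  have hπ : ∀ y x, π y x = ∑ q : S, β q (PT.e1 S hpS M q (y q)) (x q) := fun y x => by
    show (∑ q : S, (β q (PT.e1 S hpS M q (y q))).comp (PT.evq S M q)) x = _
    rw [AddMonoidHom.finsetSum_apply]
    rfl
  refine ⟨PT.X S hpS M hM, inferInstance, modX, (PT.a S hpS M hM).toZModLinearMap p,
    ((toDualHom p).comp α).toZModLinearMap p, (PT.δ S hpS M hM).toZModLinearMap p, b, π, πc,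
    ?_, ?_, ?_⟩
  · intro q
    apply toBilin_surjective
    intro f
    obtain ⟨y0, hy0⟩ := hβs q f
    obtain ⟨y, hy⟩ := PT.e1_surjective S hpS M q y0
    exact ⟨y, by rw [AddMonoidHom.comp_apply, hy, hy0]⟩
  · intro y x
    rw [hπ]
    rfl
  · refine ⟨?_, ?_, ?_, hb2, hb1, ?_, ?_⟩
    · -- exactness at `P¹`
      ext y
      rw [LinearMap.mem_range, LinearMap.mem_ker]
      exact ((PT.exact_P1 S hpS M hM y).symm)
    · -- exactness at `X`
      ext ξ
      rw [LinearMap.mem_range, LinearMap.mem_ker]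
      exact ((PT.exact_X S hpS M hM ξ).symm)
    · -- exactness at `H²`
      ext x
      rw [LinearMap.mem_range, LinearMap.mem_ker]
      exact ((PT.exact_H2 S hpS M hM x).symm)
    · -- `α` bijective
      exact (toDualHom_bijective p).comp hαb
    · -- compatibility
      intro y x'
      show α (PT.a S hpS M hM y) x' = π y (locAll1 S (M.dualTwist (cycloChar p)) x')
      obtain ⟨x, rfl⟩ := (PT.θS_bijective S hpS M hM).2 x'
      have hx : p • x = 0 := by
        apply (PT.θS_bijective S hpS M hM).1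
        rw [map_nsmul, PT.nsmul_H1S, map_zero]
      obtain ⟨z, hz1, hz2, hz3⟩ := FourTerm.alpha1_aFun (jsCoind S) (PT.hco S) (pCS S)
        (PT.R S hpS M hM).sm0 (PT.R S hpS M hM).sm1 (PT.R S hpS M hM).d (PT.R S hpS M hM).q
        (PT.hqd S hpS M hM)
        (fun q => h90_hom S q.1 (PT.R S hpS M hM)) (fun q => PT.e1 S hpS M q (y q)) x
      have hz : p • z = 0 := hz3 p hx
      have ha : PT.a S hpS M hM y = FourTerm.aFun (jsCoind S) (PT.hco S) (pCS S)
          (PT.R S hpS M hM).sm0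
          (PT.R S hpS M hM).sm1 (PT.R S hpS M hM).d (PT.R S hpS M hM).q (PT.hqd S hpS M hM)
          (fun q => h90_hom S q.1 (PT.R S hpS M hM)) (fun q => PT.e1 S hpS M q (y q)) := rfl
      have e1' : PT.AS S hpS M hM (PT.a S hpS M hM y) x =
          (Csm.map (basisS S) (PT.πJ S)).mapH 2 z := by
        rw [PT.AS_apply, ha, hz1, PT.map_comp_mapH]
        rfl
      have hAS : p • PT.AS S hpS M hM (PT.a S hpS M hM y) x = 0 := by
        rw [← map_nsmul, hx, map_zero]
      have h1 : (Csm.map (basisS S) (PT.πJ S)).mapH 2 z ∈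
          PT.pTor p (Hsm (basisS S) (CSfull S) 2) := by
        rw [PT.mem_pTor, ← map_nsmul, hz, map_zero]
      have h2 : ∀ q : S, (PT.locJ S q).mapH 2 z ∈
          PT.pTor p (Hsm (basisLoc q.1) (Yloc q.1) 2) :=
        fun q => by rw [PT.mem_pTor, ← map_nsmul, hz, map_zero]
      rw [hα _ _ hAS, hπ]
      have e2 : (⟨PT.AS S hpS M hM (PT.a S hpS M hM y) x, hAS⟩ :
          PT.pTor p (Hsm (basisS S) (CSfull S) 2)) = ⟨_, h1⟩ := Subtype.ext e1'
      rw [e2, I.sum z hz h1 h2]
      apply Finset.sum_congr rfl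
      intro q _
      have e3 : PT.Aq S hpS M hM q (PT.e1 S hpS M q (y q))
          ((FourTerm.resFC (PT.hco S) (PT.R S hpS M hM).d q).mapH 2 x) = (PT.locJ S q).mapH 2 z :=
        (hz2 q).symm
      have hAq : p • PT.Aq S hpS M hM q (PT.e1 S hpS M q (y q))
          ((FourTerm.resFC (PT.hco S) (PT.R S hpS M hM).d q).mapH 2 x) = 0 := by
        rw [e3]
        exact h2 q
      rw [locAll1_apply, ← PT.θq_resFC, hβ q _ _ hAq]
      congr 1
      exact Subtype.ext e3.symm

end TailSec

/-! ### Local conditions, Selmer groups, and the Greenberg–Wiles count -/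

section Selmer

variable {k : Type} [CommRing k] (S : Finset Nat.Primes) (A : Rep k GQ)

/-- the product `∏_q L_q ≤ ∏_q H¹(G_q, A)` of local conditions -/
def piSub (L : ∀ q : S, Submodule k (H1loc A q.1)) : Submodule k (H1locAll S A) where
  carrier := {y | ∀ q : S, y q ∈ L q}
  add_mem' := fun hy hy' q => (L q).add_mem (hy q) (hy' q)
  zero_mem' := fun q => (L q).zero_mem
  smul_mem' := fun c _ hy q => (L q).smul_mem c (hy q)

lemma mem_piSub {L : ∀ q : S, Submodule k (H1loc A q.1)} {y : H1locAll S A} :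
    y ∈ piSub S A L ↔ ∀ q : S, y q ∈ L q := Iff.rfl

/-- the Selmer group `{x ∈ H¹(G_S, A) | loc_q x ∈ L_q ∀ q ∈ S}` -/
def selmer (L : ∀ q : S, Submodule k (H1loc A q.1)) : Submodule k (H1S S A) :=
  (piSub S A L).comap (locAll1 S A)

lemma mem_selmer {L : ∀ q : S, Submodule k (H1loc A q.1)} {x : H1S S A} :
    x ∈ selmer S A L ↔ ∀ q : S, loc1 S A q.1 x ∈ L q := Iff.rfl

/-- the inclusion of a factor -/
def single1 (q : S) : H1loc A q.1 →+ H1locAll S A :=
  @AddMonoidHom.single S (fun q : S => H1loc A q.1) _ (fun _ => inferInstance) q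

lemma single1_same (q : S) (y : H1loc A q.1) : single1 S A q y q = y := by
  classical
  exact @Pi.single_eq_same S (fun q : S => H1loc A q.1) _ (fun _ => inferInstance) q y

lemma single1_ne (q q' : S) (h : q' ≠ q) (y : H1loc A q.1) : single1 S A q y q' = 0 := by
  classical
  exact @Pi.single_eq_of_ne S (fun q : S => H1loc A q.1) _ (fun _ => inferInstance) q q' h y

lemma card_piSub (L : ∀ q : S, Submodule k (H1loc A q.1)) :
    Nat.card (piSub S A L) = ∏ q : S, Nat.card (L q) := by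
  rw [← Nat.card_pi]
  apply Nat.card_congr
  exact
    { toFun := fun y q => ⟨y.1 q, y.2 q⟩
      invFun := fun y => ⟨fun q => (y q).1, fun q => (y q).2⟩
      left_inv := fun y => rfl
      right_inv := fun y => rfl }

lemma card_H1locAll : Nat.card (H1locAll S A) = ∏ q : S, Nat.card (H1loc A q.1) :=
  Nat.card_pi

lemma card_H2locAll : Nat.card (H2locAll S A) = ∏ q : S, Nat.card (H2loc A q.1) :=
  Nat.card_pi

end Selmer

section PerpPi

variable {p : ℕ} [hp : Fact p.Prime] (S : Finset Nat.Primes) (A B : Rep.{0} (ZMod p) GQ)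

/-- the orthogonal of a product of local conditions for a sum of local pairings -/
lemma perp_piSub (π : H1locAll S A →ₗ[ZMod p] H1locAll S B →ₗ[ZMod p] ZMod p)
    (πc : ∀ q : S, H1loc A q.1 →ₗ[ZMod p] H1loc B q.1 →ₗ[ZMod p] ZMod p)
    (hπ : ∀ y x, π y x = ∑ q : S, πc q (y q) (x q))
    (L : ∀ q : S, Submodule (ZMod p) (H1loc A q.1)) :
    GW.perp π (piSub S A L) = piSub S B (fun q => GW.perp (πc q) (L q)) := by
  classical
  ext x'
  rw [GW.mem_perp, mem_piSub]
  constructor
  · intro h q yq hyq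
    have h1 := h (single1 S A q yq) (by
      intro w
      by_cases hw : w = q
      · subst hw
        rw [single1_same]
        exact hyq
      · rw [single1_ne S A q w hw]
        exact (L w).zero_mem)
    rw [hπ, Finset.sum_eq_single q] at h1
    · rwa [single1_same] at h1
    · intro w _ hw
      rw [single1_ne S A q w hw, map_zero, LinearMap.zero_apply]
    · intro hq
      exact absurd (Finset.mem_univ q) hq
  · intro h y hy
    rw [hπ]
    apply Finset.sum_eq_zero
    intro q _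
    exact h q (y q) (hy q)

/-- a pairing inducing a surjection onto the dual is right-nondegenerate -/
lemma perp_top_of_surjective {P P' : Type*} [AddCommGroup P] [Module (ZMod p) P]
    [AddCommGroup P'] [Module (ZMod p) P'] (π : P →ₗ[ZMod p] P' →ₗ[ZMod p] ZMod p)
    (hπ : Function.Surjective π) : GW.perp π ⊤ = ⊥ := by
  rw [eq_bot_iff]
  intro x' hx'
  rw [Submodule.mem_bot]
  by_contra hne
  obtain ⟨f, hf⟩ : ∃ f : Module.Dual (ZMod p) P', f x' ≠ 0 := by
    by_contra hcon
    push Not at hcon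
    exact hne ((Module.forall_dual_apply_eq_zero_iff (ZMod p) x').1 hcon)
  obtain ⟨y, rfl⟩ := hπ f
  exact hf (hx' y Submodule.mem_top)

end PerpPi

section CountSec

variable {p : ℕ} [hp : Fact p.Prime] (hp2 : p ≠ 2) (S : Finset Nat.Primes)
  (hpS : (⟨p, hp.out⟩ : Nat.Primes) ∈ S)
  (M : Rep.{0} (ZMod p) GQ) [FiniteDimensional (ZMod p) M]
  (hM : Sm.IsSmooth (MonoidHom.id GQ) (LevelClass.unr S) M)

lemma finiteDimensional_dualTwist {G : Type} [Group G] (A : Rep.{0} (ZMod p) G)
    [FiniteDimensional (ZMod p) A] (χ : G →* (ZMod p)ˣ) :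
    FiniteDimensional (ZMod p) (A.dualTwist χ) :=
  show FiniteDimensional (ZMod p) (Module.Dual (ZMod p) A) from inferInstance

lemma finiteDimensional_D0 : FiniteDimensional (ZMod p) (PT9.D0 M) := by
  have := finiteDimensional_dualTwist M (cycloChar p)
  exact FiniteDimensional.finiteDimensional_submodule _

include hp2 hpS hM in
/-- **The Greenberg–Wiles count for `G_S`** (before the Euler characteristic formulas): there are local
pairings `π_q : H¹(G_q, M) × H¹(G_q, M′) → 𝔽_p`, right-nondegenerate, such that for ALL local conditions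
`(L_q)_{q ∈ S}`, with `Sel_L = {x ∈ H¹(G_S,M) | loc_q x ∈ L_q}` and
`Sel_{L^⊥} = {x ∈ H¹(G_S,M′) | loc_q x ∈ L_q^⊥}`:
`|Sel_L|·|H²(G_S,M)|·|H⁰(G_ℚ,M′)|·∏_q |H¹(G_q,M)| = |Sel_{L^⊥}|·|H¹(G_S,M)|·∏_q |H²(G_q,M)|·∏_q |L_q|`. -/
theorem exists_pairings_card [FiniteDimensional (ZMod p) (H1S S M)]
    [FiniteDimensional (ZMod p) (H2S S M)]
    [FiniteDimensional (ZMod p) (H1S S (M.dualTwist (cycloChar p)))]
    [hP1 : ∀ q : S, FiniteDimensional (ZMod p) (H1loc M q.1)]
    [hP2 : ∀ q : S, FiniteDimensional (ZMod p) (H2loc M q.1)] :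
    ∃ πc : ∀ q : S, H1loc M q.1 →ₗ[ZMod p]
        H1loc (M.dualTwist (cycloChar p)) q.1 →ₗ[ZMod p] ZMod p,
      (∀ q, Function.Surjective (πc q)) ∧ (∀ q, GW.perp (πc q) ⊤ = ⊥) ∧
      ∀ L : ∀ q : S, Submodule (ZMod p) (H1loc M q.1),
        Nat.card (selmer S M L) * Nat.card (H2S S M) * Nat.card (PT9.D0 M)
            * ∏ q : S, Nat.card (H1loc M q.1)
          = Nat.card (selmer S (M.dualTwist (cycloChar p)) (fun q => GW.perp (πc q) (L q)))
            * Nat.card (H1S S M) * (∏ q : S, Nat.card (H2loc M q.1)) * ∏ q : S, Nat.card (L q) := by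
  obtain ⟨X, iX, mX, a, α, δ, b, π, πc, hs, hπ, T⟩ := exists_tail hp2 S hpS M hM
  refine ⟨πc, hs, fun q => perp_top_of_surjective (πc q) (hs q), fun L => ?_⟩
  have f1 : FiniteDimensional (ZMod p) (H1locAll S M) :=
    @Module.Finite.pi (ZMod p) _ S (fun q => H1loc M q.1) _ (fun _ => inferInstance)
      (fun _ => inferInstance) hP1
  have f2 : FiniteDimensional (ZMod p) (H2locAll S M) :=
    @Module.Finite.pi (ZMod p) _ S (fun q => H2loc M q.1) _ (fun _ => inferInstance)
      (fun _ => inferInstance) hP2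
  have f3 : FiniteDimensional (ZMod p) X :=
    Module.Finite.of_injective α T.bij_α.1
  have f4 : FiniteDimensional (ZMod p) (PT9.D0 M) := finiteDimensional_D0 M
  have h := T.card_eq (piSub S M L)
  rw [perp_piSub S M (M.dualTwist (cycloChar p)) π πc hπ L, card_piSub, card_H1locAll,
    card_H2locAll] at h
  exact h

end CountSec

end Fermat.Agent.S56lib.PT9a
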