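/-
S56 marathon, helper7.  **(Tri)**: a representation `r : G → M₂(k)` with a stable line is conjugate to an
upper triangular one, with diagonal characters `χ₁, χ₂ : G →* kˣ` (for helper3's Flat/ chain).
-/
import Mathlib

set_option autoImplicit false
set_option linter.unusedSectionVars false

namespace Fermat.Agent.S56lib.PT9a

open Matrix

variable {G : Type*} [Group G] {k : Type*} [Field k]

/-- conjugation of a matrix representation by an invertible matrix -/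
def conjHom (r : G →* Matrix (Fin 2) (Fin 2) k) (P Q : Matrix (Fin 2) (Fin 2) k) (hPQ : Q * P = 1) :
    G →* Matrix (Fin 2) (Fin 2) k where
  toFun g := P * r g * Q
  map_one' := by
    rw [map_one, Matrix.mul_one]
    exact mul_eq_one_comm.1 hPQ
  map_mul' g h := by
    rw [map_mul]
    calc P * (r g * r h) * Q = P * r g * (1 : Matrix (Fin 2) (Fin 2) k) * r h * Q := by
          rw [Matrix.mul_one]; simp only [Matrix.mul_assoc]
      _ = P * r g * Q * (P * r h * Q) := by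
          rw [← hPQ]; simp only [Matrix.mul_assoc]

@[simp] theorem conjHom_apply (r : G →* Matrix (Fin 2) (Fin 2) k) (P Q : Matrix (Fin 2) (Fin 2) k)
    (hPQ : Q * P = 1) (g : G) : conjHom r P Q hPQ g = P * r g * Q := rfl

/-- the diagonal entries of an upper triangular representation are characters -/
theorem upper_mul {A B : Matrix (Fin 2) (Fin 2) k} (hA : A 1 0 = 0) (hB : B 1 0 = 0) :
    (A * B) 1 0 = 0 ∧ (A * B) 0 0 = A 0 0 * B 0 0 ∧ (A * B) 1 1 = A 1 1 * B 1 1 := by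
  simp only [Matrix.mul_apply, Fin.sum_univ_two, hA, hB]
  refine ⟨by ring, by ring, by ring⟩

/-- **(Tri)** -/
theorem exists_triangular (r : G →* Matrix (Fin 2) (Fin 2) k) (v : Fin 2 → k) (hv : v ≠ 0)
    (hst : ∀ g, ∃ c : k, r g *ᵥ v = c • v) :
    ∃ (P : Matrix (Fin 2) (Fin 2) k) (χ₁ χ₂ : G →* kˣ), IsUnit P ∧
      (∀ g, (P * r g * P⁻¹) 1 0 = 0) ∧ (∀ g, (P * r g * P⁻¹) 0 0 = χ₁ g) ∧
      (∀ g, (P * r g * P⁻¹) 1 1 = χ₂ g) ∧ ∀ g, (r g).det = (χ₁ g : k) * χ₂ g := by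
  classical
  obtain ⟨w, hw⟩ : ∃ w : Fin 2 → k, v 0 * w 1 - v 1 * w 0 ≠ 0 := by
    by_cases h0 : v 0 = 0
    · have h1 : v 1 ≠ 0 := by
        intro h1
        apply hv
        funext i
        fin_cases i
        · exact h0
        · exact h1
      exact ⟨![1, 0], by simp [h0, h1]⟩
    · exact ⟨![0, 1], by simp [h0]⟩
  set Q : Matrix (Fin 2) (Fin 2) k := !![v 0, w 0; v 1, w 1] with hQ
  have hdetQ : Q.det = v 0 * w 1 - v 1 * w 0 := by
    rw [hQ, Matrix.det_fin_two_of]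
    ring
  have hQu : IsUnit Q.det := isUnit_iff_ne_zero.2 (by rw [hdetQ]; exact hw)
  have hQQ : Q⁻¹ * Q = 1 := Matrix.nonsing_inv_mul Q hQu
  have hQQ' : Q * Q⁻¹ = 1 := Matrix.mul_nonsing_inv Q hQu
  have hPinv : (Q⁻¹)⁻¹ = Q := Matrix.nonsing_inv_nonsing_inv Q hQu
  have hPu : IsUnit Q⁻¹ := IsUnit.of_mul_eq_one Q hQQ
  have hQe : Q *ᵥ ![1, 0] = v := by
    funext i
    fin_cases i <;> simp [hQ, Matrix.mulVec, dotProduct, Fin.sum_univ_two]
  let r' : G →* Matrix (Fin 2) (Fin 2) k := conjHom r Q⁻¹ Q hQQ'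
  have hr' : ∀ g, r' g = Q⁻¹ * r g * Q := fun g => rfl
  have hcol : ∀ g, ∃ c : k, (r' g) *ᵥ ![1, 0] = c • ![1, 0] := by
    intro g
    obtain ⟨c, hc⟩ := hst g
    refine ⟨c, ?_⟩
    rw [hr', ← Matrix.mulVec_mulVec, hQe, ← Matrix.mulVec_mulVec, hc, Matrix.mulVec_smul, ← hQe,
      Matrix.mulVec_mulVec, hQQ, Matrix.one_mulVec]
  have h10 : ∀ g, (r' g) 1 0 = 0 := by
    intro g
    obtain ⟨c, hc⟩ := hcol g
    have := congrFun hc 1
    simpa [Matrix.mulVec, dotProduct, Fin.sum_univ_two] using this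
  -- the diagonal characters
  let d₁ : G →* k :=
    { toFun := fun g => (r' g) 0 0
      map_one' := by rw [map_one]; rfl
      map_mul' := fun g h => by rw [map_mul]; exact (upper_mul (h10 g) (h10 h)).2.1 }
  let d₂ : G →* k :=
    { toFun := fun g => (r' g) 1 1
      map_one' := by rw [map_one]; rfl
      map_mul' := fun g h => by rw [map_mul]; exact (upper_mul (h10 g) (h10 h)).2.2 }
  refine ⟨Q⁻¹, d₁.toHomUnits, d₂.toHomUnits, hPu, ?_, ?_, ?_, ?_⟩
  · intro g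
    rw [hPinv]
    exact h10 g
  · intro g
    rw [hPinv, MonoidHom.coe_toHomUnits]
    rfl
  · intro g
    rw [hPinv, MonoidHom.coe_toHomUnits]
    rfl
  · intro g
    rw [MonoidHom.coe_toHomUnits, MonoidHom.coe_toHomUnits]
    show (r g).det = (r' g) 0 0 * (r' g) 1 1
    have h1 : (r' g).det = (r g).det := by
      rw [hr', Matrix.det_mul, Matrix.det_mul, mul_right_comm, ← Matrix.det_mul, hQQ,
        Matrix.det_one, one_mul]
    rw [← h1, Matrix.det_fin_two, h10 g, mul_zero, sub_zero]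

/-- the same with the conjugated representation as a `MonoidHom` -/
theorem exists_triangular' (r : G →* Matrix (Fin 2) (Fin 2) k) (v : Fin 2 → k) (hv : v ≠ 0)
    (hst : ∀ g, ∃ c : k, r g *ᵥ v = c • v) :
    ∃ (P : Matrix (Fin 2) (Fin 2) k) (r' : G →* Matrix (Fin 2) (Fin 2) k) (χ₁ χ₂ : G →* kˣ),
      IsUnit P ∧ (∀ g, r' g = P * r g * P⁻¹) ∧
      (∀ g, (r' g) 1 0 = 0) ∧ (∀ g, (r' g) 0 0 = χ₁ g) ∧
      (∀ g, (r' g) 1 1 = χ₂ g) ∧ ∀ g, (r g).det = (χ₁ g : k) * χ₂ g := by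
  obtain ⟨P, χ₁, χ₂, hP, h10, h00, h11, hdet⟩ := exists_triangular r v hv hst
  have hPP : P⁻¹ * P = 1 := Matrix.nonsing_inv_mul P ((Matrix.isUnit_iff_isUnit_det P).1 hP)
  exact ⟨P, conjHom r P P⁻¹ hPP, χ₁, χ₂, hP, fun g => rfl, h10, h00, h11, hdet⟩

end Fermat.Agent.S56lib.PT9a
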