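/-
S56 marathon, helper7.  **WP2, case `q ≠ p`** (= `EulerSpec.LocalUnits p q` for `q ≠ p`):
for `π : G_q ↠ Γ` with open kernel `U`, `X = (Yloc q)^U = L_w^×` as a `ℤ[Γ]`-module has `X[p]`, `X/p` finite and
`δ_ψ(X) = −ψ(𝔽_p)` for every additive invariant `ψ`.

* `princSub_pdiv`, `princSub_torsionFree` : `U^(1)` is uniquely `p`-divisible (`q ≠ p`);
* `localUnits_ne` : the statement, in the literal shape of `EulerSpec.LocalUnits`.
-/
import Mathlib
import Fermat.Agent.S56lib.PT9a.LocUnitsMod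

set_option autoImplicit false

noncomputable section

namespace Fermat.Agent.S56lib.PT9a

open Fermat.Agent.S55lib Fermat.Agent.S56lib.Euler Function

variable {q : Nat.Primes} {Γ : Type} [Group Γ] {π : Gloc q →* Γ} {hπ : Surjective π}
  (p : ℕ) [Fact p.Prime]

include p in
/-- `U^(1)` is `p`-divisible (any `q`) provided roots are unique, i.e. for `q ≠ p` -/
theorem princSub_pdiv (hqp : (q : ℕ) ≠ p) (a : princSub π hπ) :
    ∃ b : princSub π hπ, p • b = a := by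
  obtain ⟨x, hx⟩ := a
  have hx' : ‖uval π hπ x - 1‖ < 1 := hx
  obtain ⟨y, hy, hy1⟩ := exists_root_near_one (p := p) hx'
  have hyn : ‖y‖ = 1 := norm_le_one_of_sub_one_lt hy1
  have hy0 : y ≠ 0 := by
    intro h0
    rw [h0, norm_zero] at hyn
    exact zero_ne_one hyn
  have hyL : y ∈ fixL q π.ker := by
    rw [mem_fixL]
    intro u hu
    apply root_near_one_unique hqp _ _ hy1
    · rw [← map_pow, hy]
      exact uval_fixed x u hu
    · have h := norm_aut (glocEquiv q u) (y - 1)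
      rw [map_sub, map_one] at h
      rw [h]
      exact hy1
  refine ⟨⟨mkX π hπ y hy0 hyL, ?_⟩, ?_⟩
  · show ‖uval π hπ (mkX π hπ y hy0 hyL) - 1‖ < 1
    rw [uval_mkX]
    exact hy1
  · apply Subtype.ext
    apply uval_ext
    show uval π hπ (p • mkX π hπ y hy0 hyL) = uval π hπ x
    rw [uval_nsmul, uval_mkX, hy]

include p in
/-- `U^(1)` has no `p`-torsion for `q ≠ p` -/
theorem princSub_torsionFree (hqp : (q : ℕ) ≠ p) (a : princSub π hπ) (ha : p • a = 0) :
    a = 0 := by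
  obtain ⟨x, hx⟩ := a
  have hx' : ‖uval π hπ x - 1‖ < 1 := hx
  have h1 : uval π hπ (p • x) = 1 := by
    have := congrArg (fun b : princSub π hπ => uval π hπ (b : InvMod π hπ (Yloc q))) ha
    simpa using this
  rw [uval_nsmul] at h1
  have h2 := eq_one_of_pow_eq_one hqp h1 hx'
  apply Subtype.ext
  apply uval_ext
  show uval π hπ x = uval π hπ 0
  rw [h2, uval_zero]

/-- **WP2 for `q ≠ p`**: `δ_ψ(L_w^×) = −ψ(𝔽_p)`. -/
theorem delta_localUnits_ne [Finite Γ] (hqp : (q : ℕ) ≠ p) (hopen : (basisLoc q).IsOpen π.ker) :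
    PGood (ZG Γ) p (InvMod π hπ (Yloc q)) ∧
    ∀ ψ : AddInvariant (ZG Γ) p,
      delta (ZG Γ) p (InvMod π hπ (Yloc q)) ψ =
        - ψ.val (PermMod Γ (ZMod p) (Γ ⧸ (⊤ : Subgroup Γ))) := by
  have : PGood (ZG Γ) p (princSub π hπ) :=
    pGood_of_uniquely_divisible _ (princSub_pdiv p hqp) (princSub_torsionFree p hqp)
  obtain ⟨h1, h2⟩ := delta_invMod (hπ := hπ) p hopen
  refine ⟨h1, fun ψ => ?_⟩
  rw [h2 ψ, delta_eq_zero_of_uniquely_divisible _ ψ (princSub_pdiv p hqp)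
    (princSub_torsionFree p hqp), zero_sub]

/-- **WP2 for `q ≠ p`, in the literal shape of `EulerSpec.LocalUnits p q`.** -/
theorem localUnits_ne (q : Nat.Primes) (hqp : (q : ℕ) ≠ p) :
    ∀ (Γ : Type) [Group Γ] [Finite Γ] (π : Gloc q →* Γ) (hπ : Surjective π),
      (basisLoc q).IsOpen π.ker →
      PGood (ZG Γ) p (InvMod π hπ (Yloc q)) ∧
      ∀ ψ : AddInvariant (ZG Γ) p,
        delta (ZG Γ) p (InvMod π hπ (Yloc q)) ψ =
          - ψ.val (PermMod Γ (ZMod p) (Γ ⧸ (⊤ : Subgroup Γ)))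
            - (if (q : ℕ) = p then ψ.val (PermMod Γ (ZMod p) (Γ ⧸ (⊥ : Subgroup Γ))) else 0) := by
  intro Γ _ _ π hπ hopen
  obtain ⟨h1, h2⟩ := delta_localUnits_ne (hπ := hπ) p hqp hopen
  refine ⟨h1, fun ψ => ?_⟩
  rw [h2 ψ, if_neg hqp, sub_zero]

end Fermat.Agent.S56lib.PT9a
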