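/-
S56 marathon, helper7.  **Bridge, part A**: the hypotheses of S56 on `ρ̄` in the language of helper2's
finite-group theory (`TW.TWHyp`).

For a based residual representation (`rb g = ` matrix of `ρ̄(g)` in the basis `b`):
* `glHom rb : G_ℚ →* GL₂(K)`;
* `exists_fixed_of_split` : a split characteristic polynomial gives a fixed point on `ℙ¹(K)`;
* `exists_moved_of_irr` : irreducibility of a base change of `ρ̄` restricted to a subgroup `H` moves every
  point of `ℙ¹(K)` by an element of `H`;
* `twHyp_of_s56` : `TWHyp (glHom rb)` from `habs`, `hsplit`, `hTW` of S56;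
* `det_eq_cycloChar` : `det ρ̄ = χ̄_p` from `DetIsCyclotomic`;
* `ne_of_regular` : `tr² ≠ 4 det` + split ⇒ the two roots are distinct.
-/
import Mathlib
import Fermat.Prelude.Def_GaloisRep_LocalConditions
import Fermat.Prelude.Def_ExtCitation_KummerBridge
import Fermat.Agent.S55lib.Iface.Smooth
import Fermat.Agent.S56lib.TW.StableLine

set_option autoImplicit false
set_option linter.unusedSectionVars false

noncomputable section

namespace Fermat.Agent.S56lib.PT9a

open Fermat.Agent.S55lib Fermat.Agent.S56lib.TW Polynomial Projectivization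
open scoped TensorProduct Matrix

attribute [local instance] ZMod.algebra

section

variable {K : Type} [Field K]

/-- the matrices of `ρ̄` as a homomorphism to `GL₂(K)` -/
def glHom (rb : GQ →* Matrix (Fin 2) (Fin 2) K) : GQ →* GL (Fin 2) K := rb.toHomUnits

@[simp] theorem glHom_val (rb : GQ →* Matrix (Fin 2) (Fin 2) K) (g : GQ) :
    (glHom rb g).1 = rb g := MonoidHom.coe_toHomUnits rb g

theorem glHom_inv_val (rb : GQ →* Matrix (Fin 2) (Fin 2) K) (g : GQ) :
    ((glHom rb g)⁻¹).1 = rb g⁻¹ := by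
  rw [← map_inv, glHom_val]

variable (ρbar : ResidualGaloisRep K) (b : Module.Basis (Fin 2) K ρbar.V)
  (rb : GQ →* Matrix (Fin 2) (Fin 2) K) (hrb : ∀ g, rb g = LinearMap.toMatrix b b (ρbar.ρ g))

include hrb

/-- a split characteristic polynomial gives a fixed point on the projective line -/
theorem exists_fixed_of_split (g : GQ)
    (h : ∃ α β : K, LinearMap.charpoly (ρbar.ρ g) = (X - C α) * (X - C β)) :
    ∃ x : P1 K, glHom rb g • x = x := by
  classical
  obtain ⟨α, β, hαβ⟩ := h
  have hch : (rb g).charpoly = (X - C α) * (X - C β) := by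
    rw [hrb, LinearMap.charpoly_toMatrix]; exact hαβ
  have hdet : (Matrix.scalar (Fin 2) α - rb g).det = 0 := by
    rw [← Matrix.eval_charpoly, hch]; simp
  obtain ⟨v, hv0, hv⟩ := Matrix.exists_mulVec_eq_zero_iff.2 hdet
  have hv' : rb g *ᵥ v = α • v := by
    rw [Matrix.sub_mulVec, sub_eq_zero] at hv
    rw [← hv]
    funext i
    simp [Matrix.mulVec, dotProduct, Matrix.scalar_apply, Matrix.diagonal_apply]
  refine ⟨Projectivization.mk K v hv0, ?_⟩
  rw [smul_mk_eq, mk_eq_mk_iff']
  exact ⟨α, by rw [glHom_val, hv']⟩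

/-- the matrix of `ρ̄(g)` acts on coordinates -/
theorem equivFun_rho (g : GQ) (w : ρbar.V) :
    b.equivFun (ρbar.ρ g w) = rb g *ᵥ b.equivFun w := by
  rw [hrb]
  exact (LinearMap.toMatrix_mulVec_repr b b (ρbar.ρ g) w).symm

/-- irreducibility of a base change of `ρ̄` restricted to `H` moves every point of `ℙ¹(K)` -/
theorem exists_moved_of_irr (K' : Type) [Field K'] [Algebra K K'] (H : Subgroup GQ)
    (hirr : ∀ V : Submodule K' (ρbar.baseChange K').V,
      (∀ σ ∈ H, ∀ x ∈ V, (ρbar.baseChange K').ρ σ x ∈ V) → V = ⊥ ∨ V = ⊤)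
    (x : P1 K) : ∃ g ∈ H, glHom rb g • x ≠ x := by
  classical
  by_contra hcon
  push Not at hcon
  induction x using Projectivization.ind with
  | h v hv =>
  set w : ρbar.V := b.equivFun.symm v with hw
  have hwv : b.equivFun w = v := by rw [hw, LinearEquiv.apply_symm_apply]
  have hw0 : w ≠ 0 := by
    intro h0
    apply hv
    rw [← hwv, h0, map_zero]
  have hst : ∀ g ∈ H, ∃ a : K, ρbar.ρ g w = a • w := by
    intro g hg
    have h1 := hcon g hg
    rw [smul_mk_eq, mk_eq_mk_iff'] at h1
    obtain ⟨a, ha⟩ := h1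
    refine ⟨a, ?_⟩
    apply b.equivFun.injective
    rw [equivFun_rho ρbar b rb hrb, map_smul, hwv, ha, glHom_val]
  set t : (ρbar.baseChange K').V := (1 : K') ⊗ₜ[K] w with ht
  have ht0 : t ≠ 0 := by
    intro h0
    apply hw0
    have h1 := Algebra.TensorProduct.basis_repr_tmul (A := K') b (1 : K') w
    rw [← ht, h0, map_zero, one_smul] at h1
    apply b.repr.injective
    rw [map_zero]
    ext i
    have h2 := DFunLike.congr_fun h1 i
    rw [Finsupp.mapRange_apply, Finsupp.zero_apply] at h2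
    rw [Finsupp.zero_apply]
    exact (map_eq_zero_iff _ (algebraMap K K').injective).1 h2.symm
  have hstab : ∀ σ ∈ H, ∀ x ∈ (K' ∙ t), (ρbar.baseChange K').ρ σ x ∈ (K' ∙ t) := by
    intro σ hσ x hx
    obtain ⟨c, rfl⟩ := Submodule.mem_span_singleton.1 hx
    obtain ⟨a, ha⟩ := hst σ hσ
    rw [map_smul]
    apply Submodule.smul_mem
    have : (ρbar.baseChange K').ρ σ t = (algebraMap K K' a) • t := by
      show (ρbar.ρ σ).baseChange K' ((1 : K') ⊗ₜ[K] w) = _
      rw [LinearMap.baseChange_tmul, ha, ht, TensorProduct.tmul_smul, algebraMap_smul]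
    rw [this]
    exact Submodule.smul_mem _ _ (Submodule.mem_span_singleton_self t)
  rcases hirr (K' ∙ t) hstab with h | h
  · exact ht0 ((Submodule.span_singleton_eq_bot).1 h)
  · have h1 := finrank_span_singleton (K := K') ht0
    rw [h, finrank_top, (ρbar.baseChange K').finrank_eq] at h1
    omega

/-- **the Taylor–Wiles hypotheses of S56 in `TWHyp` form** -/
theorem twHyp_of_s56 (habs : ρbar.IsAbsolutelyIrreducible)
    (hsplit : ∀ σ : GQ, ∃ α β : K, LinearMap.charpoly (ρbar.ρ σ) = (X - C α) * (X - C β))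
    (hTW : ∀ (K' : Type) [Field K'] [Algebra K K'] (G : Subgroup GQ), G.index = 2 →
      ∀ V : Submodule K' (ρbar.baseChange K').V,
        (∀ σ ∈ G, ∀ x ∈ V, (ρbar.baseChange K').ρ σ x ∈ V) → V = ⊥ ∨ V = ⊤) :
    TWHyp (glHom rb) where
  split g := exists_fixed_of_split ρbar b rb hrb g (hsplit g)
  irr x := by
    obtain ⟨g, -, hg⟩ := exists_moved_of_irr ρbar b rb hrb (AlgebraicClosure K) ⊤
      (fun V hV => habs V fun σ => hV σ (Subgroup.mem_top σ)) x
    exact ⟨g, hg⟩
  irr2 H hH x := exists_moved_of_irr ρbar b rb hrb K H (hTW K H hH) x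

/-- `tr² ≠ 4 det` and a split characteristic polynomial: the two roots are distinct -/
theorem ne_of_regular (g : GQ) (hreg : (rb g).trace ^ 2 ≠ 4 * (rb g).det)
    {α β : K} (hαβ : LinearMap.charpoly (ρbar.ρ g) = (X - C α) * (X - C β)) : α ≠ β := by
  classical
  have hch : (rb g).charpoly = (X - C α) * (X - C β) := by
    rw [hrb, LinearMap.charpoly_toMatrix]; exact hαβ
  have h2 := Matrix.charpoly_fin_two (rb g)
  rw [hch] at h2
  have e0 := congrArg (eval 0) h2
  have e1 := congrArg (eval 1) h2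
  simp only [eval_mul, eval_sub, eval_add, eval_pow, eval_X, eval_C] at e0 e1
  have hdt : (rb g).det = α * β := by linear_combination -e0
  have htr : (rb g).trace = α + β := by linear_combination e1 - e0
  intro hab
  apply hreg
  rw [htr, hdt, hab]
  ring

end

section Det

variable {K : Type} [Field K] (p : ℕ) [hp : Fact p.Prime] [CharP K p]
  (ρbar : ResidualGaloisRep K) (b : Module.Basis (Fin 2) K ρbar.V)
  (rb : GQ →* Matrix (Fin 2) (Fin 2) K) (hrb : ∀ g, rb g = LinearMap.toMatrix b b (ρbar.ρ g))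

include hrb

/-- `det ρ̄ = χ̄_p` -/
theorem det_eq_cycloChar (hdet : (GaloisRepAdic.ofResidualGaloisRep ρbar).DetIsCyclotomic p) (g : GQ) :
    (rb g).det = algebraMap (ZMod p) K (ExtCitation.cycloChar p g : ZMod p) := by
  have : NeZero p := ⟨hp.out.ne_zero⟩
  have h := hdet.2 1 g ((ExtCitation.cycloChar p g : (ZMod p)ˣ) : ZMod p).val (fun μ hμ => by
    rw [pow_one] at hμ
    have hμ0 : μ ≠ 0 := by
      rintro rfl
      rw [zero_pow hp.out.ne_zero] at hμ
      exact zero_ne_one hμ
    have hmem : Units.mk0 μ hμ0 ∈ rootsOfUnity p Qbar := by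
      rw [mem_rootsOfUnity]
      apply Units.ext
      rw [Units.val_pow_eq_pow_val, Units.val_mk0, hμ, Units.val_one]
    exact modularCyclotomicCharacter.spec Qbar (ExtCitation.card_rootsOfUnity_eq_self p)
      (g : Qbar ≃+* Qbar) hmem)
  have h0 : (((p ^ 1 : ℕ) : ℕ) : K) = 0 := by
    rw [pow_one]
    exact CharP.cast_eq_zero _ p
  rw [h0, Ideal.span_singleton_eq_bot.mpr rfl, Ideal.mem_bot, sub_eq_zero] at h
  have h1 : LinearMap.det (ρbar.ρ g) =
      ((((ExtCitation.cycloChar p g : (ZMod p)ˣ) : ZMod p).val : ℕ) : K) := h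
  rw [hrb, LinearMap.det_toMatrix, h1, ← map_natCast (algebraMap (ZMod p) K), ZMod.natCast_zmod_val]

end Det

end Fermat.Agent.S56lib.PT9a
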