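/-
S56 marathon, helper7.  WP3a (group-action part): permutation modules of a finite `Γ`-set decompose
along orbits.

* `PermMod.congr` : an equivariant bijection `X ≃ Y` induces `A[X] ≃ₗ[ℤ[Γ]] A[Y]`;
* `val_permMod_orbits` : for a finite `Γ`-set `Y` with orbit representatives `y : ι → Y`,
  `ψ(𝔽_p[Y]) = Σ_i ψ(𝔽_p[Γ ⧸ Stab(y i)])`;
* `val_permMod_orbits'` : the same with the stabilisers given as subgroups `D i`.
-/
import Mathlib
import Fermat.Agent.S56lib.Euler.PermSum

set_option autoImplicit false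

namespace Fermat.Agent.S56lib.PT9a

open Function Fermat.Agent.S56lib.Euler

section Congr

variable {Γ : Type} [Group Γ] {X Y : Type} [MulAction Γ X] [MulAction Γ Y] (A : Type)
  [AddCommGroup A]

/-- an equivariant bijection of `Γ`-sets induces an isomorphism of permutation modules -/
noncomputable def PermMod.congr (e : X ≃ Y) (he : ∀ (g : Γ) (x : X), e (g • x) = g • e x) :
    PermMod Γ A X ≃ₗ[ZG Γ] PermMod Γ A Y :=
  equivOfComm
    ((PermMod.fn (Γ := Γ) (A := A) (X := X)).trans
      (({ toFun := fun u y => u (e.symm y)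
          invFun := fun u x => u (e x)
          left_inv := fun u => by
            funext x
            simp
          right_inv := fun u => by
            funext y
            simp
          map_add' := fun _ _ => rfl } : (X → A) ≃+ (Y → A)).trans
        (PermMod.fn (Γ := Γ) (A := A) (X := Y)).symm))
    (fun g u => by
      apply PermMod.ext
      intro y
      have hsymm : e.symm (g⁻¹ • y) = g⁻¹ • e.symm y := by
        apply e.injective
        rw [he, Equiv.apply_symm_apply, Equiv.apply_symm_apply]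
      simp [hsymm])

end Congr

section Orbits

variable {Γ : Type} [Group Γ] {Y : Type} [MulAction Γ Y] [Finite Y]
  {ι : Type} [Fintype ι] [DecidableEq ι] {p : ℕ} [Fact p.Prime] (ψ : AddInvariant (ZG Γ) p)

/-- the orbit map `Σ i, Γ ⧸ Stab(y i) → Y` -/
noncomputable def orbitSigmaEquiv (y : ι → Y) (hsurj : ∀ w : Y, ∃ i, ∃ γ : Γ, γ • y i = w)
    (hinj : ∀ (i j : ι) (γ : Γ), γ • y i = y j → i = j) :
    (Σ i, Γ ⧸ MulAction.stabilizer Γ (y i)) ≃ Y :=
  Equiv.ofBijective (fun x => MulAction.ofQuotientStabilizer Γ (y x.1) x.2) (by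
    constructor
    · rintro ⟨i, a⟩ ⟨j, b⟩ hab
      obtain ⟨g, rfl⟩ := QuotientGroup.mk_surjective a
      obtain ⟨h, rfl⟩ := QuotientGroup.mk_surjective b
      simp only [MulAction.ofQuotientStabilizer_mk] at hab
      have hij : i = j := by
        apply hinj i j (h⁻¹ * g)
        rw [mul_smul, hab, inv_smul_smul]
      subst hij
      have : (QuotientGroup.mk g : Γ ⧸ MulAction.stabilizer Γ (y i)) = QuotientGroup.mk h := by
        apply MulAction.injective_ofQuotientStabilizer Γ (y i)
        rw [MulAction.ofQuotientStabilizer_mk, MulAction.ofQuotientStabilizer_mk, hab]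
      rw [this]
    · intro w
      obtain ⟨i, γ, rfl⟩ := hsurj w
      exact ⟨⟨i, QuotientGroup.mk γ⟩, MulAction.ofQuotientStabilizer_mk Γ (y i) γ⟩)

/-- **orbit decomposition of permutation modules** -/
theorem val_permMod_orbits (y : ι → Y) (hsurj : ∀ w : Y, ∃ i, ∃ γ : Γ, γ • y i = w)
    (hinj : ∀ (i j : ι) (γ : Γ), γ • y i = y j → i = j) :
    ψ.val (PermMod Γ (ZMod p) Y) =
      ∑ i, ψ.val (PermMod Γ (ZMod p) (Γ ⧸ MulAction.stabilizer Γ (y i))) := by
  have hfin : ∀ i, Finite (Γ ⧸ MulAction.stabilizer Γ (y i)) := fun i =>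
    Finite.of_injective _ (MulAction.injective_ofQuotientStabilizer Γ (y i))
  rw [← val_permMod_sigma (fun i => Γ ⧸ MulAction.stabilizer Γ (y i)) ψ]
  have : Finite (Σ i, Γ ⧸ MulAction.stabilizer Γ (y i)) :=
    Finite.of_equiv _ (orbitSigmaEquiv y hsurj hinj).symm
  refine (ψ.iso _ _ (PermMod.congr (ZMod p) (orbitSigmaEquiv y hsurj hinj) ?_)).symm
  rintro g ⟨i, a⟩
  exact MulAction.ofQuotientStabilizer_smul Γ (y i) g a

/-- orbit decomposition with prescribed stabilisers -/
theorem val_permMod_orbits' (y : ι → Y) (hsurj : ∀ w : Y, ∃ i, ∃ γ : Γ, γ • y i = w)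
    (hinj : ∀ (i j : ι) (γ : Γ), γ • y i = y j → i = j) (D : ι → Subgroup Γ)
    (hD : ∀ i, MulAction.stabilizer Γ (y i) = D i) :
    ψ.val (PermMod Γ (ZMod p) Y) = ∑ i, ψ.val (PermMod Γ (ZMod p) (Γ ⧸ D i)) := by
  rw [val_permMod_orbits ψ y hsurj hinj]
  refine Finset.sum_congr rfl fun i _ => ?_
  rw [hD i]

end Orbits

end Fermat.Agent.S56lib.PT9a
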