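/-
S56 marathon, helper7.  WP3a (arithmetic part): for `L ⊂ ℚ̄` finite Galois over `ℚ`, the `Gal(L/ℚ)`-set of
primes of `L` above a rational prime `q` is the orbit of `w₀(q)` (the prime induced by `ℚ̄ → ℚ̄_q`), with
stabiliser the image of `G_q`; the infinite places form the orbit of `w_∞` (induced by `ℚ̄ → ℂ`) with
stabiliser `⟨c|_L⟩`.

* `resL L : GQ →* (L ≃ₐ[ℚ] L)`, `emb0 L q`, `w0 L q`, `wInf L`;
* `finAct_primeOf`, `exists_finAct_w0_eq`, `finAct_w0_eq_iff`;
* `exists_smul_wInf_eq`, `smul_wInf_eq_iff`.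
-/
import Mathlib
import Fermat.Agent.S55lib.FirstIneq.ClassGroupFI
import Fermat.Agent.S55lib.Places.Dict
import Fermat.Agent.S55lib.GlobDual.JSCoind
import Fermat.Agent.S56lib.EulerG.SUnitIsog

set_option autoImplicit false
set_option linter.unusedSectionVars false

noncomputable section

namespace Fermat.Agent.S56lib.PT9a

open NumberField IsDedekindDomain Function
open Fermat.Agent.S55lib Fermat.Agent.S55lib.Places Fermat.Agent.S55lib.FirstIneq
open Fermat.Agent.S56lib.EulerG

/-- finite subextensions of `ℚ̄` are number fields -/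
instance numberFieldFieldQ (L : FieldQ) [FiniteDimensional ℚ L] : NumberField L := ⟨⟩

variable (L : FieldQ) [FiniteDimensional ℚ L] [hN : Normal ℚ L]

/-- restriction `G_ℚ → Gal(L/ℚ)` -/
def resL : GQ →* (L ≃ₐ[ℚ] L) := AlgEquiv.restrictNormalHom L

theorem resL_apply (g : GQ) (x : L) : ((resL L g x : L) : Qbar) = g (x : Qbar) :=
  AlgEquiv.restrictNormal_commutes g L x

theorem resL_surjective : Surjective (resL L) :=
  AlgEquiv.restrictNormalHom_surjective (F := ℚ) (K₁ := L) Qbar

theorem resL_ker : (resL L).ker = L.fixingSubgroup :=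
  @IntermediateField.restrictNormalHom_ker ℚ Qbar _ _ _ L hN

theorem resL_eq_iff (g h : GQ) : resL L g = resL L h ↔ g⁻¹ * h ∈ L.fixingSubgroup := by
  rw [← resL_ker, MonoidHom.mem_ker, map_mul, map_inv, inv_mul_eq_one]

section Finite

variable (q : ℕ) [Fact q.Prime]

/-- the standard embedding `L ⊂ ℚ̄ → ℚ̄_q` -/
def emb0 : Emb q L := (padicEmbedding q).comp L.val

theorem emb0_apply (x : L) : emb0 L q x = padicEmbedding q (x : Qbar) := rfl

/-- the standard prime of `L` above `q` -/
def w0 : HeightOneSpectrum (𝓞 L) := primeOf (emb0 L q)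

theorem natCast_mem_w0 : ((q : ℕ) : 𝓞 L) ∈ (w0 L q).asIdeal := natCast_mem_primeOf _

variable {L q}

/-- the action of `Gal(L/ℚ)` on primes, in terms of embeddings -/
theorem finAct_primeOf (σ : L ≃ₐ[ℚ] L) (ι : Emb q L) :
    finAct σ (primeOf ι) = primeOf (ι.comp ((σ.symm : L ≃ₐ[ℚ] L) : L →ₐ[ℚ] L)) := by
  apply HeightOneSpectrum.ext
  rw [primeOf_comp_asIdeal]
  rfl

/-- local automorphisms act on the standard embedding through `G_q → G_ℚ → Gal(L/ℚ)` -/
theorem smul_emb0 (d : GalQq q) :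
    d • emb0 L q = (emb0 L q).comp ((resL L (localGaloisToGlobal q d) : L ≃ₐ[ℚ] L) : L →ₐ[ℚ] L) := by
  ext x
  show d (padicEmbedding q (x : Qbar)) = padicEmbedding q ((resL L (localGaloisToGlobal q d) x : L) : Qbar)
  rw [resL_apply, padicEmbedding_localGaloisToGlobal]

/-- every embedding of `L` is the standard one twisted by an automorphism (`L/ℚ` normal) -/
theorem exists_aut_emb (ι : Emb q L) :
    ∃ γ : L ≃ₐ[ℚ] L, ι = (emb0 L q).comp ((γ : L ≃ₐ[ℚ] L) : L →ₐ[ℚ] L) := by
  let algL : Algebra L (PadicAlgCl q) := (emb0 L q).toRingHom.toAlgebra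
  have : IsScalarTower ℚ L (PadicAlgCl q) := IsScalarTower.of_algebraMap_eq (fun r => by
    show algebraMap ℚ (PadicAlgCl q) r = emb0 L q (algebraMap ℚ L r)
    rw [AlgHom.commutes])
  refine ⟨Normal.algHomEquivAut ℚ (PadicAlgCl q) L ι, ?_⟩
  have hleft := (Normal.algHomEquivAut ℚ (PadicAlgCl q) L).left_inv ι
  ext x
  have := congrArg (fun g => g x) hleft
  exact this.symm

variable (L q)

/-- **transitivity**: every prime above `q` is conjugate to `w₀(q)` -/
theorem exists_finAct_w0_eq (w : HeightOneSpectrum (𝓞 L)) (hw : ((q : ℕ) : 𝓞 L) ∈ w.asIdeal) :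
    ∃ σ : L ≃ₐ[ℚ] L, finAct σ (w0 L q) = w := by
  obtain ⟨ι, rfl⟩ := exists_primeOf_eq w hw
  obtain ⟨γ, rfl⟩ := exists_aut_emb ι
  refine ⟨γ.symm, ?_⟩
  rw [w0, finAct_primeOf, AlgEquiv.symm_symm]

/-- **the stabiliser of `w₀(q)` is the image of `G_q`** -/
theorem finAct_w0_eq_iff (σ : L ≃ₐ[ℚ] L) :
    finAct σ (w0 L q) = w0 L q ↔ ∃ d : GalQq q, σ = resL L (localGaloisToGlobal q d) := by
  rw [w0, finAct_primeOf, eq_comm, primeOf_eq_iff_smul]
  constructor
  · rintro ⟨d, hd⟩
    refine ⟨d⁻¹, ?_⟩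
    rw [smul_emb0] at hd
    have h1 : ∀ x : L, σ.symm x = resL L (localGaloisToGlobal q d) x := by
      intro x
      have := congrArg (fun κ : Emb q L => κ x) hd
      exact (emb0 L q).injective this
    have h2 : σ.symm = resL L (localGaloisToGlobal q d) := AlgEquiv.ext h1
    rw [map_inv, map_inv, ← h2]
    rfl
  · rintro ⟨d, rfl⟩
    refine ⟨d⁻¹, ?_⟩
    rw [smul_emb0, map_inv, map_inv]
    rfl

end Finite

section Infinite

/-- the standard complex embedding `L ⊂ ℚ̄ → ℂ` -/
def embC : L →+* ℂ := (complexEmbedding : Qbar →+* ℂ).comp (algebraMap L Qbar)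

theorem embC_apply (x : L) : embC L x = complexEmbedding (x : Qbar) := rfl

/-- the standard infinite place of `L` -/
def wInf : InfinitePlace L := InfinitePlace.mk (embC L)

theorem isConj_resL_complexConjugation :
    ComplexEmbedding.IsConj (embC L) (resL L complexConjugation) := by
  apply RingHom.ext
  intro x
  show starRingEnd ℂ (complexEmbedding (x : Qbar)) =
    complexEmbedding ((resL L complexConjugation x : L) : Qbar)
  rw [resL_apply, complexEmbedding_complexConjugation]

/-- **transitivity on infinite places** -/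
theorem exists_smul_wInf_eq (w : InfinitePlace L) : ∃ σ : L ≃ₐ[ℚ] L, σ • wInf L = w := by
  have : IsGalois ℚ L := ⟨⟩
  exact InfinitePlace.exists_smul_eq_of_comap_eq (Subsingleton.elim _ _)

/-- **the stabiliser of `w_∞` is `{1, c|_L}`** -/
theorem smul_wInf_eq_iff (σ : L ≃ₐ[ℚ] L) :
    σ • wInf L = wInf L ↔ σ = 1 ∨ σ = resL L complexConjugation := by
  rw [← MulAction.mem_stabilizer_iff, wInf, InfinitePlace.mem_stabilizer_mk_iff]
  refine or_congr Iff.rfl ⟨fun h => ?_, fun h => h ▸ isConj_resL_complexConjugation L⟩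
  exact h.ext (isConj_resL_complexConjugation L)

end Infinite

end Fermat.Agent.S56lib.PT9a
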