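/-
S56 marathon, helper7.  **WP3a**: the `Γ`-set `Pl T` (primes of `L` above `S` and infinite places of `L`) is
`(⊔_{q∈S} Γ/D_q) ⊔ Γ/⟨π c⟩`, in the form
`ψ(𝔽_p[Pl T]) = Σ_{q∈S} ψ(𝔽_p[Γ/D_q]) + ψ(𝔽_p[Γ/⟨π c⟩])` for every additive invariant `ψ`.

Setting: `L ⊂ ℚ̄` finite Galois over `ℚ`, `π : G_ℚ ↠ Γ` with `Gal(ℚ̄/L) ≤ ker π`, `T = primesAbove L S`
(helper2's `EulerG.Pl T = T ⊕ InfinitePlace L` with `EulerG.plAct`), and ANY action of `Γ` on `Pl T` with
`π g • w = plAct hT (resL L g) w`; `D_q = (π.comp (rloc q)).range`, `c = complexConjugation`.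
-/
import Mathlib
import Fermat.Agent.S56lib.PT9a.PermOrbit
import Fermat.Agent.S56lib.PT9a.PlacesOrbit

set_option autoImplicit false
set_option linter.unusedSectionVars false

noncomputable section

namespace Fermat.Agent.S56lib.PT9a

open NumberField IsDedekindDomain Function
open Fermat.Agent.S55lib Fermat.Agent.S55lib.Places Fermat.Agent.S55lib.FirstIneq
open Fermat.Agent.S56lib.EulerG Fermat.Agent.S56lib.Euler

variable (L : FieldQ) [FiniteDimensional ℚ L] [hN : Normal ℚ L] (S : Finset Nat.Primes)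

/-- the primes of `L` above `S` are stable under `Gal(L/ℚ)` -/
theorem tStable_primesAbove : TStable ℚ (primesAbove L S) := by
  intro σ w hw
  rw [mem_primesAbove] at hw ⊢
  obtain ⟨q, hq, hmem⟩ := hw
  refine ⟨q, hq, ?_⟩
  rw [mem_finAct, map_natCast]
  exact hmem

theorem w0_mem_primesAbove (q : S) : w0 L (q.1 : ℕ) ∈ primesAbove L S :=
  mem_primesAbove.2 ⟨q.1, q.2, natCast_mem_w0 L (q.1 : ℕ)⟩

/-- the orbit representatives: `w₀(q)`, `q ∈ S`, and `w_∞` -/
def plRep : Option S → Pl (primesAbove L S)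
  | some q => Sum.inl ⟨w0 L (q.1 : ℕ), w0_mem_primesAbove L S q⟩
  | none => Sum.inr (wInf L)

variable {Γ : Type} [Group Γ] (π : GQ →* Γ)

/-- the expected stabilisers: the decomposition groups `D_q` and `⟨π c⟩` -/
def plStab : Option S → Subgroup Γ
  | some q => (π.comp (rloc q.1)).range
  | none => Subgroup.zpowers (π complexConjugation)

variable {L S π}
variable (hπ : Surjective π) (hker : L.fixingSubgroup ≤ π.ker)
  [MulAction Γ (Pl (primesAbove L S))]
  (hact : ∀ (g : GQ) (w : Pl (primesAbove L S)),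
    π g • w = plAct (tStable_primesAbove L S) (resL L g) w)

include hπ hact in
theorem exists_smul_plRep_eq (w : Pl (primesAbove L S)) :
    ∃ i, ∃ γ : Γ, γ • plRep L S i = w := by
  rcases w with ⟨w, hw⟩ | w
  · obtain ⟨q, hq, hmem⟩ := mem_primesAbove.1 hw
    obtain ⟨σ, hσ⟩ := exists_finAct_w0_eq L (q : ℕ) w hmem
    obtain ⟨g, rfl⟩ := resL_surjective L σ
    refine ⟨some ⟨q, hq⟩, π g, ?_⟩
    rw [hact, plRep, plAct_inl]
    exact congrArg Sum.inl (Subtype.ext hσ)
  · obtain ⟨σ, hσ⟩ := exists_smul_wInf_eq L w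
    obtain ⟨g, rfl⟩ := resL_surjective L σ
    refine ⟨none, π g, ?_⟩
    rw [hact, plRep, plAct_inr, hσ]

include hπ hact in
theorem plRep_orbit_injective (i j : Option S) (γ : Γ) (h : γ • plRep L S i = plRep L S j) :
    i = j := by
  obtain ⟨g, rfl⟩ := hπ γ
  rw [hact] at h
  rcases i with _ | q <;> rcases j with _ | q'
  · rfl
  · change plAct _ _ (Sum.inr (wInf L)) = Sum.inl _ at h
    rw [plAct_inr] at h
    exact absurd h (by simp)
  · change plAct _ _ (Sum.inl _) = Sum.inr (wInf L) at h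
    rw [plAct_inl] at h
    exact absurd h (by simp)
  · change plAct _ _ (Sum.inl _) = Sum.inl _ at h
    rw [plAct_inl] at h
    have h1 : finAct (resL L g) (w0 L (q.1 : ℕ)) = w0 L (q'.1 : ℕ) :=
      congrArg Subtype.val (Sum.inl.inj h)
    have h2 : (((q.1 : ℕ) : ℕ) : 𝓞 L) ∈ (w0 L (q'.1 : ℕ)).asIdeal := by
      rw [← h1, mem_finAct, map_natCast]
      exact natCast_mem_w0 L (q.1 : ℕ)
    have h3 := natPrime_eq_of_mem q.1.2 q'.1.2 h2 (natCast_mem_w0 L (q'.1 : ℕ))
    exact congrArg some (Subtype.ext (Subtype.ext h3))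

include hπ hker hact in
theorem stabilizer_plRep (i : Option S) :
    MulAction.stabilizer Γ (plRep L S i) = plStab S π i := by
  ext γ
  rw [MulAction.mem_stabilizer_iff]
  rcases i with _ | q
  · -- the infinite place
    show γ • (Sum.inr (wInf L) : Pl (primesAbove L S)) = Sum.inr (wInf L) ↔
      γ ∈ Subgroup.zpowers (π complexConjugation)
    constructor
    · intro h
      obtain ⟨g, rfl⟩ := hπ γ
      rw [hact, plAct_inr] at h
      have h1 : resL L g • wInf L = wInf L := Sum.inr.inj h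
      rcases (smul_wInf_eq_iff L _).1 h1 with h2 | h2
      · have : g ∈ π.ker := hker (by rw [← resL_ker]; exact h2)
        rw [MonoidHom.mem_ker.1 this]
        exact Subgroup.one_mem _
      · have h3 : g⁻¹ * complexConjugation ∈ L.fixingSubgroup := (resL_eq_iff L _ _).1 h2
        have h4 := MonoidHom.mem_ker.1 (hker h3)
        rw [map_mul, map_inv, inv_mul_eq_one] at h4
        rw [h4]
        exact Subgroup.mem_zpowers _
    · intro h
      have hc : π complexConjugation ∈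
          MulAction.stabilizer Γ (Sum.inr (wInf L) : Pl (primesAbove L S)) := by
        rw [MulAction.mem_stabilizer_iff, hact, plAct_inr,
          (smul_wInf_eq_iff L _).2 (Or.inr rfl)]
      exact (Subgroup.zpowers_le.2 hc) h
  · -- the prime `w₀(q)`
    show γ • (Sum.inl ⟨w0 L (q.1 : ℕ), w0_mem_primesAbove L S q⟩ : Pl (primesAbove L S)) =
      Sum.inl ⟨w0 L (q.1 : ℕ), w0_mem_primesAbove L S q⟩ ↔ γ ∈ (π.comp (rloc q.1)).range
    constructor
    · intro h
      obtain ⟨g, rfl⟩ := hπ γ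
      rw [hact, plAct_inl] at h
      have h1 : finAct (resL L g) (w0 L (q.1 : ℕ)) = w0 L (q.1 : ℕ) :=
        congrArg Subtype.val (Sum.inl.inj h)
      obtain ⟨d, hd⟩ := (finAct_w0_eq_iff L (q.1 : ℕ) _).1 h1
      have h3 : g⁻¹ * localGaloisToGlobal (q.1 : ℕ) d ∈ L.fixingSubgroup :=
        (resL_eq_iff L _ _).1 hd
      have h4 := MonoidHom.mem_ker.1 (hker h3)
      rw [map_mul, map_inv, inv_mul_eq_one] at h4
      exact ⟨(glocEquiv q.1).symm d, h4.symm⟩
    · rintro ⟨d, rfl⟩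
      show π (rloc q.1 d) • _ = _
      rw [hact, plAct_inl]
      apply congrArg Sum.inl
      apply Subtype.ext
      exact (finAct_w0_eq_iff L (q.1 : ℕ) _).2 ⟨glocEquiv q.1 d, rfl⟩

variable {p : ℕ} [Fact p.Prime] [Finite Γ]

include hπ hker hact in
/-- **WP3a**: `ψ(𝔽_p[Pl T]) = Σ_{q ∈ S} ψ(𝔽_p[Γ/D_q]) + ψ(𝔽_p[Γ/⟨π c⟩])`. -/
theorem val_permMod_places (ψ : AddInvariant (ZG Γ) p) :
    ψ.val (PermMod Γ (ZMod p) (Pl (primesAbove L S))) =
      ∑ q : S, ψ.val (PermMod Γ (ZMod p) (Γ ⧸ (π.comp (rloc q.1)).range))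
        + ψ.val (PermMod Γ (ZMod p) (Γ ⧸ Subgroup.zpowers (π complexConjugation))) := by
  classical
  rw [val_permMod_orbits' ψ (plRep L S) (exists_smul_plRep_eq hπ hact)
    (plRep_orbit_injective hπ hact) (plStab S π) (stabilizer_plRep hπ hker hact),
    Fintype.sum_option, add_comm]
  rfl

end Fermat.Agent.S56lib.PT9a
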