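/-
S56lib / PT9a / AdFix  (helper7).

**The fixed space of a non-scalar `2 × 2` matrix on `sl₂(K)`** (conjugation action) has at most `|K|` elements
(`char K ≠ 2`), and the consequence for helper4's `Dict.adRep`: `|ker(ad⁰ρ̄(σ) − 1)| ≤ |K|` if `ρ̄(σ)` is not scalar.
-/
import Fermat.Agent.S56lib.Dict.AdRep

set_option autoImplicit false

noncomputable section

namespace Fermat.Agent.S56lib.PT9a

open Fermat.Agent.S55lib Fermat.Agent.S56lib

section Mat

variable {K : Type} [Field K]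

lemma mul_entries (A B : Matrix (Fin 2) (Fin 2) K) (i j : Fin 2) :
    (A * B) i j = A i 0 * B 0 j + A i 1 * B 1 j := by
  rw [Matrix.mul_apply, Fin.sum_univ_two]

/-- a trace-zero matrix commuting with a non-scalar matrix `g` is determined by one suitable entry -/
lemma eq_of_comm_of_entry (h2 : (2 : K) ≠ 0) (g : Matrix (Fin 2) (Fin 2) K)
    {X Y : Matrix (Fin 2) (Fin 2) K} (hX : X.trace = 0) (hY : Y.trace = 0)
    (hgX : g * X = X * g) (hgY : g * Y = Y * g) :
    (g 0 1 ≠ 0 → X 0 1 = Y 0 1 → X = Y) ∧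
    (g 0 1 = 0 → g 1 0 ≠ 0 → X 1 0 = Y 1 0 → X = Y) ∧
    (g 0 1 = 0 → g 1 0 = 0 → g 0 0 ≠ g 1 1 → X 0 0 = Y 0 0 → X = Y) := by
  -- reduce to `Z = X - Y = 0`
  set Z := X - Y with hZ
  have hZt : Z.trace = 0 := by rw [hZ, Matrix.trace_sub, hX, hY, sub_zero]
  have hgZ : g * Z = Z * g := by rw [hZ, mul_sub, sub_mul, hgX, hgY]
  have hw : Z 1 1 = -Z 0 0 := by
    rw [Matrix.trace_fin_two] at hZt
    exact eq_neg_of_add_eq_zero_right hZt
  have e01 := congrFun (congrFun hgZ 0) 1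
  have e10 := congrFun (congrFun hgZ 1) 0
  have e00 := congrFun (congrFun hgZ 0) 0
  rw [mul_entries, mul_entries] at e01 e10 e00
  rw [hw] at e01 e10
  have hXY : Z = 0 → X = Y := fun h => sub_eq_zero.1 h
  have hzero : Z 0 0 = 0 → Z 0 1 = 0 → Z 1 0 = 0 → Z = 0 := by
    intro h00 h01 h10
    ext i j
    fin_cases i <;> fin_cases j
    · exact h00
    · exact h01
    · exact h10
    · show Z 1 1 = 0
      rw [hw, h00, neg_zero]
  refine ⟨fun hb h => hXY ?_, fun hb hc h => hXY ?_, fun hb hc had h => hXY ?_⟩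
  · have h01 : Z 0 1 = 0 := by rw [hZ, Matrix.sub_apply, h, sub_self]
    rw [h01] at e01 e00
    have h00 : Z 0 0 = 0 := by
      have : 2 * (g 0 1 * Z 0 0) = 0 := by linear_combination -e01
      rcases mul_eq_zero.1 this with h | h
      · exact absurd h h2
      · exact (mul_eq_zero.1 h).resolve_left hb
    have h10 : Z 1 0 = 0 := by
      have : g 0 1 * Z 1 0 = 0 := by linear_combination e00
      exact (mul_eq_zero.1 this).resolve_left hb
    exact hzero h00 h01 h10
  · have h10 : Z 1 0 = 0 := by rw [hZ, Matrix.sub_apply, h, sub_self]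
    rw [h10] at e10 e00
    rw [hb] at e00 e01
    have h00 : Z 0 0 = 0 := by
      have : 2 * (g 1 0 * Z 0 0) = 0 := by linear_combination e10
      rcases mul_eq_zero.1 this with h | h
      · exact absurd h h2
      · exact (mul_eq_zero.1 h).resolve_left hc
    have h01 : Z 0 1 = 0 := by
      have : g 1 0 * Z 0 1 = 0 := by linear_combination -e00
      exact (mul_eq_zero.1 this).resolve_left hc
    exact hzero h00 h01 h10
  · have h00 : Z 0 0 = 0 := by rw [hZ, Matrix.sub_apply, h, sub_self]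
    rw [hb, h00] at e01
    rw [hc, h00] at e10
    have had' : g 0 0 - g 1 1 ≠ 0 := sub_ne_zero.2 had
    have h01 : Z 0 1 = 0 := by
      have : (g 0 0 - g 1 1) * Z 0 1 = 0 := by linear_combination e01
      exact (mul_eq_zero.1 this).resolve_left had'
    have h10 : Z 1 0 = 0 := by
      have : (g 0 0 - g 1 1) * Z 1 0 = 0 := by linear_combination -e10
      exact (mul_eq_zero.1 this).resolve_left had'
    exact hzero h00 h01 h10

/-- a matrix with `g 0 1 = g 1 0 = 0` and `g 0 0 = g 1 1` is scalar -/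
lemma eq_smul_one_of_entries (g : Matrix (Fin 2) (Fin 2) K) (hb : g 0 1 = 0) (hc : g 1 0 = 0)
    (had : g 0 0 = g 1 1) : g = g 0 0 • (1 : Matrix (Fin 2) (Fin 2) K) := by
  ext i j
  fin_cases i <;> fin_cases j
  · simp
  · simpa using hb
  · simpa using hc
  · simpa using had.symm

/-- **the centraliser of a non-scalar matrix in `sl₂(K)` has at most `|K|` elements** -/
theorem card_comm_sl2_le [Finite K] (h2 : (2 : K) ≠ 0) (g : Matrix (Fin 2) (Fin 2) K)
    (hg : ∀ c : K, g ≠ c • (1 : Matrix (Fin 2) (Fin 2) K)) :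
    Nat.card {X : Matrix (Fin 2) (Fin 2) K // X.trace = 0 ∧ g * X = X * g} ≤ Nat.card K := by
  by_cases hb : g 0 1 = 0
  · by_cases hc : g 1 0 = 0
    · have had : g 0 0 ≠ g 1 1 := fun h => hg _ (eq_smul_one_of_entries g hb hc h)
      refine Nat.card_le_card_of_injective (fun X => X.1 0 0) fun X Y h => Subtype.ext ?_
      exact (eq_of_comm_of_entry h2 g X.2.1 Y.2.1 X.2.2 Y.2.2).2.2 hb hc had h
    · refine Nat.card_le_card_of_injective (fun X => X.1 1 0) fun X Y h => Subtype.ext ?_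
      exact (eq_of_comm_of_entry h2 g X.2.1 Y.2.1 X.2.2 Y.2.2).2.1 hb hc h
  · refine Nat.card_le_card_of_injective (fun X => X.1 0 1) fun X Y h => Subtype.ext ?_
    exact (eq_of_comm_of_entry h2 g X.2.1 Y.2.1 X.2.2 Y.2.2).1 hb h

end Mat

section Ad

variable {K : Type} [Field K] [Finite K] (p : ℕ) [Fact p.Prime] [CharP K p]
  (rb : GQ →* Matrix (Fin 2) (Fin 2) K)

/-- **`|ker(ad⁰ρ̄(σ) − 1)| ≤ |K|` when `ρ̄(σ)` is not scalar** (`p` odd) -/
theorem card_ker_adRep_le (hp2 : p ≠ 2) (σ : GQ)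
    (hσ : ∀ c : K, rb σ ≠ c • (1 : Matrix (Fin 2) (Fin 2) K)) :
    Nat.card (LinearMap.ker ((Dict.adRep p rb).ρ σ - 1)) ≤ Nat.card K := by
  have h2 : (2 : K) ≠ 0 := by
    intro h
    have h3 : ((2 : ℕ) : K) = 0 := by exact_mod_cast h
    rw [CharP.cast_eq_zero_iff K p] at h3
    exact hp2 ((Nat.prime_dvd_prime_iff_eq (Fact.out : p.Prime) Nat.prime_two).1 h3)
  refine le_trans ?_ (card_comm_sl2_le h2 (rb σ) hσ)
  have hinv : rb σ⁻¹ * rb σ = 1 := by rw [← map_mul, inv_mul_cancel, map_one]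
  refine Nat.card_le_card_of_injective
    (fun X : LinearMap.ker ((Dict.adRep p rb).ρ σ - 1) =>
      (⟨Dict.adVal p (rb := rb) X.1, Dict.trace_adVal p X.1, ?_⟩ :
        {X : Matrix (Fin 2) (Fin 2) K // X.trace = 0 ∧ rb σ * X = X * rb σ}))
    (fun X Y h => Subtype.ext (Dict.adVal_injective p (congrArg
      (fun Z : {X : Matrix (Fin 2) (Fin 2) K // X.trace = 0 ∧ rb σ * X = X * rb σ} => Z.1) h)))
  have h1 : (Dict.adRep p rb).ρ σ X.1 = X.1 := by
    have := X.2
    rw [LinearMap.mem_ker, LinearMap.sub_apply, Module.End.one_apply, sub_eq_zero] at this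
    exact this
  have h3 := congrArg (Dict.adVal p (rb := rb)) h1
  rw [Dict.adVal_ρ] at h3
  calc rb σ * Dict.adVal p (rb := rb) X.1
      = rb σ * Dict.adVal p (rb := rb) X.1 * (rb σ⁻¹ * rb σ) := by rw [hinv, mul_one]
    _ = (rb σ * Dict.adVal p (rb := rb) X.1 * rb σ⁻¹) * rb σ := by
        simp only [Matrix.mul_assoc]
    _ = Dict.adVal p (rb := rb) X.1 * rb σ := by rw [h3]

end Ad

end Fermat.Agent.S56lib.PT9a
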