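/-
S56lib / PT9a / Decomp  (helper7).

**The decomposition group of `padicPlace q` is the image of the local Galois group, at every finite level**:
for `σ ∈ G_ℚ` with `σ • padicPlace q = padicPlace q` and a number field `F ⊂ ℚ̄` there is
`d ∈ Gal(ℚ̄_q/ℚ_q)` with `r_q(d) = σ` on `F`.

Proof: `σ` is an isometry for the `q`-adic norm `‖τ_q ·‖` on `ℚ̄`; approximating the minimal polynomial `m` of
`τ_q θ` over `ℚ_q` by rational polynomials shows `m(τ_q (σ θ)) = 0`, so `τ_q(σθ)` is a `ℚ_q`-conjugate of `τ_q θ`.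
-/
import Fermat.Agent.S55lib.Iface.RamBridge
import Fermat.Agent.S55lib.Iface.Top

set_option autoImplicit false

noncomputable section

namespace Fermat.Agent.S56lib.PT9a

open Fermat.Agent.S55lib Polynomial
open scoped Pointwise

section Padic

variable (q : ℕ) [Fact q.Prime]

local notation "Ω" => PadicAlgCl q

lemma norm_padicEmbedding_algebraMap (r : ℚ) :
    ‖padicEmbedding q (algebraMap ℚ Qbar r)‖ = ‖(r : ℚ_[q])‖ := by
  rw [AlgHom.commutes, IsScalarTower.algebraMap_apply ℚ ℚ_[q] Ω]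
  have h : algebraMap ℚ ℚ_[q] r = (r : ℚ_[q]) := rfl
  rw [h]
  exact PadicAlgCl.norm_extends q _

variable {q}

lemma norm_le_one_iff_of_smul_eq {σ : GQ} (hσ : σ • padicPlace q = padicPlace q) (x : Qbar) :
    ‖padicEmbedding q (σ x)‖ ≤ 1 ↔ ‖padicEmbedding q x‖ ≤ 1 := by
  rw [← mem_padicPlace_iff_norm, ← mem_padicPlace_iff_norm]
  conv_lhs => rw [← hσ]
  rw [← AlgEquiv.smul_def]
  exact ValuationSubring.smul_mem_pointwise_smul_iff

/-- an element of the decomposition group does not increase the `q`-adic norm -/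
lemma norm_padicEmbedding_apply_le {σ : GQ} (hσ : σ • padicPlace q = padicPlace q) (x : Qbar) :
    ‖padicEmbedding q (σ x)‖ ≤ ‖padicEmbedding q x‖ := by
  by_contra hlt
  rw [not_le] at hlt
  have hx0 : x ≠ 0 := by
    rintro rfl
    rw [map_zero, map_zero, map_zero] at hlt
    exact lt_irrefl _ hlt
  have ha : 0 < ‖padicEmbedding q x‖ := by
    rw [norm_pos_iff]
    exact (_root_.map_ne_zero _).2 hx0
  set a := ‖padicEmbedding q x‖ with ha_def
  set b := ‖padicEmbedding q (σ x)‖ with hb_def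
  have hab : 1 < b / a := (one_lt_div ha).2 hlt
  obtain ⟨n, hn⟩ := pow_unbounded_of_one_lt (q : ℝ) hab
  have hq1 : (1 : ℝ) < q := by exact_mod_cast (Fact.out : q.Prime).one_lt
  have hq0 : (0 : ℝ) < q := by linarith
  obtain ⟨k, hk1, hk2⟩ := exists_mem_Ico_zpow (pow_pos ha n) hq1
  -- the rational number `c = q^(k+1)` of norm `q^(-(k+1))`
  have hc : ‖padicEmbedding q (algebraMap ℚ Qbar ((q : ℚ) ^ (k + 1)))‖ = ((q : ℝ) ^ (k + 1))⁻¹ := by
    rw [norm_padicEmbedding_algebraMap]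
    have h1 : (((q : ℚ) ^ (k + 1) : ℚ) : ℚ_[q]) = (q : ℚ_[q]) ^ (k + 1) := by
      push_cast
      rfl
    rw [h1, Padic.norm_p_zpow, zpow_neg]
  set z : Qbar := algebraMap ℚ Qbar ((q : ℚ) ^ (k + 1)) * x ^ n with hz
  have hqk : (0 : ℝ) < (q : ℝ) ^ (k + 1) := zpow_pos hq0 _
  have h1 : ‖padicEmbedding q z‖ ≤ 1 := by
    rw [hz, map_mul, norm_mul, hc, map_pow, norm_pow, inv_mul_le_iff₀ hqk, mul_one]
    exact hk2.le
  have h2 : ¬ ‖padicEmbedding q (σ z)‖ ≤ 1 := by
    rw [not_le, hz, map_mul, AlgEquiv.commutes, map_pow, map_mul, norm_mul, hc, map_pow, norm_pow,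
      lt_inv_mul_iff₀ hqk, mul_one]
    have h3 : (q : ℝ) ^ (k + 1) = q * (q : ℝ) ^ k := by
      rw [zpow_add₀ hq0.ne', zpow_one, mul_comm]
    have h4 : (b / a) ^ n * a ^ n = b ^ n := by
      rw [div_pow, div_mul_cancel₀ _ (pow_pos ha n).ne']
    calc (q : ℝ) ^ (k + 1) = q * (q : ℝ) ^ k := h3
      _ ≤ q * a ^ n := by exact mul_le_mul_of_nonneg_left hk1 hq0.le
      _ < (b / a) ^ n * a ^ n := by exact mul_lt_mul_of_pos_right hn (pow_pos ha n)
      _ = b ^ n := h4
  exact h2 ((norm_le_one_iff_of_smul_eq hσ z).2 h1)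

/-- an element of the decomposition group of `padicPlace q` is an isometry for the `q`-adic norm -/
lemma norm_padicEmbedding_apply {σ : GQ} (hσ : σ • padicPlace q = padicPlace q) (x : Qbar) :
    ‖padicEmbedding q (σ x)‖ = ‖padicEmbedding q x‖ := by
  apply le_antisymm (norm_padicEmbedding_apply_le hσ x)
  have hσ' : σ⁻¹ • padicPlace q = padicPlace q := by
    conv_lhs => rw [← hσ]
    rw [inv_smul_smul]
  have h := norm_padicEmbedding_apply_le hσ' (σ x)
  have h1 : σ⁻¹ (σ x) = x := by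
    rw [AlgEquiv.aut_inv]
    exact σ.symm_apply_apply x
  rwa [h1] at h

/-! ### Approximation of the minimal polynomial -/

variable (q) in
/-- a polynomial over `ℚ_q` is approximated, uniformly on evaluation, by rational polynomials -/
lemma exists_rat_poly_approx (m : ℚ_[q][X]) (ε : ℝ) (hε : 0 < ε) :
    ∃ g : ℚ[X], ∀ y : Ω, ‖aeval y g - aeval y m‖ ≤
      ε * ∑ i ∈ Finset.range (m.natDegree + 1), ‖y‖ ^ i := by
  choose r hr using fun i : ℕ => Padic.rat_dense q (m.coeff i) hε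
  refine ⟨∑ i ∈ Finset.range (m.natDegree + 1), C (r i) * X ^ i, fun y => ?_⟩
  have h1 : aeval y (∑ i ∈ Finset.range (m.natDegree + 1), C (r i) * X ^ i) =
      ∑ i ∈ Finset.range (m.natDegree + 1), algebraMap ℚ_[q] Ω (r i : ℚ_[q]) * y ^ i := by
    rw [map_sum]
    apply Finset.sum_congr rfl
    intro i _
    rw [map_mul, aeval_C, map_pow, aeval_X, IsScalarTower.algebraMap_apply ℚ ℚ_[q] Ω]
    rfl
  have h2 : aeval y m =
      ∑ i ∈ Finset.range (m.natDegree + 1), algebraMap ℚ_[q] Ω (m.coeff i) * y ^ i := by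
    rw [aeval_eq_sum_range]
    apply Finset.sum_congr rfl
    intro i _
    rw [Algebra.smul_def]
  rw [h1, h2, ← Finset.sum_sub_distrib, Finset.mul_sum]
  refine (norm_sum_le _ _).trans (Finset.sum_le_sum fun i _ => ?_)
  rw [← sub_mul, ← map_sub, norm_mul, norm_pow, PadicAlgCl.norm_extends]
  refine mul_le_mul_of_nonneg_right ?_ (pow_nonneg (norm_nonneg _) _)
  rw [norm_sub_rev]
  exact (hr i).le

/-- for `σ` in the decomposition group, `τ_q(σ θ)` is a root of the minimal polynomial of `τ_q θ` over `ℚ_q` -/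
lemma aeval_minpoly_apply_eq_zero {σ : GQ} (hσ : σ • padicPlace q = padicPlace q) (θ : Qbar) :
    aeval (padicEmbedding q (σ θ)) (minpoly ℚ_[q] (padicEmbedding q θ)) = 0 := by
  set y := padicEmbedding q θ with hy
  set y' := padicEmbedding q (σ θ) with hy'
  set m := minpoly ℚ_[q] y with hm
  by_contra hne
  have ht : 0 < ‖aeval y' m‖ := norm_pos_iff.2 hne
  set C1 := ∑ i ∈ Finset.range (m.natDegree + 1), ‖y‖ ^ i with hC1
  set C2 := ∑ i ∈ Finset.range (m.natDegree + 1), ‖y'‖ ^ i with hC2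
  have hC1 : 0 ≤ C1 := Finset.sum_nonneg fun i _ => pow_nonneg (norm_nonneg _) _
  have hC2 : 0 ≤ C2 := Finset.sum_nonneg fun i _ => pow_nonneg (norm_nonneg _) _
  have hC : 0 < C1 + C2 + 1 := by linarith
  obtain ⟨g, hg⟩ := exists_rat_poly_approx q m (‖aeval y' m‖ / (2 * (C1 + C2 + 1)))
    (div_pos ht (by linarith))
  set ε := ‖aeval y' m‖ / (2 * (C1 + C2 + 1)) with hε
  have hε0 : 0 ≤ ε := (div_pos ht (by linarith)).le
  have h1 : ‖aeval y g‖ ≤ ε * C1 := by
    have := hg y
    rwa [hm, minpoly.aeval, sub_zero] at this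
  have h2 : ‖aeval y' g‖ = ‖aeval y g‖ := by
    have e1 : aeval y g = padicEmbedding q (aeval θ g) := aeval_algHom_apply (padicEmbedding q) θ g
    have e2 : aeval y' g = padicEmbedding q (σ (aeval θ g)) := by
      rw [hy', aeval_algHom_apply (padicEmbedding q) (σ θ) g]
      congr 1
      exact aeval_algHom_apply (σ : Qbar →ₐ[ℚ] Qbar) θ g
    rw [e1, e2]
    exact norm_padicEmbedding_apply hσ _
  have h3 := hg y'
  have h4 : ‖aeval y' m‖ ≤ ε * (C1 + C2) := by
    calc ‖aeval y' m‖ = ‖aeval y' g - (aeval y' g - aeval y' m)‖ := by rw [sub_sub_cancel]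
      _ ≤ ‖aeval y' g‖ + ‖aeval y' g - aeval y' m‖ := norm_sub_le _ _
      _ ≤ ε * C1 + ε * C2 := by rw [h2]; exact add_le_add h1 h3
      _ = ε * (C1 + C2) := by ring
  have h5 : ε * (C1 + C2) ≤ ‖aeval y' m‖ / 2 := by
    rw [hε, div_mul_eq_mul_div, div_le_div_iff₀ (by linarith) (by norm_num)]
    nlinarith [ht, hC1, hC2]
  linarith

/-! ### The decomposition group at finite level -/

/-- for `σ` in the decomposition group of `padicPlace q` and `θ ∈ ℚ̄`, some local automorphism acts on `θ` as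
`σ` does -/
theorem exists_local_apply_eq {σ : GQ} (hσ : σ • padicPlace q = padicPlace q) (θ : Qbar) :
    ∃ d : Ω ≃ₐ[ℚ_[q]] Ω, localGaloisToGlobal q d θ = σ θ := by
  have hint : IsIntegral ℚ_[q] (padicEmbedding q θ) := Algebra.IsIntegral.isIntegral _
  have hconj : IsConjRoot ℚ_[q] (padicEmbedding q θ) (padicEmbedding q (σ θ)) :=
    isConjRoot_of_aeval_eq_zero hint (aeval_minpoly_apply_eq_zero hσ θ)
  have : Normal ℚ_[q] Ω := IsAlgClosure.normal ℚ_[q] Ω
  obtain ⟨d, hd⟩ := hconj.symm.exists_algEquiv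
  refine ⟨d, ?_⟩
  apply (padicEmbedding q).toRingHom.injective
  show padicEmbedding q (localGaloisToGlobal q d θ) = padicEmbedding q (σ θ)
  rw [padicEmbedding_localGaloisToGlobal]
  exact hd

/-- **the decomposition group of `padicPlace q` is the image of the local Galois group at every finite
level** -/
theorem exists_local_eqOn {σ : GQ} (hσ : σ • padicPlace q = padicPlace q) (F : FieldQ)
    [FiniteDimensional ℚ F] :
    ∃ d : Ω ≃ₐ[ℚ_[q]] Ω, ∀ x ∈ F, localGaloisToGlobal q d x = σ x := by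
  obtain ⟨α, hα⟩ := Field.exists_primitive_element ℚ F
  have hF : F = IntermediateField.adjoin ℚ {(α : Qbar)} := by
    have h1 := congrArg (IntermediateField.map F.val) hα
    have h2 : IntermediateField.map F.val (IntermediateField.adjoin ℚ {α}) =
        IntermediateField.adjoin ℚ (F.val '' {α}) := IntermediateField.adjoin_map ℚ {α} F.val
    rw [Set.image_singleton] at h2
    have h3 : IntermediateField.map F.val ⊤ = F := by
      rw [← AlgHom.fieldRange_eq_map, IntermediateField.fieldRange_val]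
    exact h3.symm.trans (h1.symm.trans h2)
  obtain ⟨d, hd⟩ := exists_local_apply_eq hσ (α : Qbar)
  refine ⟨d, fun x hx => ?_⟩
  have hext := IntermediateField.algHom_ext_of_eq_adjoin (K := Qbar) ℚ hF
    (φ₁ := ((localGaloisToGlobal q d : GQ) : Qbar →ₐ[ℚ] Qbar).comp F.val)
    (φ₂ := (σ : Qbar →ₐ[ℚ] Qbar).comp F.val)
    (fun y hy => by
      rw [Set.mem_singleton_iff] at hy
      subst hy
      exact hd)
  exact congrArg (fun φ : F →ₐ[ℚ] Qbar => φ ⟨x, hx⟩) hext

end Padic

end Fermat.Agent.S56lib.PT9a
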