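/-
S56lib / PT9a / LocDual  (helper7).

**Local duality in degree 2, as a count**: `|H²(G_q, M)| = |H⁰(G_q, M^∨(1))|` (`card_H2loc`), and the resulting bound
`|H²(G_q, M)| ≤ |M^σ|` for every `σ` in the decomposition group of `padicPlace q` on which the mod-`p` cyclotomic
character is trivial (`card_H2loc_le_of_decomp`; e.g. a Frobenius at a prime `q ≡ 1 mod p`).
-/
import Fermat.Agent.S56lib.PT9.H2EndUncond
import Fermat.Agent.S56lib.PT9a.TailInst
import Fermat.Agent.S56lib.PT9a.Decomp

set_option autoImplicit false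

noncomputable section

namespace Fermat.Agent.S56lib.PT9a

open Fermat.Agent.S55lib Fermat.Agent.S55lib.Cpx Fermat.Agent.S55lib.CFDual
  groupCohomology ExtCitation CategoryTheory Fermat.Agent.S56lib
open scoped Pointwise

section Lin

variable (p : ℕ) [Fact p.Prime] {V : Type*} [AddCommGroup V] [Module (ZMod p) V]
  [FiniteDimensional (ZMod p) V]

/-- `|Hom(V, 𝔽_p)| = |V|` -/
lemma card_addMonoidHom_zmod : Nat.card (V →+ ZMod p) = Nat.card V := by
  have f1 : Module.Finite (ZMod p) (Module.Dual (ZMod p) V) :=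
    Subspace.instModuleDualFiniteDimensional
  rw [Nat.card_congr (Equiv.ofBijective _ (toDualHom_bijective p (B := V))),
    Module.natCard_eq_pow_finrank (K := ZMod p) (V := Module.Dual (ZMod p) V),
    Subspace.dual_finrank_eq, ← Module.natCard_eq_pow_finrank]

/-- the fixed spaces of an endomorphism and of its transpose have the same cardinality -/
lemma card_ker_dualMap_sub_one (T : V →ₗ[ZMod p] V) :
    Nat.card (LinearMap.ker (T.dualMap - 1)) = Nat.card (LinearMap.ker (T - 1)) := by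
  have f1 : Module.Finite (ZMod p) (Module.Dual (ZMod p) V) :=
    Subspace.instModuleDualFiniteDimensional
  have f2 : Module.Finite (ZMod p) ↥(LinearMap.ker (T - 1).dualMap) :=
    FiniteDimensional.finiteDimensional_submodule _
  have f3 : Module.Finite (ZMod p) ↥(LinearMap.ker (T - 1)) :=
    FiniteDimensional.finiteDimensional_submodule _
  have h0 : T.dualMap - 1 = (T - 1).dualMap := by
    ext f v
    simp [LinearMap.dualMap_apply]
  have h1 := LinearMap.finrank_range_add_finrank_ker (T - 1)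
  have h2 := LinearMap.finrank_range_add_finrank_ker (T - 1).dualMap
  have h3 := LinearMap.finrank_range_dualMap_eq_finrank_range (T - 1)
  have h4 : Module.finrank (ZMod p) (Module.Dual (ZMod p) V) = Module.finrank (ZMod p) V :=
    Subspace.dual_finrank_eq
  rw [h0, Module.natCard_eq_pow_finrank (K := ZMod p),
    Module.natCard_eq_pow_finrank (K := ZMod p) (V := ↥(LinearMap.ker (T - 1)))]
  congr 1
  omega

end Lin

section Loc

variable {p : ℕ} [hp : Fact p.Prime] (hp2 : p ≠ 2) (S : Finset Nat.Primes)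
  (hpS : (⟨p, hp.out⟩ : Nat.Primes) ∈ S)
  (M : Rep.{0} (ZMod p) GQ) [FiniteDimensional (ZMod p) M]
  (hM : Sm.IsSmooth (MonoidHom.id GQ) (LevelClass.unr S) M)

include hp2 hpS hM in
/-- **local duality in degree 2, as a count**: `|H²(G_q, M)| = |H⁰(G_q, M^∨(1))|` -/
theorem card_H2loc (q : S) : Nat.card (H2loc M q.1) = Nat.card (PT9.D0q M q.1) := by
  have hT := Dev.card_torsion_le_top hp2 hpS
    (Dev.topClassStatement_of_fundClass (Recip.fundClassStatement hp2) ⟨_, hpS⟩)
  have hIII := PT.hIII hp2 S hpS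
  obtain ⟨I⟩ := PT.nonempty_invData S hT (fun q => PT.exists_ne_zero_loc q.1 p) hIII ⟨_, hpS⟩
  obtain ⟨β, hβ, -⟩ := PT9.exists_β2 S hpS M hM I q (LocalH.k4Statement_loc q.1 p)
  have e := PT9.e2_bijective S hpS M hM q
  rw [Nat.card_congr (Equiv.ofBijective _ (hβ.comp e))]
  have := finiteDimensional_dualTwist M (cycloChar p)
  exact card_addMonoidHom_zmod p

/-- `H⁰(G_q, M^∨(1))` is contained in the fixed space of any element of `G_q` with trivial cyclotomic character -/
lemma card_D0q_le (q : Nat.Primes) (g : GQ) (hg : g ∈ (rloc q).range) (hχ : cycloChar p g = 1) :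
    Nat.card (PT9.D0q M q) ≤ Nat.card (LinearMap.ker (M.ρ g - 1)) := by
  have f1 := finiteDimensional_dualTwist M (cycloChar p)
  have f2 : FiniteDimensional (ZMod p) (Module.Dual (ZMod p) M) := f1
  have h1 : M.ρ g⁻¹ * M.ρ g = 1 := by rw [← map_mul, inv_mul_cancel, map_one]
  have h2 : M.ρ g * M.ρ g⁻¹ = 1 := by rw [← map_mul, mul_inv_cancel, map_one]
  -- fixed by `g` iff fixed by `g⁻¹`
  have hker : LinearMap.ker (M.ρ g⁻¹ - 1) = LinearMap.ker (M.ρ g - 1) := by
    ext m
    rw [LinearMap.mem_ker, LinearMap.mem_ker, LinearMap.sub_apply, LinearMap.sub_apply,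
      Module.End.one_apply, sub_eq_zero, sub_eq_zero]
    constructor
    · intro h
      have h3 : M.ρ g (M.ρ g⁻¹ m) = m := by rw [← Module.End.mul_apply, h2, Module.End.one_apply]
      rw [h] at h3
      exact h3
    · intro h
      have h3 : M.ρ g⁻¹ (M.ρ g m) = m := by rw [← Module.End.mul_apply, h1, Module.End.one_apply]
      rw [h] at h3
      exact h3
  rw [← hker, ← card_ker_dualMap_sub_one p (M.ρ g⁻¹)]
  obtain ⟨d, rfl⟩ := hg
  have hle : ∀ f : M.dualTwist (cycloChar p), f ∈ PT9.D0q M q →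
      (f : Module.Dual (ZMod p) M) ∈ LinearMap.ker ((M.ρ (rloc q d)⁻¹).dualMap - 1) := by
    intro f hf
    have h3 := (PT9.mem_D0q M q f).1 hf d
    rw [Rep.dualTwist_ρ_apply, hχ, Units.val_one, one_smul] at h3
    rw [LinearMap.mem_ker, LinearMap.sub_apply, Module.End.one_apply, sub_eq_zero]
    exact h3
  exact Nat.card_le_card_of_injective
    (fun f : PT9.D0q M q => (⟨f.1, hle f.1 f.2⟩ :
      LinearMap.ker ((M.ρ (rloc q d)⁻¹).dualMap - 1)))
    (fun f f' h => Subtype.ext (congrArg (fun x :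
      LinearMap.ker ((M.ρ (rloc q d)⁻¹).dualMap - 1) => (x : Module.Dual (ZMod p) M)) h))

include hp2 hpS hM in
/-- `|H²(G_q, M)| ≤ |M^g|` for `g` in the image of `G_q` with `χ_p(g) = 1` -/
theorem card_H2loc_le_of_local (q : S) (g : GQ) (hg : g ∈ (rloc q.1).range)
    (hχ : cycloChar p g = 1) :
    Nat.card (H2loc M q.1) ≤ Nat.card (LinearMap.ker (M.ρ g - 1)) := by
  rw [card_H2loc hp2 S hpS M hM q]
  exact card_D0q_le M q.1 g hg hχ

include hp2 hpS hM in
/-- **`|H²(G_q, M)| ≤ |M^σ|`** for `σ` in the decomposition group of `padicPlace q` with `χ_p(σ) = 1` -/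
theorem card_H2loc_le_of_decomp (q : S) (σ : GQ)
    (hσ : σ • padicPlace (q.1 : ℕ) = padicPlace (q.1 : ℕ)) (hχ : cycloChar p σ = 1) :
    Nat.card (H2loc M q.1) ≤ Nat.card (LinearMap.ker (M.ρ σ - 1)) := by
  classical
  obtain ⟨F₁, hF₁, hχ₁⟩ := exists_level_cycloChar_eq_one S hpS
  let b := Module.finBasis (ZMod p) M
  choose F hF hfix using fun i => hM (b i)
  have hF₂ : (Finset.univ.sup F).IsUnramifiedOutside S := by
    refine Finset.sup_induction (p := fun E : FieldQ => E.IsUnramifiedOutside S)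
      (IntermediateField.isUnramifiedOutside_bot S) (fun _ h _ h' => h.sup h') (fun i _ => hF i)
  have hF₃ : (F₁ ⊔ Finset.univ.sup F).IsUnramifiedOutside S := hF₁.sup hF₂
  have f3 : FiniteDimensional ℚ ↥(F₁ ⊔ Finset.univ.sup F) := hF₃.1
  obtain ⟨d, hd⟩ := exists_local_eqOn (q := (q.1 : ℕ)) hσ (F₁ ⊔ Finset.univ.sup F)
  have hd' : ∀ x ∈ F₁ ⊔ Finset.univ.sup F, rloc q.1 d x = σ x := hd
  set s : GQ := σ⁻¹ * rloc q.1 d with hs
  have hs1 : s ∈ (F₁ ⊔ Finset.univ.sup F).fixingSubgroup := by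
    rw [IntermediateField.mem_fixingSubgroup_iff]
    intro x hx
    show σ⁻¹ (rloc q.1 d x) = x
    rw [hd' x hx, AlgEquiv.aut_inv]
    exact σ.symm_apply_apply x
  have hs2 : rloc q.1 d = σ * s := by rw [hs, mul_inv_cancel_left]
  have hsF₁ : s ∈ F₁.fixingSubgroup := IntermediateField.fixingSubgroup_antitone le_sup_left hs1
  have hsF : ∀ i, s ∈ (F i).fixingSubgroup := fun i =>
    IntermediateField.fixingSubgroup_antitone
      ((Finset.le_sup (Finset.mem_univ i)).trans le_sup_right) hs1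
  have hρs : M.ρ s = 1 := by
    apply b.ext
    intro i
    exact hfix i s (hsF i)
  have hρ : M.ρ (rloc q.1 d) = M.ρ σ := by rw [hs2, map_mul, hρs, mul_one]
  have hχd : cycloChar p (rloc q.1 d) = 1 := by rw [hs2, map_mul, hχ, hχ₁ s hsF₁, one_mul]
  have h := card_H2loc_le_of_local hp2 S hpS M hM q (rloc q.1 d) ⟨d, rfl⟩ hχd
  rwa [hρ] at h

end Loc

end Fermat.Agent.S56lib.PT9a
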