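/-
S56 marathon, helper7.  WP2 (arithmetic part, all primes `q`): elementary facts about `Ω = PadicAlgCl q`.

* `norm_aut` : `ℚ_q`-automorphisms of `Ω` are isometries;
* `norm_natCast_eq_one` : `‖(n : Ω)‖ = 1` for `q ∤ n`;
* `eq_one_of_pow_eq_one` : for `q ≠ p`, a `p`-th root of unity with `‖y − 1‖ < 1` is `1`;
* `exists_root_near_one` : for every `x` with `‖x − 1‖ < 1` there is `y` with `y ^ p = x`, `‖y − 1‖ < 1`
  (`q ≠ p`; no completeness, only `Ω` algebraically closed);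
* `root_near_one_unique`.
-/
import Mathlib

set_option autoImplicit false

namespace Fermat.Agent.S56lib.PT9a

open Polynomial

variable {q : ℕ} [Fact q.Prime]

local notation "Ω" => PadicAlgCl q

/-- `ℚ_q`-automorphisms of `Ω` are isometries -/
theorem norm_aut (σ : Ω ≃ₐ[ℚ_[q]] Ω) (x : Ω) : ‖σ x‖ = ‖x‖ := by
  rw [← PadicAlgCl.spectralNorm_eq, ← PadicAlgCl.spectralNorm_eq]
  exact (spectralNorm_eq_of_equiv σ x).symm

/-- the ultrametric inequality in `Ω` -/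
theorem norm_add_le_max' (x y : Ω) : ‖x + y‖ ≤ max ‖x‖ ‖y‖ :=
  IsUltrametricDist.norm_add_le_max x y

theorem norm_natCast_eq_one {n : ℕ} (hn : ¬ q ∣ n) : ‖(n : Ω)‖ = 1 := by
  have h : ((n : ℚ_[q]) : Ω) = (n : Ω) := map_natCast (algebraMap ℚ_[q] Ω) n
  rw [← h, PadicAlgCl.norm_extends]
  exact Padic.norm_natCast_eq_one_iff.2 ((Nat.Prime.coprime_iff_not_dvd (Fact.out : q.Prime)).2 hn)

theorem norm_le_one_of_sub_one_lt {y : Ω} (h : ‖y - 1‖ < 1) : ‖y‖ = 1 := by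
  have e : y = (y - 1) + 1 := by ring
  rw [e]
  have := IsUltrametricDist.norm_add_eq_max_of_norm_ne_norm (x := y - 1) (y := (1 : Ω))
    (by rw [norm_one]; exact h.ne)
  rw [this, norm_one, max_eq_right h.le]

theorem norm_pow_sub_one_lt {y : Ω} (h : ‖y - 1‖ < 1) (i : ℕ) : ‖y ^ i - 1‖ < 1 := by
  induction i with
  | zero => simp
  | succ i ih =>
    have e : y ^ (i + 1) - 1 = (y ^ i - 1) * y + (y - 1) := by ring
    rw [e]
    refine lt_of_le_of_lt (norm_add_le_max' _ _) (max_lt ?_ h)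
    rw [norm_mul, norm_le_one_of_sub_one_lt h, mul_one]
    exact ih

variable {p : ℕ} [Fact p.Prime]

/-- for `q ≠ p`, the only `p`-th root of unity in `1 + 𝔪` is `1` -/
theorem eq_one_of_pow_eq_one (hqp : q ≠ p) {y : Ω} (hy : y ^ p = 1) (h1 : ‖y - 1‖ < 1) :
    y = 1 := by
  by_contra hne
  have hs : (∑ i ∈ Finset.range p, y ^ i) = 0 := by
    have h := geom_sum_mul y p
    rw [hy, sub_self] at h
    rcases mul_eq_zero.1 h with h | h
    · exact h
    · exact absurd (sub_eq_zero.1 h) hne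
  have hp1 : ‖(p : Ω)‖ = 1 := norm_natCast_eq_one (fun hd =>
    hqp ((Nat.prime_dvd_prime_iff_eq (Fact.out : q.Prime) (Fact.out : p.Prime)).1 hd))
  have e : (p : Ω) = - ∑ i ∈ Finset.range p, (y ^ i - 1) := by
    rw [Finset.sum_sub_distrib, hs]
    simp
  have hlt : ‖(p : Ω)‖ < 1 := by
    rw [e, norm_neg]
    have hne' : (Finset.range p).Nonempty := by
      rw [Finset.nonempty_range_iff]
      exact (Fact.out : p.Prime).ne_zero
    obtain ⟨i, -, hi⟩ := IsUltrametricDist.exists_norm_finsetSum_le_of_nonempty hne'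
      (fun i => y ^ i - 1)
    exact lt_of_le_of_lt hi (norm_pow_sub_one_lt h1 i)
  rw [hp1] at hlt
  exact lt_irrefl _ hlt

/-- `p`-th roots in `1 + 𝔪` are unique (`q ≠ p`) -/
theorem root_near_one_unique (hqp : q ≠ p) {y y' : Ω} (h : y ^ p = y' ^ p) (h1 : ‖y - 1‖ < 1)
    (h1' : ‖y' - 1‖ < 1) : y = y' := by
  have hy : ‖y‖ = 1 := norm_le_one_of_sub_one_lt h1
  have hy0 : y ≠ 0 := by
    intro h0
    rw [h0, norm_zero] at hy
    exact zero_ne_one hy
  have hz : (y' / y) ^ p = 1 := by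
    rw [div_pow, ← h, div_self (pow_ne_zero _ hy0)]
  have hz1 : ‖y' / y - 1‖ < 1 := by
    have e : y' / y - 1 = ((y' - 1) - (y - 1)) / y := by
      field_simp
      ring
    rw [e, norm_div, hy, div_one, sub_eq_add_neg]
    refine lt_of_le_of_lt (norm_add_le_max' _ _) (max_lt h1' ?_)
    rwa [norm_neg]
  have := eq_one_of_pow_eq_one hqp hz hz1
  rw [div_eq_one_iff_eq hy0] at this
  exact this.symm

/-- existence of `p`-th roots in `1 + 𝔪` (`q ≠ p`) -/
theorem exists_root_near_one {x : Ω} (hx : ‖x - 1‖ < 1) :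
    ∃ y : Ω, y ^ p = x ∧ ‖y - 1‖ < 1 := by
  have hp0 : 0 < p := (Fact.out : p.Prime).pos
  obtain ⟨y, hy⟩ := IsAlgClosed.exists_pow_nat_eq x hp0
  have : NeZero ((p : ℕ) : ℚ_[q]) := ⟨by exact_mod_cast (Fact.out : p.Prime).ne_zero⟩
  obtain ⟨ζ, hζ⟩ := HasEnoughRootsOfUnity.exists_primitiveRoot Ω p
  have hprod := hζ.pow_sub_pow_eq_prod_sub_mul (1 : Ω) y hp0
  rw [one_pow, hy] at hprod
  have hnorm : ‖∏ μ ∈ nthRootsFinset p (1 : Ω), (1 - μ * y)‖ < 1 := by
    rw [← hprod, ← norm_neg, neg_sub]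
    exact hx
  rw [norm_prod] at hnorm
  by_contra hcon
  push Not at hcon
  have hge : ∀ μ ∈ nthRootsFinset p (1 : Ω), 1 ≤ ‖1 - μ * y‖ := by
    intro μ hμ
    have hμp : μ ^ p = 1 := (mem_nthRootsFinset hp0 1).1 hμ
    have := hcon (μ * y) (by rw [mul_pow, hμp, one_mul, hy])
    rwa [← norm_neg, neg_sub] at this
  have : 1 ≤ ∏ μ ∈ nthRootsFinset p (1 : Ω), ‖1 - μ * y‖ :=
    Finset.one_le_prod hge
  linarith

end Fermat.Agent.S56lib.PT9a
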