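/-
S56 marathon, helper7.  WP2 (arithmetic part): finite subextensions `L` of `Ω = PadicAlgCl q` over `ℚ_q`.

* `exists_uniformizer_mem` : `ϖ ∈ L` with `‖L^×‖ = ‖ϖ‖^ℤ`;
* `exists_residue_map` : a map `r : Ω → κ` to a finite type separating residue classes of `𝒪_L`.
-/
import Mathlib
import Fermat.Agent.S55lib.LocalUnr.Padic
import Fermat.Agent.S56lib.PT9a.LocUnits

set_option autoImplicit false

namespace Fermat.Agent.S56lib.PT9a

open Fermat.Agent.S55lib.LocalUnr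
open scoped NormedField Valued

variable {q : ℕ} [Fact q.Prime]

variable (L : IntermediateField ℚ_[q] (PadicAlgCl q)) [FiniteDimensional ℚ_[q] L]

/-- a uniformizer of `L`, as an element of `Ω` -/
theorem exists_uniformizer_mem : ∃ ϖ ∈ L, 0 < ‖ϖ‖ ∧ ‖ϖ‖ < 1 ∧
    ∀ x ∈ L, x ≠ 0 → ∃ m : ℤ, ‖x‖ = ‖ϖ‖ ^ m := by
  obtain ⟨π, hπ⟩ := exists_isUniformizer L
  refine ⟨(π : PadicAlgCl q), π.2, hπ.norm_pos, hπ.norm_lt_one, fun x hx hx0 => ?_⟩
  have hx0' : (⟨x, hx⟩ : L) ≠ 0 := fun h => hx0 (congrArg Subtype.val h)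
  obtain ⟨m, hm⟩ := hπ.exists_norm_eq_zpow hx0'
  exact ⟨m, hm⟩

open Classical in
/-- the residue map of `𝒪_L`, extended by zero to `Ω` -/
noncomputable def residL (x : PadicAlgCl q) : 𝓀[L] :=
  if h : x ∈ L ∧ ‖x‖ ≤ 1 then
    IsLocalRing.residue 𝒪[L] ⟨⟨x, h.1⟩, Valued.integer.mem_iff.2 h.2⟩
  else 0

theorem residL_eq {x y : PadicAlgCl q} (hx : x ∈ L) (hy : y ∈ L) (hx1 : ‖x‖ ≤ 1) (hy1 : ‖y‖ ≤ 1)
    (h : residL L x = residL L y) : ‖x - y‖ < 1 := by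
  unfold residL at h
  rw [dif_pos ⟨hx, hx1⟩, dif_pos ⟨hy, hy1⟩, ← sub_eq_zero, ← map_sub,
    IsLocalRing.residue_eq_zero_iff] at h
  have := (mem_maximalIdeal_iff (K := L)).1 h
  exact this

/-- the residue field of `L` is finite -/
theorem finite_residL : Finite 𝓀[L] := finite_residue L

end Fermat.Agent.S56lib.PT9a
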