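/-
S56 marathon, helper7.  WP2 (arithmetic part): the fixed field `L = Ω^U` of an open subgroup `U ≤ G_q`
(open for `basisLoc q`) is a finite extension of `ℚ_q`.

* `fixL q U`, `mem_fixL`;
* `finiteDimensional_fixL` : `(basisLoc q).IsOpen U → FiniteDimensional ℚ_q (fixL q U)`.
-/
import Mathlib
import Fermat.Agent.S55lib.GlobDual.JSCoind
import Fermat.Agent.S55lib.Places.Completion

set_option autoImplicit false

namespace Fermat.Agent.S56lib.PT9a

open Fermat.Agent.S55lib Fermat.Agent.S55lib.Places ExtCitation

variable (q : Nat.Primes)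

/-- the fixed field of a subgroup of `G_q` -/
noncomputable def fixL (U : Subgroup (Gloc q)) :
    IntermediateField ℚ_[(q : ℕ)] (PadicAlgCl (q : ℕ)) :=
  IntermediateField.fixedField (U.map (glocEquiv q).toMonoidHom)

variable {q}

theorem mem_fixL {U : Subgroup (Gloc q)} {x : PadicAlgCl (q : ℕ)} :
    x ∈ fixL q U ↔ ∀ u ∈ U, glocEquiv q u x = x := by
  unfold fixL
  rw [IntermediateField.mem_fixedField_iff]
  constructor
  · intro h u hu
    exact h _ (Subgroup.mem_map_of_mem _ hu)
  · rintro h _ ⟨u, hu, rfl⟩
    exact h u hu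

/-- the fixed field of an open subgroup is finite over `ℚ_q` -/
theorem finiteDimensional_fixL {U : Subgroup (Gloc q)} (hU : (basisLoc q).IsOpen U) :
    FiniteDimensional ℚ_[(q : ℕ)] (fixL q U) := by
  obtain ⟨_, ⟨F, hF, -, rfl⟩, hle⟩ := hU
  have : FiniteDimensional ℚ F := LevelClass.all.finite F hF
  have : NumberField F := ⟨⟩
  let ι : Emb (q : ℕ) F := (padicEmbedding (q : ℕ)).comp F.val
  have hsub : fixL q U ≤ localField (q : ℕ) F ι := by
    intro x hx
    rw [← InfiniteGalois.fixedField_fixingSubgroup (localField (q : ℕ) F ι),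
      IntermediateField.mem_fixedField_iff]
    intro d hd
    have hdι := (Emb.smul_eq_self_iff d ι).2 hd
    have hmem : (glocEquiv q).symm d ∈ U := by
      apply hle
      rw [Subgroup.mem_comap, IntermediateField.mem_fixingSubgroup_iff]
      intro y hy
      apply (padicEmbedding (q : ℕ)).injective
      have h1 := padicEmbedding_localGaloisToGlobal (q : ℕ) d y
      have h2 : d (ι ⟨y, hy⟩) = ι ⟨y, hy⟩ := by
        rw [← Emb.smul_apply, hdι]
      exact h1.trans h2
    have := (mem_fixL.1 hx) _ hmem
    rwa [MulEquiv.apply_symm_apply] at this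
  exact FiniteDimensional.of_injective (IntermediateField.inclusion hsub).toLinearMap
    (IntermediateField.inclusion_injective hsub)

end Fermat.Agent.S56lib.PT9a
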