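/-
S56 marathon, helper7.  WP2 (abstract part): the `δ`-invariant of a module with a "unit filtration".

For `R`-modules (`R` any ring, e.g. `ℤ[Γ]`), `δ_ψ(B) = ψ(B[p]) − ψ(B/p)` (helper1's `Euler.delta`).
* `finite_of_exact` : the middle term of an exact sequence with finite ends is finite;
* `pGood_mid`, `pGood_left` : `PGood` (finiteness of `B[p]`, `B/p`) in short exact sequences;
* `delta_eq_zero_of_uniquely_divisible` : `δ = 0` for uniquely `p`-divisible modules;
* `delta_of_filtration'` : general form, `δ_ψ(X) = δ_ψ(A₁) − ψ(Z₀/p)`;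
* `delta_of_filtration` : if `v : X → Z₀` has finite cokernel, `Z₀` has no `p`-torsion, and `ker v ⊇ A₁`
  with `A₁` uniquely `p`-divisible of finite index in `ker v`, then `δ_ψ(X) = −ψ(Z₀/p)`.
-/
import Mathlib
import Fermat.Agent.S56lib.Euler.SixTerm

set_option autoImplicit false

namespace Fermat.Agent.S56lib.PT9a

open Function Fermat.Agent.S56lib.Euler

section Finite

variable {R : Type} [Ring R] {A B C : Type} [AddCommGroup A] [Module R A]
  [AddCommGroup B] [Module R B] [AddCommGroup C] [Module R C]

/-- the middle term of an exact sequence with finite ends is finite -/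
theorem finite_of_exact [Finite A] [Finite C] (f : A →ₗ[R] B) (g : B →ₗ[R] C) (h : Exact f g) :
    Finite B := by
  have : Finite (LinearMap.ker g) := by
    have hs : Surjective (fun a : A => (⟨f a, h.apply_apply_eq_zero a⟩ : LinearMap.ker g)) := by
      rintro ⟨b, hb⟩
      obtain ⟨a, ha⟩ := (h b).1 hb
      exact ⟨a, Subtype.ext ha⟩
    exact Finite.of_surjective _ hs
  have : Finite (B ⧸ LinearMap.ker g) :=
    Finite.of_injective (fun x => ((g.quotKerEquivRange x : LinearMap.range g) : C))
      (Subtype.val_injective.comp g.quotKerEquivRange.injective)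
  have : Finite (LinearMap.ker g).toAddSubgroup := ‹Finite (LinearMap.ker g)›
  have : Finite (B ⧸ (LinearMap.ker g).toAddSubgroup) := ‹Finite (B ⧸ LinearMap.ker g)›
  exact Finite.of_addSubgroup_quotient (LinearMap.ker g).toAddSubgroup

end Finite

section PGood

variable {R : Type} [Ring R] {p : ℕ} {A B C : Type} [AddCommGroup A] [Module R A]
  [AddCommGroup B] [Module R B] [AddCommGroup C] [Module R C]
  (f : A →ₗ[R] B) (g : B →ₗ[R] C) (hf : Injective f) (hg : Surjective g) (hfg : Exact f g)

include hf hg hfg in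
/-- `PGood` for the middle term of a short exact sequence -/
theorem pGood_mid [hA : PGood R p A] [hC : PGood R p C] : PGood R p B := by
  have := hA.fin_tors
  have := hA.fin_cot
  have := hC.fin_tors
  have := hC.fin_cot
  exact ⟨finite_of_exact (torsMap (p := p) f) (torsMap (p := p) g) (torsMap_exact f g hf hfg),
    finite_of_exact (cotMap (p := p) f) (cotMap (p := p) g) (cotMap_exact f g hg hfg)⟩

include hf hg hfg in
/-- `PGood` for the left term of a short exact sequence -/
theorem pGood_left [hB : PGood R p B] [hC : PGood R p C] : PGood R p A := by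
  have := hB.fin_tors
  have := hB.fin_cot
  have := hC.fin_tors
  exact ⟨Finite.of_injective _ (torsMap_injective (p := p) f hf),
    finite_of_exact (snake f g hf hg hfg) (cotMap (p := p) f) (snake_cotMap_exact f g hf hg hfg)⟩

include hf hg hfg in
/-- `PGood` for the right term of a short exact sequence -/
theorem pGood_right [hA : PGood R p A] [hB : PGood R p B] : PGood R p C := by
  have := hB.fin_tors
  have := hB.fin_cot
  have := hA.fin_cot
  exact ⟨finite_of_exact (torsMap (p := p) g) (snake f g hf hg hfg)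
      (torsMap_snake_exact f g hf hg hfg),
    Finite.of_surjective _ (cotMap_surjective (p := p) g hg)⟩

end PGood

section Divisible

variable {R : Type} [Ring R] {p : ℕ} (A : Type) [AddCommGroup A] [Module R A]

/-- a uniquely `p`-divisible module has no `p`-torsion -/
theorem tors_eq_bot_of_torsionFree (htf : ∀ a : A, p • a = 0 → a = 0) : tors R p A = ⊥ := by
  rw [eq_bot_iff]
  intro a ha
  rw [Submodule.mem_bot]
  exact htf a ha

/-- a `p`-divisible module has trivial cotorsion -/
theorem subsingleton_cot_of_divisible (hdiv : ∀ a : A, ∃ b : A, p • b = a) :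
    Subsingleton (Cot R p A) := by
  refine ⟨fun x y => ?_⟩
  obtain ⟨a, rfl⟩ := Submodule.Quotient.mk_surjective _ x
  obtain ⟨b, rfl⟩ := Submodule.Quotient.mk_surjective _ y
  rw [← sub_eq_zero, ← Submodule.Quotient.mk_sub, cot_mk_eq_zero]
  exact hdiv _

theorem pGood_of_uniquely_divisible (hdiv : ∀ a : A, ∃ b : A, p • b = a)
    (htf : ∀ a : A, p • a = 0 → a = 0) : PGood R p A := by
  have := subsingleton_cot_of_divisible (R := R) A hdiv
  exact ⟨by rw [tors_eq_bot_of_torsionFree (R := R) A htf]; infer_instance, inferInstance⟩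

/-- **`δ = 0` for uniquely `p`-divisible modules** -/
theorem delta_eq_zero_of_uniquely_divisible (ψ : AddInvariant R p)
    (hdiv : ∀ a : A, ∃ b : A, p • b = a) (htf : ∀ a : A, p • a = 0 → a = 0) :
    delta R p A ψ = 0 := by
  have := subsingleton_cot_of_divisible (R := R) A hdiv
  rw [delta_of_tors_eq_bot ψ A (tors_eq_bot_of_torsionFree (R := R) A htf),
    ψ.eq_zero_of_subsingleton, neg_zero]

end Divisible

section Filtration

variable {R : Type} [Ring R] {p : ℕ} (ψ : AddInvariant R p)
  {A₁ A F X Z₀ : Type} [AddCommGroup A₁] [Module R A₁] [AddCommGroup A] [Module R A]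
  [AddCommGroup F] [Module R F] [AddCommGroup X] [Module R X] [AddCommGroup Z₀] [Module R Z₀]

omit ψ in
/-- `X[p]`, `X/p` are finite for a module with a unit filtration (hypotheses of
`delta_of_filtration'`). -/
theorem pGood_of_filtration [PGood R p A₁] [Finite F] [Finite (Cot R p Z₀)]
    (i : A₁ →ₗ[R] A) (π : A →ₗ[R] F) (hi : Injective i) (hπ : Surjective π) (hiπ : Exact i π)
    (j : A →ₗ[R] X) (v : X →ₗ[R] Z₀) (hj : Injective j) (hjv : Exact j v)
    [Finite (Z₀ ⧸ LinearMap.range v)] (hZ : tors R p Z₀ = ⊥) :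
    PGood R p X := by
  have : PGood R p A := pGood_mid i π hi hπ hiπ
  have : PGood R p Z₀ := pGood_of_tors_eq_bot Z₀ hZ
  set Z := LinearMap.range v with hZdef
  have : PGood R p Z := pGood_left Z.subtype Z.mkQ Z.injective_subtype Z.mkQ_surjective
    (LinearMap.exact_subtype_mkQ Z)
  have hvr : Exact j v.rangeRestrict := by
    intro x
    rw [← hjv x]
    constructor
    · intro h
      exact congrArg Subtype.val h
    · intro h
      exact Subtype.ext h
  exact pGood_mid j v.rangeRestrict hj v.surjective_rangeRestrict hvr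

/-- **The `δ`-invariant of a module with a unit filtration, general form.**  `0 → A → X → Z₀` exact
with finite cokernel, `Z₀` without `p`-torsion and `Z₀/p` finite; `0 → A₁ → A → F → 0` exact with `F`
finite and `A₁[p]`, `A₁/p` finite.  Then `X[p]`, `X/p` are finite and `δ_ψ(X) = δ_ψ(A₁) − ψ(Z₀/p)`. -/
theorem delta_of_filtration' [PGood R p A₁] [Finite F] [Finite (Cot R p Z₀)]
    (i : A₁ →ₗ[R] A) (π : A →ₗ[R] F) (hi : Injective i) (hπ : Surjective π) (hiπ : Exact i π)
    (j : A →ₗ[R] X) (v : X →ₗ[R] Z₀) (hj : Injective j) (hjv : Exact j v)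
    [Finite (Z₀ ⧸ LinearMap.range v)] (hZ : tors R p Z₀ = ⊥) :
    delta R p X ψ = delta R p A₁ ψ - ψ.val (Cot R p Z₀) := by
  have : PGood R p A := pGood_mid i π hi hπ hiπ
  have hA : delta R p A ψ = delta R p A₁ ψ := by
    rw [delta_add ψ i π hi hπ hiπ, delta_eq_zero_of_finite ψ F, add_zero]
  have : PGood R p Z₀ := pGood_of_tors_eq_bot Z₀ hZ
  set Z := LinearMap.range v with hZdef
  have hZt : tors R p Z = ⊥ := by
    apply tors_eq_bot_of_torsionFree
    intro z hz
    have h2 : (z : Z₀) ∈ tors R p Z₀ := by
      rw [mem_tors]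
      have := congrArg Subtype.val hz
      simpa using this
    rw [hZ, Submodule.mem_bot] at h2
    exact Subtype.ext h2
  have : PGood R p Z := pGood_left Z.subtype Z.mkQ Z.injective_subtype Z.mkQ_surjective
    (LinearMap.exact_subtype_mkQ Z)
  have hvr : Exact j v.rangeRestrict := by
    intro x
    rw [← hjv x]
    constructor
    · intro h
      exact congrArg Subtype.val h
    · intro h
      exact Subtype.ext h
  have : PGood R p X := pGood_mid j v.rangeRestrict hj v.surjective_rangeRestrict hvr
  rw [delta_add ψ j v.rangeRestrict hj v.surjective_rangeRestrict hvr, hA,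
    delta_of_tors_eq_bot ψ Z hZt]
  have : Finite (Cot R p Z) := (inferInstance : PGood R p Z).fin_cot
  have : Finite (Z₀ ⧸ LinearMap.range Z.subtype) := by
    rw [Submodule.range_subtype]
    infer_instance
  rw [bn_lattice ψ Z.subtype Z.injective_subtype hZt hZ]
  ring

/-- **The `δ`-invariant of a module with a unit filtration** whose bottom step `A₁` is uniquely
`p`-divisible: `δ_ψ(X) = −ψ(Z₀/p)`. -/
theorem delta_of_filtration [Finite F] [Finite (Cot R p Z₀)]
    (i : A₁ →ₗ[R] A) (π : A →ₗ[R] F) (hi : Injective i) (hπ : Surjective π) (hiπ : Exact i π)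
    (hdiv : ∀ a : A₁, ∃ b : A₁, p • b = a) (htf : ∀ a : A₁, p • a = 0 → a = 0)
    (j : A →ₗ[R] X) (v : X →ₗ[R] Z₀) (hj : Injective j) (hjv : Exact j v)
    [Finite (Z₀ ⧸ LinearMap.range v)] (hZ : tors R p Z₀ = ⊥) :
    PGood R p X ∧ delta R p X ψ = - ψ.val (Cot R p Z₀) := by
  have : PGood R p A₁ := pGood_of_uniquely_divisible A₁ hdiv htf
  have h := delta_of_filtration' ψ i π hi hπ hiπ j v hj hjv hZ
  rw [delta_eq_zero_of_uniquely_divisible A₁ ψ hdiv htf, zero_sub] at h
  exact ⟨pGood_of_filtration i π hi hπ hiπ j v hj hjv hZ, h⟩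

end Filtration

end Fermat.Agent.S56lib.PT9a
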