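/-
S56 marathon, helper7.  WP2, COMMON SETUP (all primes `q`, shared with helper8's `q = p` part):
`X = (Yloc q)^U = L_w^×` as a `ℤ[Γ]`-module (`X = Euler.InvMod π hπ (Yloc q)`, `U = ker π` open).

* `uval x : Ω` the underlying element of `Ω = PadicAlgCl q` (`uval_add`, `uval_gsm`, `uval_fixed`, `mkX`);
* `unitsSub π hπ`, `princSub π hπ : Submodule (ZG Γ) X` : `{‖x‖ = 1}` and `{‖x − 1‖ < 1}`;
* `exists_ord` : the normalised valuation `ord : X →+ ℤ`, surjective, `Γ`-invariant, `ker = unitsSub`;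
* `delta_invMod` : `PGood (princSub) → PGood X ∧ ∀ ψ, δ_ψ(X) = δ_ψ(princSub) − ψ(𝔽_p)`.
-/
import Mathlib
import Fermat.Agent.S56lib.Euler.InvMod
import Fermat.Agent.S56lib.Euler.Perm
import Fermat.Agent.S56lib.PT9a.UnitsAbs
import Fermat.Agent.S56lib.PT9a.LocField
import Fermat.Agent.S56lib.PT9a.LocOpen

set_option autoImplicit false

noncomputable section

namespace Fermat.Agent.S56lib.PT9a

open Fermat.Agent.S55lib Fermat.Agent.S56lib.Euler Function

section Gsm

variable {Γ : Type} [Group Γ] {V : Type} [AddCommGroup V] [Module (ZG Γ) V]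

/-- a subgroup stable under the group is a `ℤ[Γ]`-submodule -/
def submoduleOfGsm (S : AddSubgroup V) (h : ∀ (γ : Γ) (x : V), x ∈ S → gsm γ x ∈ S) :
    Submodule (ZG Γ) V where
  carrier := S
  add_mem' := S.add_mem
  zero_mem' := S.zero_mem
  smul_mem' a x hx := by
    induction a using MonoidAlgebra.induction_on with
    | of g => exact h g x hx
    | add a b ha hb =>
      rw [add_smul]
      exact S.add_mem ha hb
    | smul c a ha =>
      rw [smul_assoc]
      exact S.zsmul_mem ha c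

@[simp] theorem mem_submoduleOfGsm (S : AddSubgroup V)
    (h : ∀ (γ : Γ) (x : V), x ∈ S → gsm γ x ∈ S) (x : V) : x ∈ submoduleOfGsm S h ↔ x ∈ S :=
  Iff.rfl

end Gsm

section Setup

variable {q : Nat.Primes} {Γ : Type} [Group Γ] (π : Gloc q →* Γ) (hπ : Surjective π)

/-- the underlying element of `Ω` -/
def uunit (x : InvMod π hπ (Yloc q)) : (PadicAlgCl (q : ℕ))ˣ :=
  Additive.toMul (((InvMod.fn π hπ (Yloc q) x : invSub π (Yloc q)) : (Yloc q).V) :
    Additive (PadicAlgCl (q : ℕ))ˣ)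

/-- the underlying element of `Ω` -/
def uval (x : InvMod π hπ (Yloc q)) : PadicAlgCl (q : ℕ) := (uunit π hπ x : PadicAlgCl (q : ℕ))

variable {π hπ}

theorem uval_ne_zero (x : InvMod π hπ (Yloc q)) : uval π hπ x ≠ 0 := Units.ne_zero _

@[simp] theorem uunit_zero : uunit π hπ 0 = 1 := by
  unfold uunit
  rw [map_zero]
  rfl

@[simp] theorem uunit_add (x y : InvMod π hπ (Yloc q)) :
    uunit π hπ (x + y) = uunit π hπ x * uunit π hπ y := by
  unfold uunit
  rw [map_add]
  rfl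

@[simp] theorem uunit_neg (x : InvMod π hπ (Yloc q)) : uunit π hπ (-x) = (uunit π hπ x)⁻¹ := by
  unfold uunit
  rw [map_neg]
  rfl

@[simp] theorem uval_zero : uval π hπ 0 = 1 := by
  unfold uval
  rw [uunit_zero]
  rfl

@[simp] theorem uval_add (x y : InvMod π hπ (Yloc q)) :
    uval π hπ (x + y) = uval π hπ x * uval π hπ y := by
  unfold uval
  rw [uunit_add]
  rfl

@[simp] theorem uval_neg (x : InvMod π hπ (Yloc q)) : uval π hπ (-x) = (uval π hπ x)⁻¹ := by
  unfold uval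
  rw [uunit_neg, Units.val_inv_eq_inv_val]

theorem uval_sub (x y : InvMod π hπ (Yloc q)) :
    uval π hπ (x - y) = uval π hπ x / uval π hπ y := by
  rw [sub_eq_add_neg, uval_add, uval_neg, div_eq_mul_inv]

theorem uval_nsmul (n : ℕ) (x : InvMod π hπ (Yloc q)) :
    uval π hπ (n • x) = uval π hπ x ^ n := by
  induction n with
  | zero => simp
  | succ n ih => rw [succ_nsmul, uval_add, ih, pow_succ]

theorem uval_ext {x y : InvMod π hπ (Yloc q)} (h : uval π hπ x = uval π hπ y) : x = y := by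
  apply InvMod.ext
  have : uunit π hπ x = uunit π hπ y := Units.ext h
  exact Additive.toMul.injective this

theorem uval_fixed (x : InvMod π hπ (Yloc q)) (u : Gloc q) (hu : u ∈ π.ker) :
    glocEquiv q u (uval π hπ x) = uval π hπ x := by
  have h := (InvMod.fn π hπ (Yloc q) x).2 u hu
  rw [Yloc_ρ_apply] at h
  have h2 := congrArg (fun a : Additive (PadicAlgCl (q : ℕ))ˣ =>
    ((Additive.toMul a : (PadicAlgCl (q : ℕ))ˣ) : PadicAlgCl (q : ℕ))) h
  exact h2

theorem uval_gsm (g : Gloc q) (x : InvMod π hπ (Yloc q)) :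
    uval π hπ (gsm (π g) x) = glocEquiv q g (uval π hπ x) := by
  have h := InvMod.fn_gsm (hπ := hπ) g x
  rw [Yloc_ρ_apply] at h
  have h2 := congrArg (fun a : Additive (PadicAlgCl (q : ℕ))ˣ =>
    ((Additive.toMul a : (PadicAlgCl (q : ℕ))ˣ) : PadicAlgCl (q : ℕ))) h
  exact h2

theorem uval_mem_fixL (x : InvMod π hπ (Yloc q)) : uval π hπ x ∈ fixL q π.ker :=
  mem_fixL.2 (uval_fixed x)

variable (π hπ)

/-- an element of `X` from a nonzero `U`-fixed element of `Ω` -/
def mkX (y : PadicAlgCl (q : ℕ)) (hy0 : y ≠ 0) (hy : y ∈ fixL q π.ker) : InvMod π hπ (Yloc q) :=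
  InvMod.mk (Additive.ofMul (Units.mk0 y hy0) : Additive (PadicAlgCl (q : ℕ))ˣ) (by
    intro u hu
    rw [Yloc_ρ_apply]
    apply congrArg Additive.ofMul
    apply Units.ext
    exact mem_fixL.1 hy u hu)

@[simp] theorem uval_mkX (y : PadicAlgCl (q : ℕ)) (hy0 : y ≠ 0) (hy : y ∈ fixL q π.ker) :
    uval π hπ (mkX π hπ y hy0 hy) = y := by
  unfold uval uunit mkX
  rw [InvMod.fn_mk]
  rfl

end Setup

section Subs

variable {q : Nat.Primes} {Γ : Type} [Group Γ] (π : Gloc q →* Γ) (hπ : Surjective π)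

variable {π hπ} in
/-- the group acts by isometries -/
theorem norm_uval_gsm (γ : Γ) (x : InvMod π hπ (Yloc q)) :
    ‖uval π hπ (gsm γ x)‖ = ‖uval π hπ x‖ := by
  obtain ⟨g, rfl⟩ := hπ γ
  rw [uval_gsm]
  exact norm_aut (glocEquiv q g) _

variable {π hπ} in
theorem norm_uval_gsm_sub_one (γ : Γ) (x : InvMod π hπ (Yloc q)) :
    ‖uval π hπ (gsm γ x) - 1‖ = ‖uval π hπ x - 1‖ := by
  obtain ⟨g, rfl⟩ := hπ γ
  rw [uval_gsm]
  have h := norm_aut (glocEquiv q g) (uval π hπ x - 1)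
  rwa [map_sub, map_one] at h

/-- the units `𝒪_L^× = {‖x‖ = 1}` of `X = L^×` -/
def unitsSub : Submodule (ZG Γ) (InvMod π hπ (Yloc q)) :=
  submoduleOfGsm
    { carrier := {x | ‖uval π hπ x‖ = 1}
      add_mem' := fun {x y} hx hy => by
        rw [Set.mem_ofPred_eq] at hx hy ⊢
        rw [uval_add, norm_mul, hx, hy, one_mul]
      zero_mem' := by
        rw [Set.mem_ofPred_eq, uval_zero, norm_one]
      neg_mem' := fun {x} hx => by
        rw [Set.mem_ofPred_eq] at hx ⊢
        rw [uval_neg, norm_inv, hx, inv_one] }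
    (fun γ x hx => by
      change ‖uval π hπ (gsm γ x)‖ = 1
      rw [norm_uval_gsm]
      exact hx)

/-- the principal units `U^(1) = {‖x − 1‖ < 1}` of `X = L^×` -/
def princSub : Submodule (ZG Γ) (InvMod π hπ (Yloc q)) :=
  submoduleOfGsm
    { carrier := {x | ‖uval π hπ x - 1‖ < 1}
      add_mem' := fun {x y} hx hy => by
        rw [Set.mem_ofPred_eq] at hx hy ⊢
        rw [uval_add]
        have e : uval π hπ x * uval π hπ y - 1 =
            (uval π hπ x - 1) * uval π hπ y + (uval π hπ y - 1) := by ring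
        rw [e]
        refine lt_of_le_of_lt (norm_add_le_max' _ _) (max_lt ?_ hy)
        rw [norm_mul, norm_le_one_of_sub_one_lt hy, mul_one]
        exact hx
      zero_mem' := by
        rw [Set.mem_ofPred_eq, uval_zero, sub_self, norm_zero]
        exact one_pos
      neg_mem' := fun {x} hx => by
        rw [Set.mem_ofPred_eq] at hx ⊢
        rw [uval_neg]
        have h0 := uval_ne_zero x
        have e : (uval π hπ x)⁻¹ - 1 = -(uval π hπ x - 1) / uval π hπ x := by
          field_simp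
          ring
        rw [e, norm_div, norm_neg, norm_le_one_of_sub_one_lt hx, div_one]
        exact hx }
    (fun γ x hx => by
      change ‖uval π hπ (gsm γ x) - 1‖ < 1
      rw [norm_uval_gsm_sub_one]
      exact hx)

variable {π hπ}

theorem mem_unitsSub {x : InvMod π hπ (Yloc q)} : x ∈ unitsSub π hπ ↔ ‖uval π hπ x‖ = 1 :=
  Iff.rfl

theorem mem_princSub {x : InvMod π hπ (Yloc q)} :
    x ∈ princSub π hπ ↔ ‖uval π hπ x - 1‖ < 1 := Iff.rfl

theorem princSub_le_unitsSub : princSub π hπ ≤ unitsSub π hπ := fun _ hx =>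
  norm_le_one_of_sub_one_lt hx

end Subs

section Ord

variable {q : Nat.Primes} {Γ : Type} [Group Γ] {π : Gloc q →* Γ} {hπ : Surjective π}

/-- **the normalised valuation** `ord : X = L^× → ℤ` -/
theorem exists_ord (hopen : (basisLoc q).IsOpen π.ker) :
    ∃ (c : ℝ) (ord : InvMod π hπ (Yloc q) →+ ℤ), 0 < c ∧ c < 1 ∧
      (∀ x, ‖uval π hπ x‖ = c ^ ord x) ∧ Surjective ord := by
  have := finiteDimensional_fixL hopen
  obtain ⟨ϖ, hϖL, hϖ0, hϖ1, hall⟩ := exists_uniformizer_mem (fixL q π.ker)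
  have hex : ∀ x : InvMod π hπ (Yloc q), ∃ m : ℤ, ‖uval π hπ x‖ = ‖ϖ‖ ^ m := fun x =>
    hall _ (uval_mem_fixL x) (uval_ne_zero x)
  choose m hm using hex
  have hinj : Injective (fun n : ℤ => ‖ϖ‖ ^ n) := zpow_right_injective₀ hϖ0 hϖ1.ne
  have hadd : ∀ x y, m (x + y) = m x + m y := by
    intro x y
    apply hinj
    show ‖ϖ‖ ^ m (x + y) = ‖ϖ‖ ^ (m x + m y)
    rw [zpow_add₀ hϖ0.ne', ← hm, ← hm, ← hm, uval_add, norm_mul]
  let ord : InvMod π hπ (Yloc q) →+ ℤ := AddMonoidHom.mk' m hadd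
  have hϖne : ϖ ≠ 0 := fun h => by
    rw [h, norm_zero] at hϖ0
    exact lt_irrefl _ hϖ0
  refine ⟨‖ϖ‖, ord, hϖ0, hϖ1, hm, ?_⟩
  have h1 : ord (mkX π hπ ϖ hϖne hϖL) = 1 := by
    apply hinj
    show ‖ϖ‖ ^ m (mkX π hπ ϖ hϖne hϖL) = ‖ϖ‖ ^ (1 : ℤ)
    rw [← hm, uval_mkX, zpow_one]
  intro n
  refine ⟨n • mkX π hπ ϖ hϖne hϖL, ?_⟩
  rw [map_zsmul, h1, smul_eq_mul, mul_one]

end Ord

section Main

/-- a quotient is finite if its classes are separated by a map to a finite type -/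
theorem finite_quotient_of_sep {R : Type} [Ring R] {A : Type} [AddCommGroup A] [Module R A]
    (N : Submodule R A) {κ : Type*} [Finite κ] (g : A → κ)
    (h : ∀ a b, g a = g b → a - b ∈ N) : Finite (A ⧸ N) := by
  classical
  let s : κ → A ⧸ N := fun r =>
    if h : ∃ a, g a = r then Submodule.Quotient.mk h.choose else 0
  apply Finite.of_surjective s
  intro x
  obtain ⟨a, rfl⟩ := Submodule.Quotient.mk_surjective _ x
  refine ⟨g a, ?_⟩
  have hex : ∃ a', g a' = g a := ⟨a, rfl⟩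
  simp only [s, dif_pos hex]
  rw [Submodule.Quotient.eq]
  exact h _ _ hex.choose_spec

variable {q : Nat.Primes} {Γ : Type} [Group Γ] [Finite Γ] {π : Gloc q →* Γ}
  {hπ : Surjective π}

/-- `𝒪_L^× / U^(1)` is finite -/
theorem finite_units_mod_princ (hopen : (basisLoc q).IsOpen π.ker) :
    Finite (unitsSub π hπ ⧸
      LinearMap.range (Submodule.inclusion (princSub_le_unitsSub (π := π) (hπ := hπ)))) := by
  have := finiteDimensional_fixL hopen
  have := finite_residL (fixL q π.ker)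
  refine finite_quotient_of_sep _
    (fun a : unitsSub π hπ => residL (fixL q π.ker) (uval π hπ a.1)) ?_
  intro a b hab
  have ha : ‖uval π hπ a.1‖ = 1 := a.2
  have hb : ‖uval π hπ b.1‖ = 1 := b.2
  have hlt := residL_eq (fixL q π.ker) (uval_mem_fixL a.1) (uval_mem_fixL b.1) ha.le hb.le hab
  rw [Submodule.range_inclusion, Submodule.mem_comap]
  show ‖uval π hπ ((a - b : unitsSub π hπ) : InvMod π hπ (Yloc q)) - 1‖ < 1
  have hb0 := uval_ne_zero b.1
  have e : uval π hπ ((a - b : unitsSub π hπ) : InvMod π hπ (Yloc q)) - 1 =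
      (uval π hπ a.1 - uval π hπ b.1) / uval π hπ b.1 := by
    rw [Submodule.coe_sub, uval_sub]
    field_simp
  rw [e, norm_div, hb, div_one]
  exact hlt

variable (p : ℕ) [Fact p.Prime]

/-- **COMMON SETUP of WP2**: `δ_ψ(L^×) = δ_ψ(U^(1)) − ψ(𝔽_p)` for every prime `q`. -/
theorem delta_invMod (hopen : (basisLoc q).IsOpen π.ker)
    [PGood (ZG Γ) p (princSub π hπ)] :
    PGood (ZG Γ) p (InvMod π hπ (Yloc q)) ∧
    ∀ ψ : AddInvariant (ZG Γ) p,
      delta (ZG Γ) p (InvMod π hπ (Yloc q)) ψ =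
        delta (ZG Γ) p (princSub π hπ) ψ
          - ψ.val (PermMod Γ (ZMod p) (Γ ⧸ (⊤ : Subgroup Γ))) := by
  obtain ⟨c, ord, hc0, hc1, hord, hsurj⟩ := exists_ord (hπ := hπ) hopen
  have hinj : Injective (fun n : ℤ => c ^ n) := zpow_right_injective₀ hc0 hc1.ne
  have hordinv : ∀ (γ : Γ) (x : InvMod π hπ (Yloc q)), ord (gsm γ x) = ord x := by
    intro γ x
    apply hinj
    show c ^ ord (gsm γ x) = c ^ ord x
    rw [← hord, ← hord, norm_uval_gsm]
  -- the valuation as a `ℤ[Γ]`-linear map to the trivial module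
  let vAdd : InvMod π hπ (Yloc q) →+ PermMod Γ ℤ (Γ ⧸ (⊤ : Subgroup Γ)) :=
    (PermMod.fn (Γ := Γ) (A := ℤ) (X := Γ ⧸ (⊤ : Subgroup Γ))).symm.toAddMonoidHom.comp
      ((Pi.constAddMonoidHom (Γ ⧸ (⊤ : Subgroup Γ)) ℤ).comp ord)
  have hvAdd : ∀ x (t : Γ ⧸ (⊤ : Subgroup Γ)), PermMod.fn (vAdd x) t = ord x := by
    intro x t
    simp [vAdd]
  let v : InvMod π hπ (Yloc q) →ₗ[ZG Γ] PermMod Γ ℤ (Γ ⧸ (⊤ : Subgroup Γ)) :=
    linOfComm vAdd (fun γ x => by
      apply PermMod.ext
      intro t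
      rw [PermMod.fn_gsm, hvAdd, hvAdd, hordinv])
  have hv : ∀ x (t : Γ ⧸ (⊤ : Subgroup Γ)), PermMod.fn (v x) t = ord x := hvAdd
  have hvsurj : Surjective v := by
    intro z
    obtain ⟨x, hx⟩ := hsurj (PermMod.fn z (QuotientGroup.mk 1))
    refine ⟨x, ?_⟩
    apply PermMod.ext
    intro t
    rw [hv, hx]
    have := QuotientGroup.subsingleton_quotient_top (G := Γ)
    rw [Subsingleton.elim t (QuotientGroup.mk 1)]
  have : Finite (PermMod Γ ℤ (Γ ⧸ (⊤ : Subgroup Γ)) ⧸ LinearMap.range v) := by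
    rw [LinearMap.range_eq_top.2 hvsurj]
    infer_instance
  have hjv : Exact (unitsSub π hπ).subtype v := by
    intro x
    constructor
    · intro h
      have h1 : ord x = 0 := by
        rw [← hv x (QuotientGroup.mk 1), h]
        simp
      have h2 : ‖uval π hπ x‖ = 1 := by
        rw [hord, h1, zpow_zero]
      exact ⟨⟨x, h2⟩, rfl⟩
    · rintro ⟨⟨y, hy⟩, rfl⟩
      have h1 : ‖uval π hπ y‖ = 1 := hy
      apply PermMod.ext
      intro t
      show PermMod.fn (v y) t = PermMod.fn 0 t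
      rw [hv, map_zero, Pi.zero_apply]
      apply hinj
      show c ^ ord y = c ^ (0 : ℤ)
      rw [← hord, h1, zpow_zero]
  have := finite_units_mod_princ (hπ := hπ) hopen
  set i := Submodule.inclusion (princSub_le_unitsSub (π := π) (hπ := hπ)) with hi
  have : PGood (ZG Γ) p (PermMod Γ ℤ (Γ ⧸ (⊤ : Subgroup Γ))) :=
    pGood_of_tors_eq_bot _ (PermMod.tors_eq_bot p _)
  refine ⟨pGood_of_filtration i (LinearMap.range i).mkQ
      (Submodule.inclusion_injective _) (LinearMap.range i).mkQ_surjective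
      (LinearMap.exact_map_mkQ_range i) (unitsSub π hπ).subtype v
      (unitsSub π hπ).injective_subtype hjv (PermMod.tors_eq_bot p _), fun ψ => ?_⟩
  rw [delta_of_filtration' ψ i (LinearMap.range i).mkQ
      (Submodule.inclusion_injective _) (LinearMap.range i).mkQ_surjective
      (LinearMap.exact_map_mkQ_range i) (unitsSub π hπ).subtype v
      (unitsSub π hπ).injective_subtype hjv (PermMod.tors_eq_bot p _),
    ψ.iso _ _ (PermMod.cotEquiv (Γ := Γ) p (Γ ⧸ (⊤ : Subgroup Γ)))]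

end Main

end Fermat.Agent.S56lib.PT9a
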