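/-
S56 marathon, helper7.  **(App4)**: the abstract quadratic count for helper3's Kummer families
(`Kum/CountAbs`, `Kum/Count`): for a tame generator `σ` and a multiplier `m ∈ k` of norm one over the
prime field (`m ^ (p + 1) = 1`, `m ∉ 𝔽_p`), with a `p²`-Frobenius `ψ` acting equivariantly,
`#𝓕 ≤ #k`.

`m` is a root of `Q = X² - t X + 1`, `t = m + m ^ p ∈ 𝔽_p`.  At most one level `i ∈ [e, T)` matches
(two matching levels give two roots `ϑ_i, ϑ_i'` of `Q`, equal or of product one: both impossible);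
at a matching level the leading coefficient maps are linear over `E = 𝔽_p[X]/(Q)`.
-/
import Mathlib
import Fermat.Agent.S56lib.Kum.Count

set_option autoImplicit false
set_option linter.unusedSectionVars false
set_option linter.style.haveILetI false

open scoped NormedField Valued NNReal

noncomputable section

namespace Fermat.Agent.S56lib.PT9a

open Fermat.Agent.S55lib.LocalUnr Fermat.Agent.S56lib.Kum IsUltrametricDist Polynomial

section Alg

variable (p : ℕ) [hp : Fact p.Prime]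

/-- the integral quadratic polynomial `X² - t X + 1` -/
def quadInt (t : ℤ) : ℤ[X] := C 1 * X ^ 2 + C (-t) * X + C 1

theorem aeval_quadInt {F : Type*} [CommRing F] [Algebra ℤ F] (t : ℤ) (x : F) :
    aeval x (quadInt t) = x ^ 2 - (t : F) * x + 1 := by
  rw [quadInt, map_add, map_add, map_mul, map_mul, map_pow, aeval_X]
  simp only [aeval_C]
  simp only [eq_intCast]
  push_cast
  ring

theorem natDegree_quadInt (t : ℤ) : (quadInt t).natDegree = 2 :=
  natDegree_quadratic one_ne_zero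

theorem monic_quadInt (t : ℤ) : (quadInt t).Monic :=
  leadingCoeff_quadratic one_ne_zero

/-- evaluation of the reduction mod `p` of an integral polynomial -/
theorem eval₂_map_int {F : Type*} [CommRing F] [Algebra (ZMod p) F] [Algebra ℤ F] (G : ℤ[X])
    (x : F) :
    eval₂ (algebraMap (ZMod p) F) x (G.map (Int.castRingHom (ZMod p))) = aeval x G := by
  rw [eval₂_map, aeval_def]
  congr 1
  exact RingHom.ext_int _ _

theorem lift_mk_map_int {F : Type*} [CommRing F] [Algebra (ZMod p) F] [Algebra ℤ F]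
    (q : (ZMod p)[X]) (x : F)
    (h : eval₂ (algebraMap (ZMod p) F) x q = 0) (G : ℤ[X]) :
    AdjoinRoot.lift (algebraMap (ZMod p) F) x h
      (AdjoinRoot.mk q (G.map (Int.castRingHom (ZMod p)))) = aeval x G := by
  rw [AdjoinRoot.lift_mk, eval₂_map_int]

/-- `X² - t X + 1` is irreducible over `𝔽_p` when its roots `m, m ^ p` are not in `𝔽_p` -/
theorem irreducible_quadInt_map {F : Type*} [Field F] [CharP F p] {m : F} (hm : m ^ (p + 1) = 1)
    (hmp : m ^ p ≠ m) (hmpp : (m ^ p) ^ p = m) {t : ℤ} (ht : m + m ^ p = (t : F)) :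
    Irreducible ((quadInt t).map (Int.castRingHom (ZMod p))) := by
  letI : Algebra (ZMod p) F := ZMod.algebra F p
  have hmonic : ((quadInt t).map (Int.castRingHom (ZMod p))).Monic := (monic_quadInt t).map _
  have hdeg : ((quadInt t).map (Int.castRingHom (ZMod p))).natDegree = 2 := by
    rw [(monic_quadInt t).natDegree_map, natDegree_quadInt]
  rw [hmonic.irreducible_iff_roots_eq_zero_of_degree_le_three (by omega) (by omega)]
  rw [Multiset.eq_zero_iff_forall_notMem]
  intro c hc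
  rw [mem_roots hmonic.ne_zero, IsRoot, ← eval₂_id] at hc
  set c' : F := algebraMap (ZMod p) F c with hc'
  have h1 : aeval c' (quadInt t) = 0 := by
    rw [← eval₂_map_int p (quadInt t) c']
    have := congrArg (algebraMap (ZMod p) F) hc
    rw [map_zero, hom_eval₂, RingHom.comp_id] at this
    exact this
  rw [aeval_quadInt, ← ht] at h1
  have h2 : (c' - m) * (c' - m ^ p) = 0 := by
    have h3 : m ^ p * m = 1 := by rw [← pow_succ]; exact hm
    linear_combination h1 + h3
  have hcp : c' ^ p = c' := by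
    rw [hc', ← map_pow, ZMod.pow_card]
  rcases mul_eq_zero.1 h2 with h | h
  · have : c' = m := sub_eq_zero.1 h
    rw [this] at hcp
    exact hmp hcp
  · have : c' = m ^ p := sub_eq_zero.1 h
    rw [this, hmpp] at hcp
    exact hmp hcp.symm

end Alg

section Count

variable {K : Type*} [NontriviallyNormedField K] [IsUltrametricDist K] [ProperSpace K] {p : ℕ}
variable {k 𝓕 : Type*} [Field k] [AddCommGroup 𝓕] [Module k 𝓕]

variable (hp : p.Prime) (hpK : ‖(p : K)‖ < 1) (hp0 : (p : K) ≠ 0) {ζ : K}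
  (hζ : IsPrimitiveRoot ζ p) {u : 𝓕 → Kˣ}
  {σ : K ≃+* K} (hσ : ∀ x, ‖σ x‖ = ‖x‖) (hres : ∀ x, resMap σ hσ x = x) {n N : ℕ}
  (hn : σ ζ = ζ ^ n) (hnN : n * N ≡ 1 [MOD p])
  (hord : ((orderOf (theta σ hσ) : ℕ) : ℤ) = ord K (p : K))

include hp hpK hp0 hζ hres hn hnN hord

/-- two distinct levels in `[e, T)` cannot both match a root of `X² - t X + 1` -/
theorem not_two_matching (hp2 : p ≠ 2) (t : ℤ) {i i' : ℕ} (h1 : orderOf (theta σ hσ) ≤ i)
    (h2 : i < i') (h3 : i' < topLevel K p ζ)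
    (hx : aeval ((N : 𝓀[K]) * theta σ hσ ^ i) (quadInt t) = 0)
    (hy : aeval ((N : 𝓀[K]) * theta σ hσ ^ i') (quadInt t) = 0) : False := by
  set θ := theta σ hσ with hθ
  set e := orderOf θ with he
  set T := topLevel K p ζ with hT
  set l := lamOrd K ζ with hl
  have hl1 : 1 ≤ l := lamOrd_pos hp hpK hζ
  have heq : e = (p - 1) * l := orderOf_theta_eq hp hpK hp0 hζ hσ hord
  have hTeq : T = e + l := topLevel_eq_add hp hpK hp0 hζ hσ hord
  have hp3 : 3 ≤ p := by have := hp.two_le; omega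
  have he2l : 2 * l ≤ e := by
    rw [heq]
    exact Nat.mul_le_mul_right l (by omega)
  have hNne : (N : 𝓀[K]) ≠ 0 := natCast_N_ne_zero hp hpK hnN
  have hθ0 : θ ≠ 0 := theta_ne_zero σ hσ
  set x := (N : 𝓀[K]) * θ ^ i with hxdef
  set y := (N : 𝓀[K]) * θ ^ i' with hydef
  rw [aeval_quadInt] at hx hy
  have hprod : (x - y) * (x + y - (t : 𝓀[K])) = 0 := by linear_combination hx - hy
  rcases mul_eq_zero.1 hprod with h | h
  · have hxy : θ ^ i = θ ^ i' := mul_left_cancel₀ hNne (sub_eq_zero.1 h)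
    have h4 : θ ^ i' = θ ^ i * θ ^ (i' - i) := by
      rw [← pow_add]
      congr 1
      omega
    rw [h4] at hxy
    have h5 : θ ^ (i' - i) = 1 := by
      have h6 : θ ^ i * 1 = θ ^ i * θ ^ (i' - i) := by rw [mul_one]; exact hxy
      exact (mul_left_cancel₀ (pow_ne_zero i hθ0) h6).symm
    have hdvd := orderOf_dvd_of_pow_eq_one h5
    have := Nat.le_of_dvd (by omega) hdvd
    omega
  · have hxy : x * y = 1 := by linear_combination (-1 : 𝓀[K]) * hx + x * h
    have hvx : x * θ ^ (T - i) = 1 :=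
      vartheta_mul_pow hp hpK hζ hσ hres hn hnN (i := i) (by omega)
    have hvy : y * θ ^ (T - i') = 1 :=
      vartheta_mul_pow hp hpK hζ hσ hres hn hnN (i := i') (by omega)
    have h5 : θ ^ ((T - i) + (T - i')) = 1 := by
      rw [pow_add]
      calc θ ^ (T - i) * θ ^ (T - i') = (x * y) * (θ ^ (T - i) * θ ^ (T - i')) := by
            rw [hxy, one_mul]
        _ = (x * θ ^ (T - i)) * (y * θ ^ (T - i')) := by ring
        _ = 1 := by rw [hvx, hvy, one_mul]
    have hdvd := orderOf_dvd_of_pow_eq_one h5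
    have := Nat.le_of_dvd (by omega) hdvd
    omega

/-- **(App4) the quadratic count** -/
theorem card_le_of_quadratic [Finite k] [CharP k p] (hp2 : p ≠ 2) (ha : IsAddModP p u)
    (hsep : IsSepModP p k u) {m : k} (hm : m ^ (p + 1) = 1) (hmp : m ^ p ≠ m)
    (hd : IsEquivModP p u σ m N)
    {ψ : K ≃+* K} (hψ : ∀ x, ‖ψ x‖ = ‖x‖) (hψres : ∀ x, resMap ψ hψ x = x ^ (p ^ 2))
    {mψ : k} (hmψ : mψ ≠ 0) {Nψ : ℕ} (hdψ : IsEquivModP p u ψ mψ Nψ)
    (hall : ∀ f, u f ∈ lev K p (orderOf (theta σ hσ))) : Nat.card 𝓕 ≤ Nat.card k := by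
  classical
  haveI : Fact p.Prime := ⟨hp⟩
  haveI := charP_residue K hp hpK
  have hl1 : 1 ≤ lamOrd K ζ := lamOrd_pos hp hpK hζ
  have hTeq : topLevel K p ζ = orderOf (theta σ hσ) + lamOrd K ζ :=
    topLevel_eq_add hp hpK hp0 hζ hσ hord
  have he1 : 1 ≤ orderOf (theta σ hσ) := orderOf_theta_pos hp hpK hp0 hζ hσ hord
  have hm1 : m ≠ 1 := by
    rintro rfl
    exact hmp (by simp)
  have hmpm : m ^ p * m = 1 := by rw [← pow_succ]; exact hm
  have hmpp : (m ^ p) ^ p = m := by
    have h1 : m ^ p = m⁻¹ := eq_inv_of_mul_eq_one_left hmpm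
    rw [h1, inv_pow, h1, inv_inv]
  have htp : (m + m ^ p) ^ p = m + m ^ p := by rw [add_pow_char, hmpp, add_comm]
  obtain ⟨t, ht⟩ := exists_intCast_of_pow_eq_self p htp
  have hQm : aeval m (quadInt t) = 0 := by
    rw [aeval_quadInt, ← ht]
    linear_combination -hmpm
  -- matching levels are roots of `Q`
  have hmatchQ : ∀ i, ¬ NonMatch p σ hσ m N i →
      ¬ p ∣ i ∧ aeval ((N : 𝓀[K]) * theta σ hσ ^ i) (quadInt t) = 0 := by
    intro i hi
    refine ⟨fun hdvd => hi (Or.inl hdvd), ?_⟩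
    by_contra hne
    exact hi (Or.inr ⟨quadInt t, hQm, hne⟩)
  by_cases hex : ∃ i, orderOf (theta σ hσ) ≤ i ∧ i < topLevel K p ζ ∧ ¬ NonMatch p σ hσ m N i
  swap
  · push Not at hex
    have hzero : ∀ f : 𝓕, f = 0 :=
      eq_zero_of_nonMatch hp hpK hp0 hζ ha hsep hσ hres hn hnN hm1 hd he1 (by omega) hall
        (fun i h1 h2 => hex i h1 h2)
    haveI : Subsingleton 𝓕 := ⟨fun a b => by rw [hzero a, hzero b]⟩
    calc Nat.card 𝓕 ≤ 1 := Finite.card_le_one_iff_subsingleton.2 inferInstance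
      _ ≤ Nat.card k := Nat.one_le_iff_ne_zero.2 Nat.card_pos.ne'
  · obtain ⟨i₁, h1, h2, hmatch⟩ := hex
    obtain ⟨hndvd, hQϑ⟩ := hmatchQ i₁ hmatch
    have hnm_other : ∀ i, orderOf (theta σ hσ) ≤ i → i < topLevel K p ζ → i ≠ i₁ →
        NonMatch p σ hσ m N i := by
      intro i hi1 hi2 hne
      by_contra hcon
      rcases lt_or_gt_of_ne hne with h | h
      · exact not_two_matching hp hpK hp0 hζ hσ hres hn hnN hord hp2 t hi1 h h2
          (hmatchQ i hcon).2 hQϑ
      · exact not_two_matching hp hpK hp0 hζ hσ hres hn hnN hord hp2 t h1 h hi2 hQϑ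
          (hmatchQ i hcon).2
    obtain ⟨j, hj⟩ := Nat.exists_eq_add_of_le h1
    have hspec := topLevel_spec hp hpK hp0 hζ
    have hp1 : (0 : ℤ) < (p : ℤ) - 1 := by
      have := hp.one_lt
      omega
    have hall₁ : ∀ f, u f ∈ lev K p i₁ := by
      rw [hj]
      refine mem_lev_of_nonMatch hp hpK hp0 ha hσ hres hd he1 hall j ?_ ?_
      · rw [← hj, ← hspec]
        apply mul_le_mul_of_nonneg_left _ hp1.le
        exact_mod_cast h2.le
      · intro i hi1 hi2
        exact hnm_other i hi1 (by omega) (by omega)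
    have hg : GoodLevel K p i₁ := by
      refine ⟨by omega, hndvd, ?_⟩
      rw [← hspec]
      apply mul_lt_mul_of_pos_left _ hp1
      exact_mod_cast h2
    -- the quadratic field `E`
    letI : Algebra (ZMod p) k := ZMod.algebra k p
    letI : Algebra (ZMod p) 𝓀[K] := ZMod.algebra _ p
    set q : (ZMod p)[X] := (quadInt t).map (Int.castRingHom (ZMod p)) with hq
    haveI : Fact (Irreducible q) := ⟨irreducible_quadInt_map p hm hmp hmpp ht⟩
    have hqm : eval₂ (algebraMap (ZMod p) k) m q = 0 := by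
      rw [hq, eval₂_map_int]
      exact hQm
    have hqϑ : eval₂ (algebraMap (ZMod p) 𝓀[K]) ((N : 𝓀[K]) * theta σ hσ ^ i₁) q = 0 := by
      rw [hq, eval₂_map_int]
      exact hQϑ
    letI : Algebra (AdjoinRoot q) k := (AdjoinRoot.lift (algebraMap (ZMod p) k) m hqm).toAlgebra
    letI : Algebra (AdjoinRoot q) 𝓀[K] :=
      (AdjoinRoot.lift (algebraMap (ZMod p) 𝓀[K]) ((N : 𝓀[K]) * theta σ hσ ^ i₁) hqϑ).toAlgebra
    have hq0 : q ≠ 0 := (Fact.out : Irreducible q).ne_zero
    have hqdeg : q.natDegree = 2 := by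
      rw [hq, (monic_quadInt t).natDegree_map, natDegree_quadInt]
    haveI : Module.Finite (ZMod p) (AdjoinRoot q) := (AdjoinRoot.powerBasis hq0).finite
    haveI : Finite (AdjoinRoot q) := Module.finite_of_finite (ZMod p)
    have hcardE : Nat.card (AdjoinRoot q) = p ^ 2 := by
      haveI : Fintype (AdjoinRoot q) := Fintype.ofFinite _
      rw [Nat.card_eq_fintype_card, Module.card_eq_pow_finrank (K := ZMod p), ZMod.card,
        (AdjoinRoot.powerBasis hq0).finrank, AdjoinRoot.powerBasis_dim, hqdeg]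
    refine card_le_of_matching_nonMatch hp hpK hp0 hζ (E := AdjoinRoot q) 2 hcardE ha hsep hg
      hall₁ ?_ hψ hψres hmψ hdψ hσ hres hn hnN hm1 hd
      (fun i hi1 hi2 => hnm_other i (by omega) hi2 (by omega))
    intro f ε a
    obtain ⟨g, rfl⟩ := AdjoinRoot.mk_surjective ε
    obtain ⟨G, rfl⟩ := Polynomial.map_surjective (Int.castRingHom (ZMod p))
      (fun z => by
        obtain ⟨y, hy⟩ := ZMod.intCast_surjective z
        exact ⟨y, by rw [eq_intCast]; exact hy⟩) g
    have e1 : (AdjoinRoot.mk q (G.map (Int.castRingHom (ZMod p)))) • a = aeval m G * a := by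
      rw [Algebra.smul_def, RingHom.algebraMap_toAlgebra, lift_mk_map_int]
    have e2 : ∀ z : 𝓀[K], (AdjoinRoot.mk q (G.map (Int.castRingHom (ZMod p)))) • z =
        aeval ((N : 𝓀[K]) * theta σ hσ ^ i₁) G * z := by
      intro z
      rw [Algebra.smul_def, RingHom.algebraMap_toAlgebra, lift_mk_map_int]
    rw [e1, e2]
    exact lcHom_aeval hp hpK hp0 ha hσ hres hd hg hall₁ f G a

end Count

end Fermat.Agent.S56lib.PT9a
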