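/-
S56lib / PT9a / TWLocal  (helper7).

**(N6) The local `H²` at a Taylor–Wiles prime**: for `q ∈ S`, `q ≡ 1 mod p`, and a Frobenius `φ` at `padicPlace q` with
`ρ̄(φ)` not scalar (e.g. with distinct eigenvalues), `|H²(G_q, ad⁰ρ̄)| ≤ |K|`.
-/
import Fermat.Agent.S56lib.PT9a.LocDual
import Fermat.Agent.S56lib.PT9a.AdFix
import Fermat.Agent.S29lib.X.Cyclo

set_option autoImplicit false

noncomputable section

namespace Fermat.Agent.S56lib.PT9a

open Fermat.Agent.S55lib Fermat.Agent.S56lib ExtCitation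
open scoped Pointwise

variable {p : ℕ} [hp : Fact p.Prime]

/-- `χ_p(Frob_q) = 1` for `q ≡ 1 mod p` -/
theorem cycloChar_eq_one_of_isFrobeniusAt {A : ValuationSubring Qbar} {q : ℕ} (hq : q.Prime)
    (hqp : q ≠ p) (h1 : p ∣ q - 1) (hA : A.LiesOverPrime q) {φ : GQ} (hφ : A.IsFrobeniusAt φ q) :
    cycloChar p φ = 1 := by
  have h := Fermat.Agent.S29lib.X.chi_of_isFrobeniusAt (p := p) hq hqp hA hφ
  apply Units.ext
  rw [Units.val_one]
  have h2 : ((q : ℕ) : ZMod p) = 1 := by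
    have h3 : ((q - 1 : ℕ) : ZMod p) = 0 := (ZMod.natCast_eq_zero_iff _ _).2 h1
    rw [Nat.cast_sub hq.one_lt.le, Nat.cast_one, sub_eq_zero] at h3
    exact h3
  rw [← h2]
  exact h

variable {K : Type} [Field K] [Finite K] [CharP K p]

/-- **(N6)** `|H²(G_q, ad⁰ρ̄)| ≤ |K|` at a prime `q ≡ 1 mod p` of `S` where some Frobenius at `padicPlace q` has
non-scalar image under `ρ̄` -/
theorem card_H2loc_adRep_le (hp2 : p ≠ 2) (S : Finset Nat.Primes)
    (hpS : (⟨p, hp.out⟩ : Nat.Primes) ∈ S) (rb : GQ →* Matrix (Fin 2) (Fin 2) K)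
    (hM : Sm.IsSmooth (MonoidHom.id GQ) (LevelClass.unr S) (Dict.adRep p rb)) (q : S)
    (hqp : (q.1 : ℕ) ≠ p) (h1 : p ∣ (q.1 : ℕ) - 1) (φ : GQ)
    (hφ : (padicPlace (q.1 : ℕ)).IsFrobeniusAt φ (q.1 : ℕ))
    (hns : ∀ c : K, rb φ ≠ c • (1 : Matrix (Fin 2) (Fin 2) K)) :
    Nat.card (H2loc (Dict.adRep p rb) q.1) ≤ Nat.card K := by
  have hχ : cycloChar p φ = 1 :=
    cycloChar_eq_one_of_isFrobeniusAt q.1.2 hqp h1 (padicPlace_liesOverPrime (q.1 : ℕ)) hφ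
  have hdec : φ • padicPlace (q.1 : ℕ) = padicPlace (q.1 : ℕ) := hφ.mem_decompositionSubgroup
  exact (card_H2loc_le_of_decomp hp2 S hpS (Dict.adRep p rb) hM q φ hdec hχ).trans
    (card_ker_adRep_le p rb hp2 φ hns)

end Fermat.Agent.S56lib.PT9a
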